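import Mathlib
import Fermat.Agent.TT.Red2.IntoNodeS
import Fermat.Agent.TT.Red2.IntoInst

/-!
# PROGRAM MR (S44), block `mrn` = NODE-LOCAL over the TT ring `𝔸` : LITERAL STATEMENTS (Spec)

Owner: helper19 (MR-PM R61).  Prefix `mrn` / `Mrn`.  Namespace `Fermat.Agent.MR`.
Only `Prop`-valued definitions here; the proofs live in `MR/Node/*.lean`.

Setting (all LANDED on main, Program TT): `M` prime to `p`, `𝔸` a valuation ring of `ℚ̄` over `p`,
`F = F_ℚ̄(M p)` (function field of `X₀(M p)`), `V₁ = ttrV1`, `V₂ = ttraV2`, `O2 = V₁ ⊓ V₂ = ttrglO2`,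
`red_j = ttrglRed_j : O2 → F_k(M)`, the canonical nodes `S = ttrkS M p 𝔸 hpM h𝔸 hat` with branches
`ν_j = ttrkSν_j`, the places centred at the node `i` : `ttruCenS … i`, the places centred at the
closed point `Q` of the `j`-th component : `ttrglCen_j … hat Q`, inertia `I = ffI 𝔸` acting through
`ffigRho (M p) 𝔸`.

CONSUMERS: `mrr` (helper12, (R-ABS)) consumes `MrnGlueSpec`, `MrnReg₁Spec`, `MrnReg₂Spec`,
`MrnLocEqNodeSpec`, `MrnLocEq₁Spec`, `MrnLocEq₂Spec`; `mrs` (helper29) consumes `MrnCoord`,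
`MrnOneZeroSpec`, `MrnFactorSpec`, `MrnJumpSpec`; `mrk` (helper25) PROVIDES `MrnCoordSpec`.
-/

set_option autoImplicit false
set_option linter.unusedSectionVars false
set_option linter.unusedVariables false
set_option linter.style.haveILetI false

noncomputable section

namespace Fermat.Agent.MR

open Polynomial ModularCurve AlgebraicCurve IsLocalRing IntermediateField
  Fermat.Agent.G Fermat.Agent.S18 Fermat.Agent.S24 Fermat.Agent.FF Fermat.Agent.TT

open scoped Classical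

local notation "Qb" => AlgebraicClosure ℚ

variable (M : ℕ) [NeZero M] {p : ℕ} [Fact p.Prime] [NeZero p]
variable (A : ValuationSubring Qb) (hpM : ¬ p ∣ M) (hA : A.LiesOverPrime p)
variable {τ τ' : LaurentSeries ℤ} (hat : GrdAtlas M A τ τ')

/-! ## 0. Vocabulary -/

/-- `x ∈ O_s` : `x ∈ V₁ ∩ V₂` without poles at the places centred at the node `i`. -/
def MrnInOs (i : ttrkS M p A hpM hA hat) (x : ↥(modularFunctionFieldBar (M * p))) : Prop :=
  x ∈ ttrglO2 M A hpM hA ∧ ∀ v, ttruCenS M A hpM hA hat i v → x ∈ v.toValuationSubring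

/-- `f` is rational over the fixed field of `H ≤ I` (`H = I_L`: the `L`-rational functions). -/
def MrnRat (H : Subgroup ↥(ffI A)) (f : ↥(modularFunctionFieldBar (M * p))) : Prop :=
  ∀ σ ∈ H, ffigRho (M * p) A σ • f = f

/-- `D` is an `H`-stable (= `L`-rational) divisor. -/
def MrnRatDiv (H : Subgroup ↥(ffI A)) (D : Divisor Qb ↥(modularFunctionFieldBar (M * p))) : Prop :=
  ∀ σ ∈ H, ffigRho (M * p) A σ • D = D

/-! ## 1. (LOC-GLUE_s), (LOC-REG_P) -/

/-- **(LOC-GLUE_s)** : a function of `V₁ ∩ V₂` without poles at the places centred at the node `i`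
has both reductions regular at the branch points, with ONE common value `c`, and its value at
every place centred at `i` reduces to `c`. -/
def MrnGlueSpec : Prop :=
  ∀ (i : ttrkS M p A hpM hA hat) (x : ↥(modularFunctionFieldBar (M * p)))
    (hx : x ∈ ttrglO2 M A hpM hA),
    (∀ v, ttruCenS M A hpM hA hat i v → x ∈ v.toValuationSubring) →
    ∃ c : ResidueField A,
      GrdVal (ttrkSν₁ M p A hpM hA hat i) (ttrglRed₁ M A hpM hA ⟨x, hx⟩) c ∧
      GrdVal (ttrkSν₂ M p A hpM hA hat i) (ttrglRed₂ M A hpM hA ⟨x, hx⟩) c ∧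
      ∀ v, ttruCenS M A hpM hA hat i v → ∃ a : A, GrdVal v x (a : Qb) ∧ residue A a = c

/-- **(LOC-REG_P), first component** : at EVERY closed point `Q` of the first component. -/
def MrnReg₁Spec : Prop :=
  ∀ (Q : Place (ResidueField A) ↥(modularFunctionFieldFullC (ResidueField A) M))
    (x : ↥(modularFunctionFieldBar (M * p))) (hx : x ∈ ttrglO2 M A hpM hA),
    (∀ v, ttrglCen₁ M A hpM hA hat Q v → x ∈ v.toValuationSubring) →
    ∃ c : ResidueField A, GrdVal Q (ttrglRed₁ M A hpM hA ⟨x, hx⟩) c ∧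
      ∀ v, ttrglCen₁ M A hpM hA hat Q v → ∃ a : A, GrdVal v x (a : Qb) ∧ residue A a = c

/-- **(LOC-REG_P), second component.** -/
def MrnReg₂Spec : Prop :=
  ∀ (Q : Place (ResidueField A) ↥(modularFunctionFieldFullC (ResidueField A) M))
    (x : ↥(modularFunctionFieldBar (M * p))) (hx : x ∈ ttrglO2 M A hpM hA),
    (∀ v, ttrglCen₂ M A hpM hA hat Q v → x ∈ v.toValuationSubring) →
    ∃ c : ResidueField A, GrdVal Q (ttrglRed₂ M A hpM hA ⟨x, hx⟩) c ∧
      ∀ v, ttrglCen₂ M A hpM hA hat Q v → ∃ a : A, GrdVal v x (a : Qb) ∧ residue A a = c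

/-- **units of `O_s`** : an element of `O_s` whose common value at the node is nonzero is a unit. -/
def MrnUnitSpec : Prop :=
  ∀ (i : ttrkS M p A hpM hA hat) (x : ↥(modularFunctionFieldBar (M * p)))
    (hx : MrnInOs M A hpM hA hat i x),
    ¬ GrdVal (ttrkSν₁ M p A hpM hA hat i) (ttrglRed₁ M A hpM hA ⟨x, hx.1⟩) 0 →
    MrnInOs M A hpM hA hat i x⁻¹

/-! ## 2. Coordinates at a node (PROVIDED by `mrk`, helper25) -/

/-- **node coordinates** `u, w ∈ 𝔫_s`, `u w = κ ε`, `ε ∈ O_sˣ`, `κ ∈ 𝔪_𝔸 ∖ 0`; `u` is a parameter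
of the first branch and vanishes on the second component, `w` symmetrically; `u, w` are
`I`-invariant (`W`-rational) and `κ ∈ W`. -/
structure MrnCoord (i : ttrkS M p A hpM hA hat) (u w ε : ↥(modularFunctionFieldBar (M * p)))
    (κ : Qb) : Prop where
  hu : MrnInOs M A hpM hA hat i u
  hw : MrnInOs M A hpM hA hat i w
  hε : MrnInOs M A hpM hA hat i ε
  hεu : ¬ GrdVal (ttrkSν₁ M p A hpM hA hat i) (ttrglRed₁ M A hpM hA ⟨ε, hε.1⟩) 0
  κ_mem : κ ∈ A.nonunits
  κ_ne : κ ≠ 0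
  mul : u * w = algebraMap Qb ↥(modularFunctionFieldBar (M * p)) κ * ε
  u_red₂ : ttrglRed₂ M A hpM hA ⟨u, hu.1⟩ = 0
  w_red₁ : ttrglRed₁ M A hpM hA ⟨w, hw.1⟩ = 0
  u_ord : (ttrkSν₁ M p A hpM hA hat i).ord (ttrglRed₁ M A hpM hA ⟨u, hu.1⟩) = 1
  w_ord : (ttrkSν₂ M p A hpM hA hat i).ord (ttrglRed₂ M A hpM hA ⟨w, hw.1⟩) = 1
  u_inv : ∀ σ : ↥(ffI A), ffigRho (M * p) A σ • u = u
  w_inv : ∀ σ : ↥(ffI A), ffigRho (M * p) A σ • w = w
  κ_inv : ∀ σ : ↥(ffI A), (σ : Qb ≃ₐ[ℚ] Qb) κ = κ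

/-- **(COORD)** (`mrk`) : coordinates exist at every node. -/
def MrnCoordSpec : Prop :=
  ∀ i : ttrkS M p A hpM hA hat, ∃ (u w ε : ↥(modularFunctionFieldBar (M * p))) (κ : Qb),
    MrnCoord M A hpM hA hat i u w ε κ

/-! ## 3. (ONE-ZERO) : the annulus and the discs -/

/-- **(ONE-ZERO) at a node** : every place `R` centred at the node `i` has `u(R) =: c` with
`0 < v(c) < v(κ)`, `u - c` is a uniformiser at `R` and has no other zero among the places centred
at `i`. -/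
def MrnOneZeroSpec : Prop :=
  ∀ (i : ttrkS M p A hpM hA hat) (u w ε : ↥(modularFunctionFieldBar (M * p))) (κ : Qb),
    MrnCoord M A hpM hA hat i u w ε κ →
    ∀ R, ttruCenS M A hpM hA hat i R →
      ∃ c : Qb, c ∈ A.nonunits ∧ c ≠ 0 ∧ κ / c ∈ A.nonunits ∧ GrdVal R u c ∧
        R.ord (u - algebraMap Qb ↥(modularFunctionFieldBar (M * p)) c) = 1 ∧
        ∀ R', ttruCenS M A hpM hA hat i R' → R' ≠ R →
          R'.ord (u - algebraMap Qb ↥(modularFunctionFieldBar (M * p)) c) = 0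

/-- **(ONE-ZERO) at a smooth point of the first component** : an `I`-invariant parameter `t` of
the residue disc of `Q`. -/
def MrnDisc₁Spec : Prop :=
  ∀ Q : Place (ResidueField A) ↥(modularFunctionFieldFullC (ResidueField A) M),
    (∀ i, ttrkSν₁ M p A hpM hA hat i ≠ Q) →
    ∃ (t : ↥(modularFunctionFieldBar (M * p))) (ht : t ∈ ttrglO2 M A hpM hA),
      (∀ σ : ↥(ffI A), ffigRho (M * p) A σ • t = t) ∧
      Q.ord (ttrglRed₁ M A hpM hA ⟨t, ht⟩) = 1 ∧
      ∀ R, ttrglCen₁ M A hpM hA hat Q R →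
        ∃ c : Qb, c ∈ A.nonunits ∧ GrdVal R t c ∧
          R.ord (t - algebraMap Qb ↥(modularFunctionFieldBar (M * p)) c) = 1 ∧
          ∀ R', ttrglCen₁ M A hpM hA hat Q R' → R' ≠ R →
            R'.ord (t - algebraMap Qb ↥(modularFunctionFieldBar (M * p)) c) = 0

/-- **(ONE-ZERO) at a smooth point of the second component.** -/
def MrnDisc₂Spec : Prop :=
  ∀ Q : Place (ResidueField A) ↥(modularFunctionFieldFullC (ResidueField A) M),
    (∀ i, ttrkSν₂ M p A hpM hA hat i ≠ Q) →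
    ∃ (t : ↥(modularFunctionFieldBar (M * p))) (ht : t ∈ ttrglO2 M A hpM hA),
      (∀ σ : ↥(ffI A), ffigRho (M * p) A σ • t = t) ∧
      Q.ord (ttrglRed₂ M A hpM hA ⟨t, ht⟩) = 1 ∧
      ∀ R, ttrglCen₂ M A hpM hA hat Q R →
        ∃ c : Qb, c ∈ A.nonunits ∧ GrdVal R t c ∧
          R.ord (t - algebraMap Qb ↥(modularFunctionFieldBar (M * p)) c) = 1 ∧
          ∀ R', ttrglCen₂ M A hpM hA hat Q R' → R' ≠ R →
            R'.ord (t - algebraMap Qb ↥(modularFunctionFieldBar (M * p)) c) = 0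

/-! ## 4. LOCAL EQUATIONS of an `L`-rational divisor (orbit polynomials) -/

/-- **local equation at a node** : `q ∈ F_L`, `ord_R q = D(R)` at every place centred at `i`,
`V₁(q) = 0`. -/
def MrnLocEqNodeSpec : Prop :=
  ∀ (H : Subgroup ↥(ffI A)) (D : Divisor Qb ↥(modularFunctionFieldBar (M * p))),
    MrnRatDiv M A H D → ∀ i : ttrkS M p A hpM hA hat,
    ∃ q : ↥(modularFunctionFieldBar (M * p)), q ≠ 0 ∧ MrnRat M A H q ∧
      (∀ R, ttruCenS M A hpM hA hat i R → R.ord q = D R) ∧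
      TtalIsU (ttrV1 M A hpM hA) q

/-- **local equation at a smooth point of the first component.** -/
def MrnLocEq₁Spec : Prop :=
  ∀ (H : Subgroup ↥(ffI A)) (D : Divisor Qb ↥(modularFunctionFieldBar (M * p))),
    MrnRatDiv M A H D →
    ∀ Q : Place (ResidueField A) ↥(modularFunctionFieldFullC (ResidueField A) M),
    (∀ i, ttrkSν₁ M p A hpM hA hat i ≠ Q) →
    ∃ q : ↥(modularFunctionFieldBar (M * p)), q ≠ 0 ∧ MrnRat M A H q ∧
      (∀ R, ttrglCen₁ M A hpM hA hat Q R → R.ord q = D R) ∧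
      TtalIsU (ttrV1 M A hpM hA) q

/-- **local equation at a smooth point of the second component.** -/
def MrnLocEq₂Spec : Prop :=
  ∀ (H : Subgroup ↥(ffI A)) (D : Divisor Qb ↥(modularFunctionFieldBar (M * p))),
    MrnRatDiv M A H D →
    ∀ Q : Place (ResidueField A) ↥(modularFunctionFieldFullC (ResidueField A) M),
    (∀ i, ttrkSν₂ M p A hpM hA hat i ≠ Q) →
    ∃ q : ↥(modularFunctionFieldBar (M * p)), q ≠ 0 ∧ MrnRat M A H q ∧
      (∀ R, ttrglCen₂ M A hpM hA hat Q R → R.ord q = D R) ∧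
      TtalIsU (ttraV2 M A hpM hA) q

/-! ## 5. The `V₂`-jump = the orbit depth sum, and the factorisation in `O_s` -/

/-- **(JUMP)** : the local equation `q = ∏_R (u - u(R))^{D(R)}` at a node has `V₁(q) = 0` and
`V₂(q) = Σ_R D(R) v(u(R))` (the orbit depth sum): `q / ∏_R u(R)^{D(R)}` is a unit of `V₂`. -/
def MrnJumpSpec : Prop :=
  ∀ (i : ttrkS M p A hpM hA hat) (u w ε : ↥(modularFunctionFieldBar (M * p))) (κ : Qb),
    MrnCoord M A hpM hA hat i u w ε κ →
    ∀ (H : Subgroup ↥(ffI A)) (D : Divisor Qb ↥(modularFunctionFieldBar (M * p))),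
    MrnRatDiv M A H D →
    ∃ (q : ↥(modularFunctionFieldBar (M * p)))
      (c : Place Qb ↥(modularFunctionFieldBar (M * p)) → Qb),
      q ≠ 0 ∧ MrnRat M A H q ∧
      (∀ R, ttruCenS M A hpM hA hat i R → R.ord q = D R) ∧
      (∀ R, ttruCenS M A hpM hA hat i R → GrdVal R u (c R) ∧ c R ≠ 0) ∧
      TtalIsU (ttrV1 M A hpM hA) q ∧
      TtalIsU (ttraV2 M A hpM hA)
        (q * (algebraMap Qb ↥(modularFunctionFieldBar (M * p))
          (∏ R ∈ D.support.filter (fun R => ttruCenS M A hpM hA hat i R), c R ^ D R))⁻¹)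

/-- **(FACTOR)** : every nonzero function is `(constant) · u^a · ∏_R (u - u(R))^{ord_R f} · (unit
of `O_s`)` : there are `c₁ ∈ ℚ̄ˣ`, `a ∈ ℤ` and a local equation `q` of `div f` at the node
(`V₁(q) = 0`) with `f / (c₁ u^a q) ∈ O_sˣ`. -/
def MrnFactorSpec : Prop :=
  ∀ (i : ttrkS M p A hpM hA hat) (u w ε : ↥(modularFunctionFieldBar (M * p))) (κ : Qb),
    MrnCoord M A hpM hA hat i u w ε κ →
    ∀ f : ↥(modularFunctionFieldBar (M * p)), f ≠ 0 →
    ∃ (c₁ : Qb) (a : ℤ) (q e : ↥(modularFunctionFieldBar (M * p))),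
      c₁ ≠ 0 ∧ q ≠ 0 ∧
      (∀ R, ttruCenS M A hpM hA hat i R → R.ord q = R.ord f) ∧
      TtalIsU (ttrV1 M A hpM hA) q ∧
      MrnInOs M A hpM hA hat i e ∧ MrnInOs M A hpM hA hat i e⁻¹ ∧
      f = algebraMap Qb ↥(modularFunctionFieldBar (M * p)) c₁ * u ^ a * q * e

end Fermat.Agent.MR
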