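import Mathlib
import Fermat.Agent.MR.Node.Spec
import Fermat.Agent.SS.Germ.MainPlus
import Fermat.Agent.SS.Geo.Fixed

/-!
# PROGRAM MR (S44), block `mrn`, file CROSS : THE ASCENT `E`-LEVEL EXACT GERM ⟶ TT NODE (Spec)

Owner: helper3 (MR-PM R69(1)); second: helper27 (`MR/Node/Dict.lean`, prefix `mrnd`).
Prefix `mrnx` / `Mrnx`.  Namespace `Fermat.Agent.MR`.  Only `Prop`-valued definitions here.

SETTING.  `N = M p` (`M` generic, prime to `p`), the `j`-atlas, `E ⊂ ℚ̄` ANY intermediate field with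
`𝔸 ∩ E` a DVR (NO normality / finiteness : the exact pair lives at the inertia field
`E₀ = ssgfE0 𝔸 E'`, which is not normal), `t_E = ssdJ E N`, `P_E = s18tInt (𝔸 ∩ E) t_E`,
`up = ssdUp E N : F_E(N) → F_ℚ̄(N)`, `W_j = V_j.comap up` (`V₁ = ttrV1`, `V₂ = ttraV2`).

* `MrnxExactAt e π t 𝔫 W₁ W₂` : THE `E`-LEVEL INPUT (from `mrk`, helper25/helper4/helper13) : an exact
  crossing pair `u w = π^e ε` (`e` EXPOSED) at the prime `𝔫` of `P_E`, in main's Program-S convention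
  (`u ∈ 𝔪_{W₁}`, `w ∈ 𝔪_{W₂}`, `u` generates `𝔫` modulo `𝔪_{W₂}`, `w` modulo `𝔪_{W₁}`), `ε` a unit
  of `(P_E)_𝔫`, `π = p` THE RATIONAL PRIME.
* `MrnxNodePrime E i 𝔫` : `𝔫` is the prime of `P_E` under the canonical node `i`
  (`z ∈ 𝔫 ↔ (red₁ (up z))(ν₁ i) = 0`).
* `MrnxDictLoc`, `MrnxDictOrd₁`, `MrnxDictOrd₂` : the dictionary clauses (D3), (D4).
* `MrnxThick` : THE OUTPUT (= helper26's `MrmIsThick` after `ttrkS_ν₁_injective`).
-/

set_option autoImplicit false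
set_option linter.unusedSectionVars false
set_option linter.unusedVariables false
set_option linter.style.haveILetI false

noncomputable section

namespace Fermat.Agent.MR

open Polynomial ModularCurve AlgebraicCurve IsLocalRing IntermediateField
  Fermat.Agent.G Fermat.Agent.S18 Fermat.Agent.S24 Fermat.Agent.FF Fermat.Agent.TT
  Fermat.Agent.SS

local notation "Qb" => AlgebraicClosure ℚ

/-! ## 1. The `E`-level input, abstractly -/

section Abs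

universe u

variable {A₀ : Type*} [CommRing A₀] [IsDomain A₀] [IsDiscreteValuationRing A₀] [CharZero A₀]
variable {L₀ : Type*} [Field L₀] [Algebra A₀ L₀] [IsFractionRing A₀ L₀]
variable {F₀ : Type u} [Field F₀] [Algebra A₀ F₀] [Algebra L₀ F₀] [IsScalarTower A₀ L₀ F₀]

/-- **an exact crossing pair at `𝔫` of thickness `e`** : `u w = π^e ε`, `ε` a unit of `P_𝔫`, in
main's convention `u ∈ 𝔪_{V₁}`, `w ∈ 𝔪_{V₂}`, `u` a local generator of `𝔫` modulo `𝔪_{V₂}`, `w`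
modulo `𝔪_{V₁}`. -/
def MrnxExactAt (e : ℕ) (π : A₀) (t : F₀) (𝔫 : Ideal ↥(s18tInt A₀ t))
    (V₁ V₂ : ValuationSubring F₀) : Prop :=
  ∃ (u w ε : F₀), SsnfInMax t 𝔫 u ∧ SsnfInMax t 𝔫 w ∧
    u ∈ V₁.nonunits ∧ w ∈ V₂.nonunits ∧ SsgaGen t 𝔫 V₂ u ∧ SsgaGen t 𝔫 V₁ w ∧
    SsnfInLoc t 𝔫 ε ∧ SsnfInLoc t 𝔫 ε⁻¹ ∧ u * w = algebraMap A₀ F₀ π ^ e * ε

/-- an exact crossing pair at `𝔫` (of some thickness). -/
def MrnxExact (π : A₀) (t : F₀) (𝔫 : Ideal ↥(s18tInt A₀ t)) (V₁ V₂ : ValuationSubring F₀) : Prop :=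
  ∃ e : ℕ, MrnxExactAt e π t 𝔫 V₁ V₂

end Abs

/-! ## 2. The concrete setting -/

variable (M : ℕ) [NeZero M] {p : ℕ} [Fact p.Prime] [NeZero p]
variable (A : ValuationSubring Qb) (hpM : ¬ p ∣ M) (hA : A.LiesOverPrime p)
variable {τ τ' : LaurentSeries ℤ} (hat : GrdAtlas M A τ τ')
variable (E : IntermediateField ℚ Qb)

/-- `W₁ = V₁ ∩ F_E(M p)`. -/
def mrnxW₁ : ValuationSubring ↥(modularFunctionFieldFullC E (M * p)) :=
  (ttrV1 M A hpM hA).comap (ssdUp E (M * p))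

/-- `W₂ = V₂ ∩ F_E(M p)`. -/
def mrnxW₂ : ValuationSubring ↥(modularFunctionFieldFullC E (M * p)) :=
  (ttraV2 M A hpM hA).comap (ssdUp E (M * p))

/-- **`𝔫` is the prime of `P_E` under the node `i`** : `z ∈ 𝔫 ↔ (red₁ (up z))(ν₁ i) = 0`. -/
def MrnxNodePrime (i : ttrkS M p A hpM hA hat)
    (𝔫 : Ideal ↥(s18tInt ↥(s18dVal A E) (ssdJ E (M * p)))) : Prop :=
  ∀ z : ↥(s18tInt ↥(s18dVal A E) (ssdJ E (M * p))),
    z ∈ 𝔫 ↔ ∃ h : ssdUp E (M * p) (z : ↥(modularFunctionFieldFullC E (M * p))) ∈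
        ttrglO2 M A hpM hA,
      GrdVal (ttrkSν₁ M p A hpM hA hat i) (ttrglRed₁ M A hpM hA ⟨_, h⟩) 0

/-- **(D3)** : the localisation `(P_E)_𝔫` goes into `O_s`, and `𝔫 (P_E)_𝔫` into the functions
vanishing at the node. -/
def MrnxDictLoc (i : ttrkS M p A hpM hA hat)
    (𝔫 : Ideal ↥(s18tInt ↥(s18dVal A E) (ssdJ E (M * p)))) : Prop :=
  (∀ x : ↥(modularFunctionFieldFullC E (M * p)), SsnfInLoc (ssdJ E (M * p)) 𝔫 x →
    MrnInOs M A hpM hA hat i (ssdUp E (M * p) x)) ∧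
  ∀ x : ↥(modularFunctionFieldFullC E (M * p)), SsnfInMax (ssdJ E (M * p)) 𝔫 x →
    ∀ h : ssdUp E (M * p) x ∈ ttrglO2 M A hpM hA,
      GrdVal (ttrkSν₁ M p A hpM hA hat i) (ttrglRed₁ M A hpM hA ⟨_, h⟩) 0

/-- **(D4), first branch** : a local generator of `𝔫` modulo `𝔪_{W₁}` reduces to a uniformiser at
`ν₁ i`. -/
def MrnxDictOrd₁ (i : ttrkS M p A hpM hA hat)
    (𝔫 : Ideal ↥(s18tInt ↥(s18dVal A E) (ssdJ E (M * p)))) : Prop :=
  ∀ w : ↥(modularFunctionFieldFullC E (M * p)), SsnfInMax (ssdJ E (M * p)) 𝔫 w →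
    SsgaGen (ssdJ E (M * p)) 𝔫 (mrnxW₁ M A hpM hA E) w →
    ∀ h : ssdUp E (M * p) w ∈ ttrglO2 M A hpM hA,
      (ttrkSν₁ M p A hpM hA hat i).ord (ttrglRed₁ M A hpM hA ⟨_, h⟩) = 1

/-- **(D4), second branch.** -/
def MrnxDictOrd₂ (i : ttrkS M p A hpM hA hat)
    (𝔫 : Ideal ↥(s18tInt ↥(s18dVal A E) (ssdJ E (M * p)))) : Prop :=
  ∀ u : ↥(modularFunctionFieldFullC E (M * p)), SsnfInMax (ssdJ E (M * p)) 𝔫 u →
    SsgaGen (ssdJ E (M * p)) 𝔫 (mrnxW₂ M A hpM hA E) u →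
    ∀ h : ssdUp E (M * p) u ∈ ttrglO2 M A hpM hA,
      (ttrkSν₂ M p A hpM hA hat i).ord (ttrglRed₂ M A hpM hA ⟨_, h⟩) = 1

/-- `𝔫` lies on both components (main's Program-S spelling) and contains `p`. -/
def MrnxOnBoth [IsDiscreteValuationRing ↥(s18dVal A E)] [CharZero ↥(s18dVal A E)]
    (𝔫 : Ideal ↥(s18tInt ↥(s18dVal A E) (ssdJ E (M * p)))) : Prop :=
  sskPi ((p : ℕ) : ↥(s18dVal A E)) (ssdJ E (M * p)) ∈ 𝔫 ∧
  (∀ z : ↥(s18tInt ↥(s18dVal A E) (ssdJ E (M * p))),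
    (z : ↥(modularFunctionFieldFullC E (M * p))) ∈ (mrnxW₁ M A hpM hA E).nonunits → z ∈ 𝔫) ∧
  ∀ z : ↥(s18tInt ↥(s18dVal A E) (ssdJ E (M * p))),
    (z : ↥(modularFunctionFieldFullC E (M * p))) ∈ (mrnxW₂ M A hpM hA E).nonunits → z ∈ 𝔫

/-- **THE DICTIONARY** (helper27, `MR/Node/Dict.lean`) : for every node `i` and every big number
field `E'`, at the inertia field `E₀ = ssgfE0 𝔸 E'` : the prime of `P_{E₀}` under `i` exists, is
rational, and (D3) holds. -/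
def MrnxDictSpec : Prop :=
  ∀ i : ttrkS M p A hpM hA hat,
    ∃ (E₁ : IntermediateField ℚ Qb) (_ : FiniteDimensional ℚ E₁),
      ∀ (E' : IntermediateField ℚ Qb) [FiniteDimensional ℚ E'] [Normal ℚ E']
        [IsDiscreteValuationRing ↥(s18dVal A (ssgfE0 A E'))] [CharZero ↥(s18dVal A (ssgfE0 A E'))],
        E₁ ≤ E' →
        ∃ 𝔫 : Ideal ↥(s18tInt ↥(s18dVal A (ssgfE0 A E')) (ssdJ (ssgfE0 A E') (M * p))),
          𝔫.IsPrime ∧ MrnxNodePrime M A hpM hA hat (ssgfE0 A E') i 𝔫 ∧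
          SsResRational (ssdJ (ssgfE0 A E') (M * p)) 𝔫 ∧
          MrnxDictLoc M A hpM hA hat (ssgfE0 A E') i 𝔫

/-- **THE `E`-LEVEL EXACT GERMS** (`mrk` : helper25 / helper4 / helper13) : for every big number
field `E'`, at the inertia field `E₀ = ssgfE0 𝔸 E'` (where `p` is a uniformiser), every rational
prime of `P_{E₀}` lying on both components carries an exact crossing pair `u w = p^e ε`; `e = 1`
when `2 ∣ M` and `3 ∣ M` (the slot (R1-T1) holds at the level itself). -/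
def MrnxGermSpec : Prop :=
  ∃ (E₂ : IntermediateField ℚ Qb) (_ : FiniteDimensional ℚ E₂),
    ∀ (E' : IntermediateField ℚ Qb) [FiniteDimensional ℚ E'] [Normal ℚ E']
      [IsDiscreteValuationRing ↥(s18dVal A (ssgfE0 A E'))] [CharZero ↥(s18dVal A (ssgfE0 A E'))],
      E₂ ≤ E' →
      ∀ 𝔫 : Ideal ↥(s18tInt ↥(s18dVal A (ssgfE0 A E')) (ssdJ (ssgfE0 A E') (M * p))),
        𝔫.IsPrime → MrnxOnBoth M A hpM hA (ssgfE0 A E') 𝔫 →
        SsResRational (ssdJ (ssgfE0 A E') (M * p)) 𝔫 →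
        ∃ e : ℕ, (2 ∣ M → 3 ∣ M → e = 1) ∧
          MrnxExactAt e ((p : ℕ) : ↥(s18dVal A (ssgfE0 A E'))) (ssdJ (ssgfE0 A E') (M * p)) 𝔫
            (mrnxW₁ M A hpM hA (ssgfE0 A E')) (mrnxW₂ M A hpM hA (ssgfE0 A E'))

/-- **(D4)** (helper3, `MR/Node/Unr.lean` + `MR/Node/CrossOrd.lean`) : at ANY number field `E`, a rational
node prime at which (D3) holds satisfies (D4) on both branches. -/
def MrnxOrdSpec : Prop :=
  ∀ (E : IntermediateField ℚ Qb) [FiniteDimensional ℚ E] [IsDiscreteValuationRing ↥(s18dVal A E)]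
    [CharZero ↥(s18dVal A E)] (i : ttrkS M p A hpM hA hat)
    (𝔫 : Ideal ↥(s18tInt ↥(s18dVal A E) (ssdJ E (M * p)))), 𝔫.IsPrime →
    MrnxNodePrime M A hpM hA hat E i 𝔫 → SsResRational (ssdJ E (M * p)) 𝔫 →
    MrnxDictLoc M A hpM hA hat E i 𝔫 →
    MrnxDictOrd₁ M A hpM hA hat E i 𝔫 ∧ MrnxDictOrd₂ M A hpM hA hat E i 𝔫

/-- **THE OUTPUT** : exact coordinates of integral thickness at every node, of thickness `1` when
`2 ∣ M` and `3 ∣ M`. -/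
def MrnxThick : Prop :=
  ∀ i : ttrkS M p A hpM hA hat, ∃ (e : ℕ) (u w ε : ↥(modularFunctionFieldBar (M * p))) (κ : Qb),
    MrnCoord M A hpM hA hat i u w ε κ ∧ A.valuation κ = A.valuation (p : Qb) ^ e ∧
    (2 ∣ M → 3 ∣ M → e = 1)

end Fermat.Agent.MR
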