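import Mathlib
import Fermat.Agent.S24.PlaceOrd

/-!
# MR / block `mrn`, ascent: a constant field extension is unramified at a rational point

Abstract lemma (Mathlib + Prelude `Place` + `S24.PlaceOrd` only), prefix `mrnce`.

`Q` a place of `F / k`, `C ⊆ F` a subring contained in `𝒪_Q` (a form of the coordinate ring over a
smaller field `K₀ ⊆ k`) such that
* every `x ∈ C` has a value at `Q` which is a constant of `C` (`Q` is a `K₀`-RATIONAL point);
* `t ∈ C ∩ 𝔪_Q` generates `C ∩ 𝔪_Q` locally: every `x ∈ C ∩ 𝔪_Q` is `(c / s) t`, `c, s ∈ C`,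
  `s(Q) ≠ 0`;
* `F` is the fraction field of the `k`-span of `C`.

Then `t` is a uniformiser at `Q` : `Q.ord t = 1`.

Use: `C` = the reduction of the `E₀`-level chart ring `P_{E₀}` on a branch, `K₀` = the residue field of
`𝔸 ∩ E₀`, `t` = the reduction of a local generator of the node modulo the other branch (`SsgaGen`).
-/

set_option autoImplicit false

namespace Fermat.Agent.MR

open AlgebraicCurve Fermat.Agent.S24

variable {k F : Type*} [Field k] [Field F] [Algebra k F]

section

variable (Q : Place k F) (C : Subring F)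

/-- the `k`-span of a subring is stable under multiplication by the subring -/
theorem mrnce_mul_mem_span {s : F} (hs : s ∈ C) {z : F}
    (hz : z ∈ Submodule.span k (C : Set F)) : s * z ∈ Submodule.span k (C : Set F) := by
  induction hz using Submodule.span_induction with
  | mem x hx => exact Submodule.subset_span (C.mul_mem hs hx)
  | zero => rw [mul_zero]; exact Submodule.zero_mem _
  | add x y _ _ hx hy => rw [mul_add]; exact Submodule.add_mem _ hx hy
  | smul c x _ hx => rw [mul_smul_comm]; exact Submodule.smul_mem _ c hx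

/-- the `k`-span of `C` lies in `𝒪_Q` -/
theorem mrnce_span_le (hCO : ∀ x ∈ C, x ∈ Q.toValuationSubring) {z : F}
    (hz : z ∈ Submodule.span k (C : Set F)) : z ∈ Q.toValuationSubring := by
  induction hz using Submodule.span_induction with
  | mem x hx => exact hCO x hx
  | zero => exact Q.toValuationSubring.zero_mem
  | add x y _ _ hx hy => exact Q.toValuationSubring.add_mem _ _ hx hy
  | smul c x _ hx =>
    rw [Algebra.smul_def]
    exact Q.toValuationSubring.mul_mem _ _ (Q.algebraMap_mem' c) hx

/-- a product of two elements of `𝒪_Q` outside `𝔪_Q` is outside `𝔪_Q` -/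
theorem mrnce_mul_not_nu {a b : F} (ha : a ∈ Q.toValuationSubring)
    (hb : b ∈ Q.toValuationSubring) (ha' : a ∉ Q.toValuationSubring.nonunits)
    (hb' : b ∉ Q.toValuationSubring.nonunits) : a * b ∉ Q.toValuationSubring.nonunits := by
  rw [ValuationSubring.mem_nonunits_iff, not_lt] at ha' hb' ⊢
  have h1 : Q.toValuationSubring.valuation a = 1 :=
    le_antisymm ((Q.toValuationSubring.valuation_le_one_iff a).mpr ha) ha'
  have h2 : Q.toValuationSubring.valuation b = 1 :=
    le_antisymm ((Q.toValuationSubring.valuation_le_one_iff b).mpr hb) hb'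
  rw [map_mul, h1, h2, one_mul]

/-- `x ∈ 𝔪_Q ↔ 0 < ord_Q x` for `x ≠ 0` -/
theorem mrnce_mem_nonunits_iff {x : F} (hx : x ≠ 0) :
    x ∈ Q.toValuationSubring.nonunits ↔ 0 < Q.ord x := by
  rw [PlaceOrd.ord_pos_iff Q hx, ValuationSubring.mem_nonunits_iff,
    ← Q.toValuationSubring.valuation_le_one_iff, map_inv₀, not_le]
  have h0 : Q.toValuationSubring.valuation x ≠ 0 := (Valuation.ne_zero_iff _).mpr hx
  rw [one_lt_inv₀ (zero_lt_iff.mpr h0)]

end

variable (Q : Place k F) (C : Subring F)
  (hCO : ∀ x ∈ C, x ∈ Q.toValuationSubring)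
  (hrat : ∀ x ∈ C, ∃ a : k, algebraMap k F a ∈ C ∧
    x - algebraMap k F a ∈ Q.toValuationSubring.nonunits)
  (t : F) (ht : t ∈ C) (htQ : t ∈ Q.toValuationSubring.nonunits)
  (hgen : ∀ x ∈ C, x ∈ Q.toValuationSubring.nonunits →
    ∃ s ∈ C, s ∉ Q.toValuationSubring.nonunits ∧ ∃ c ∈ C, s * x = c * t)

include hCO hrat hgen in
/-- the key step: modulo a constant, every element of the `k`-span of `C` is divisible by `t`
locally at `Q`. -/
theorem mrnce_span_step {z : F} (hz : z ∈ Submodule.span k (C : Set F)) :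
    ∃ a : k, ∃ s ∈ C, s ∉ Q.toValuationSubring.nonunits ∧
      ∃ z' ∈ Submodule.span k (C : Set F), s * (z - algebraMap k F a) = z' * t := by
  induction hz using Submodule.span_induction with
  | mem x hx =>
    obtain ⟨a, haC, hxa⟩ := hrat x hx
    obtain ⟨s, hs, hsn, c, hc, hsc⟩ := hgen _ (C.sub_mem hx haC) hxa
    exact ⟨a, s, hs, hsn, c, Submodule.subset_span hc, hsc⟩
  | zero =>
    refine ⟨0, 1, C.one_mem, ?_, 0, Submodule.zero_mem _, by simp⟩
    rw [ValuationSubring.mem_nonunits_iff, map_one]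
    exact lt_irrefl _
  | add x y _ _ hx hy =>
    obtain ⟨a₁, s₁, hs₁, hsn₁, z₁, hz₁, e₁⟩ := hx
    obtain ⟨a₂, s₂, hs₂, hsn₂, z₂, hz₂, e₂⟩ := hy
    refine ⟨a₁ + a₂, s₁ * s₂, C.mul_mem hs₁ hs₂,
      mrnce_mul_not_nu Q (hCO _ hs₁) (hCO _ hs₂) hsn₁ hsn₂, s₂ * z₁ + s₁ * z₂,
      Submodule.add_mem _ (mrnce_mul_mem_span C hs₂ hz₁) (mrnce_mul_mem_span C hs₁ hz₂), ?_⟩
    rw [map_add]
    linear_combination s₂ * e₁ + s₁ * e₂
  | smul c x _ hx =>
    obtain ⟨a, s, hs, hsn, z', hz', e⟩ := hx
    refine ⟨c * a, s, hs, hsn, c • z', Submodule.smul_mem _ c hz', ?_⟩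
    rw [map_mul, Algebra.smul_def, Algebra.smul_def]
    linear_combination (algebraMap k F c) * e

include hCO hrat hgen htQ in
/-- an element of the `k`-span of `C` vanishing at `Q` is divisible by `t` locally at `Q`. -/
theorem mrnce_span_div {z : F} (hz : z ∈ Submodule.span k (C : Set F))
    (hzQ : z ∈ Q.toValuationSubring.nonunits) :
    ∃ s ∈ C, s ∉ Q.toValuationSubring.nonunits ∧
      ∃ z' ∈ Submodule.span k (C : Set F), s * z = z' * t := by
  obtain ⟨a, s, hs, hsn, z', hz', e⟩ := mrnce_span_step Q C hCO hrat t hgen hz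
  refine ⟨s, hs, hsn, z', hz', ?_⟩
  suffices ha : a = 0 by rw [ha, map_zero, sub_zero] at e; exact e
  by_contra ha
  set O := Q.toValuationSubring with hO
  have hz'O : z' ∈ O := mrnce_span_le Q C hCO hz'
  have hsO : s ∈ O := hCO s hs
  have hvs : O.valuation s = 1 := by
    rw [ValuationSubring.mem_nonunits_iff, not_lt] at hsn
    exact le_antisymm ((O.valuation_le_one_iff s).mpr hsO) hsn
  -- `z - a ∈ 𝔪_Q`
  have h1 : O.valuation (z - algebraMap k F a) < 1 := by
    have h2 : O.valuation (s * (z - algebraMap k F a)) < 1 := by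
      rw [e, map_mul]
      calc O.valuation z' * O.valuation t ≤ 1 * O.valuation t := by
            gcongr
            exact (O.valuation_le_one_iff z').mpr hz'O
        _ = O.valuation t := one_mul _
        _ < 1 := (ValuationSubring.mem_nonunits_iff _).mp htQ
    rwa [map_mul, hvs, one_mul] at h2
  -- the constant `a` is a unit of `𝒪_Q`
  have h3 : O.valuation (algebraMap k F a) = 1 := by
    have hle : O.valuation (algebraMap k F a) ≤ 1 :=
      (O.valuation_le_one_iff _).mpr (Q.algebraMap_mem' a)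
    have hle' : O.valuation (algebraMap k F a⁻¹) ≤ 1 :=
      (O.valuation_le_one_iff _).mpr (Q.algebraMap_mem' a⁻¹)
    have hmul : O.valuation (algebraMap k F a) * O.valuation (algebraMap k F a⁻¹) = 1 := by
      rw [← map_mul, ← map_mul, mul_inv_cancel₀ ha, map_one, map_one]
    refine le_antisymm hle ?_
    by_contra hlt
    rw [not_le] at hlt
    have : O.valuation (algebraMap k F a) * O.valuation (algebraMap k F a⁻¹) < 1 := by
      calc O.valuation (algebraMap k F a) * O.valuation (algebraMap k F a⁻¹)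
          ≤ O.valuation (algebraMap k F a) * 1 := by gcongr
        _ = O.valuation (algebraMap k F a) := mul_one _
        _ < 1 := hlt
    rw [hmul] at this
    exact lt_irrefl _ this
  have h4 : O.valuation (algebraMap k F a) < 1 := by
    have e' : algebraMap k F a = z - (z - algebraMap k F a) := by ring
    rw [e']
    exact Valuation.map_sub_lt _ ((ValuationSubring.mem_nonunits_iff _).mp hzQ) h1
  rw [h3] at h4
  exact lt_irrefl _ h4

include hCO hrat hgen htQ in
/-- every non-zero element of the `k`-span of `C` is a unit of `𝒪_Q` times a power of `t`. -/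
theorem mrnce_span_unit_pow (ht0 : t ≠ 0) :
    ∀ (n : ℕ) {z : F}, z ∈ Submodule.span k (C : Set F) → z ≠ 0 → Q.ord z = n →
      ∃ (m : ℕ) (g : F), g ≠ 0 ∧ Q.ord g = 0 ∧ z = g * t ^ m := by
  intro n
  induction n using Nat.strong_induction_on with
  | _ n ih =>
    intro z hz hz0 hzn
    by_cases hzQ : z ∈ Q.toValuationSubring.nonunits
    · obtain ⟨s, hs, hsn, z', hz', e⟩ := mrnce_span_div Q C hCO hrat t htQ hgen hz hzQ
      have hs0 : s ≠ 0 := by
        rintro rfl
        apply hsn
        rw [ValuationSubring.mem_nonunits_iff, map_zero]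
        exact zero_lt_one
      have hz'0 : z' ≠ 0 := by
        rintro rfl
        rw [zero_mul] at e
        exact (mul_ne_zero hs0 hz0) e
      have hords : Q.ord s = 0 := by
        rw [PlaceOrd.ord_eq_zero_iff Q hs0]
        refine ⟨hCO s hs, ?_⟩
        by_contra hinv
        exact hsn ((ValuationSubring.mem_nonunits_iff_exists_mem_maximalIdeal).mpr
          ⟨hCO s hs, by
            rw [IsLocalRing.mem_maximalIdeal, mem_nonunits_iff]
            intro hu
            apply hinv
            obtain ⟨b, hb⟩ := hu.exists_right_inv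
            have hb' : s * (b : F) = 1 := by
              have := congrArg Subtype.val hb
              simpa using this
            rw [inv_eq_of_mul_eq_one_right hb']
            exact b.2⟩)
      have hordt : 0 < Q.ord t := by
        rw [PlaceOrd.ord_pos_iff Q ht0]
        intro hinv
        have h1 : Q.toValuationSubring.valuation t⁻¹ ≤ 1 :=
          (Q.toValuationSubring.valuation_le_one_iff _).mpr hinv
        have h2 := (ValuationSubring.mem_nonunits_iff _).mp htQ
        have h3 : Q.toValuationSubring.valuation t * Q.toValuationSubring.valuation t⁻¹ = 1 := by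
          rw [← map_mul, mul_inv_cancel₀ ht0, map_one]
        have : Q.toValuationSubring.valuation t * Q.toValuationSubring.valuation t⁻¹ < 1 := by
          calc Q.toValuationSubring.valuation t * Q.toValuationSubring.valuation t⁻¹
              ≤ Q.toValuationSubring.valuation t * 1 := by gcongr
            _ = Q.toValuationSubring.valuation t := mul_one _
            _ < 1 := h2
        rw [h3] at this
        exact lt_irrefl _ this
      have hord : Q.ord z = Q.ord z' + Q.ord t := by
        have := congrArg Q.ord e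
        rw [Q.ord_mul hs0 hz0, Q.ord_mul hz'0 ht0, hords, zero_add] at this
        exact this
      have hz'nn : 0 ≤ Q.ord z' := PlaceOrd.ord_nonneg_of_mem Q (mrnce_span_le Q C hCO hz')
      obtain ⟨n', hn'⟩ : ∃ n' : ℕ, Q.ord z' = n' := ⟨(Q.ord z').toNat, by omega⟩
      have hlt : n' < n := by
        have : (n' : ℤ) < n := by omega
        exact_mod_cast this
      obtain ⟨m, g, hg0, hgo, hzg⟩ := ih n' hlt hz' hz'0 hn'
      refine ⟨m + 1, g * s⁻¹, mul_ne_zero hg0 (inv_ne_zero hs0), ?_, ?_⟩
      · rw [Q.ord_mul hg0 (inv_ne_zero hs0), Q.ord_inv, hgo, hords]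
        simp
      · have : s * z = s * (g * s⁻¹ * t ^ (m + 1)) := by
          rw [e, hzg, pow_succ]
          field_simp
        exact mul_left_cancel₀ hs0 this
    · refine ⟨0, z, hz0, ?_, by rw [pow_zero, mul_one]⟩
      rw [PlaceOrd.ord_eq_zero_iff Q hz0]
      refine ⟨mrnce_span_le Q C hCO hz, ?_⟩
      by_contra hinv
      apply hzQ
      rw [ValuationSubring.mem_nonunits_iff]
      by_contra hge
      rw [not_lt] at hge
      apply hinv
      rw [← Q.toValuationSubring.valuation_le_one_iff, map_inv₀]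
      exact inv_le_one_of_one_le₀ hge

include hCO hrat hgen htQ ht in
/-- **a constant field extension is unramified at a rational point** : `t` is a uniformiser
at `Q`. -/
theorem mrnce_ord_eq_one
    (hfrac : ∀ f : F, ∃ x ∈ Submodule.span k (C : Set F), ∃ y ∈ Submodule.span k (C : Set F),
      y ≠ 0 ∧ f * y = x) : Q.ord t = 1 := by
  have _ := ht
  have ht0 : t ≠ 0 := by
    rintro rfl
    -- then every element of `F` would be a unit of `𝒪_Q`
    obtain ⟨π, hπ⟩ := IsDiscreteValuationRing.exists_irreducible Q.toValuationSubring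
    have hπ1 : Q.ord (π : F) = 1 := Q.ord_coe_irreducible hπ
    have hπ0 : (π : F) ≠ 0 := PlaceOrd.coe_irreducible_ne_zero Q hπ
    obtain ⟨x, hx, y, hy, hy0, hxy⟩ := hfrac (π : F)
    have hx0 : x ≠ 0 := by rw [← hxy]; exact mul_ne_zero hπ0 hy0
    have key : ∀ {z : F}, z ∈ Submodule.span k (C : Set F) → z ≠ 0 → Q.ord z = 0 := by
      intro z hz hz0
      by_contra hne
      have hnn := PlaceOrd.ord_nonneg_of_mem Q (mrnce_span_le Q C hCO hz)
      have hzQ : z ∈ Q.toValuationSubring.nonunits := by
        rw [mrnce_mem_nonunits_iff Q hz0]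
        omega
      obtain ⟨s, hs, hsn, z', hz', e⟩ := mrnce_span_div Q C hCO hrat 0 htQ hgen hz hzQ
      rw [mul_zero] at e
      rcases mul_eq_zero.mp e with h | h
      · apply hsn
        rw [h, ValuationSubring.mem_nonunits_iff, map_zero]
        exact zero_lt_one
      · exact hz0 h
    have := congrArg Q.ord hxy
    rw [Q.ord_mul hπ0 hy0, hπ1, key hy hy0, key hx hx0] at this
    omega
  obtain ⟨π, hπ⟩ := IsDiscreteValuationRing.exists_irreducible Q.toValuationSubring
  have hπ1 : Q.ord (π : F) = 1 := Q.ord_coe_irreducible hπ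
  have hπ0 : (π : F) ≠ 0 := PlaceOrd.coe_irreducible_ne_zero Q hπ
  obtain ⟨x, hx, y, hy, hy0, hxy⟩ := hfrac (π : F)
  have hx0 : x ≠ 0 := by rw [← hxy]; exact mul_ne_zero hπ0 hy0
  have hxnn := PlaceOrd.ord_nonneg_of_mem Q (mrnce_span_le Q C hCO hx)
  have hynn := PlaceOrd.ord_nonneg_of_mem Q (mrnce_span_le Q C hCO hy)
  obtain ⟨nx, hnx⟩ : ∃ n : ℕ, Q.ord x = n := ⟨(Q.ord x).toNat, by omega⟩
  obtain ⟨ny, hny⟩ : ∃ n : ℕ, Q.ord y = n := ⟨(Q.ord y).toNat, by omega⟩
  obtain ⟨mx, gx, hgx0, hgxo, hxg⟩ := mrnce_span_unit_pow Q C hCO hrat t htQ hgen ht0 nx hx hx0 hnx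
  obtain ⟨my, gy, hgy0, hgyo, hyg⟩ := mrnce_span_unit_pow Q C hCO hrat t htQ hgen ht0 ny hy hy0 hny
  have hox : Q.ord x = mx * Q.ord t := by
    rw [hxg, Q.ord_mul hgx0 (pow_ne_zero _ ht0), hgxo, zero_add, ← zpow_natCast, Q.ord_zpow]
  have hoy : Q.ord y = my * Q.ord t := by
    rw [hyg, Q.ord_mul hgy0 (pow_ne_zero _ ht0), hgyo, zero_add, ← zpow_natCast, Q.ord_zpow]
  have h1 := congrArg Q.ord hxy
  rw [Q.ord_mul hπ0 hy0, hπ1, hox, hoy] at h1
  have h2 : ((mx : ℤ) - my) * Q.ord t = 1 := by linarith
  have htpos : 0 ≤ Q.ord t :=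
    PlaceOrd.ord_nonneg_of_mem Q (hCO t ht)
  rw [mul_comm] at h2
  exact Int.eq_one_of_mul_eq_one_right htpos h2

/-! ### `hfrac` from generators -/

section Frac

variable {k : Type*} [Field k] {L : Type*} [Field L] [Algebra k L]

/-- the `k`-span of a subring is closed under multiplication -/
theorem mrnce_span_mul_mem {F : Type*} [Field F] [Algebra k F] (C : Subring F) {x y : F}
    (hx : x ∈ Submodule.span k (C : Set F)) (hy : y ∈ Submodule.span k (C : Set F)) :
    x * y ∈ Submodule.span k (C : Set F) := by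
  induction hx using Submodule.span_induction with
  | mem s hs => exact mrnce_mul_mem_span C hs hy
  | zero => rw [zero_mul]; exact Submodule.zero_mem _
  | add a b _ _ ha hb => rw [add_mul]; exact Submodule.add_mem _ ha hb
  | smul c a _ ha => rw [smul_mul_assoc]; exact Submodule.smul_mem _ c ha

/-- **`hfrac` from generators** : if the field `K = k(S)` is generated by a set `S` of elements of
the subring `C`, every element of `K` is a quotient of two elements of the `k`-span of `C`. -/
theorem mrnce_frac_of_adjoin (S : Set L) (C : Subring ↥(IntermediateField.adjoin k S))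
    (hS : ∀ g ∈ S, ∃ c ∈ C, ((c : ↥(IntermediateField.adjoin k S)) : L) = g)
    (f : ↥(IntermediateField.adjoin k S)) :
    ∃ x ∈ Submodule.span k (C : Set ↥(IntermediateField.adjoin k S)),
      ∃ y ∈ Submodule.span k (C : Set ↥(IntermediateField.adjoin k S)), y ≠ 0 ∧ f * y = x := by
  have key : ∀ r ∈ Algebra.adjoin k S,
      ∃ x ∈ Submodule.span k (C : Set ↥(IntermediateField.adjoin k S)),
        ((x : ↥(IntermediateField.adjoin k S)) : L) = r := by
    intro r hr
    induction hr using Algebra.adjoin_induction with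
    | mem g hg =>
      obtain ⟨c, hc, hcg⟩ := hS g hg
      exact ⟨c, Submodule.subset_span hc, hcg⟩
    | algebraMap a =>
      refine ⟨algebraMap k _ a, ?_, rfl⟩
      rw [Algebra.algebraMap_eq_smul_one]
      exact Submodule.smul_mem _ a (Submodule.subset_span C.one_mem)
    | add a b _ _ ha hb =>
      obtain ⟨x, hx, hxa⟩ := ha
      obtain ⟨y, hy, hyb⟩ := hb
      exact ⟨x + y, Submodule.add_mem _ hx hy, by rw [← hxa, ← hyb]; rfl⟩
    | mul a b _ _ ha hb =>
      obtain ⟨x, hx, hxa⟩ := ha
      obtain ⟨y, hy, hyb⟩ := hb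
      exact ⟨x * y, mrnce_span_mul_mem C hx hy, by rw [← hxa, ← hyb]; rfl⟩
  rcases eq_or_ne f 0 with rfl | hf0
  · exact ⟨0, Submodule.zero_mem _, 1, Submodule.subset_span C.one_mem, one_ne_zero, by simp⟩
  obtain ⟨r, hr, s, hs, hfrs⟩ := IntermediateField.mem_adjoin_iff_div.mp f.2
  obtain ⟨x, hx, hxr⟩ := key r hr
  obtain ⟨y, hy, hys⟩ := key s hs
  have hs0 : s ≠ 0 := by
    rintro rfl
    rw [div_zero] at hfrs
    exact hf0 (Subtype.ext hfrs)
  have hy0 : y ≠ 0 := by
    rintro rfl
    exact hs0 hys.symm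
  refine ⟨x, hx, y, hy, hy0, ?_⟩
  apply Subtype.ext
  show (f : L) * (y : L) = (x : L)
  rw [hxr, hys, hfrs, div_mul_cancel₀ _ hs0]

end Frac

end Fermat.Agent.MR
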