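import Mathlib
import Fermat.Agent.MR.Node.Spec

/-!
# PROGRAM MR (S44), block `mrn` : (LOC-GLUE_s) and the units of `O_s`

Owner: helper19.  Prefix `mrng`.  Namespace `Fermat.Agent.MR`.

* `mrng_glue_abs` : the abstract gluing lemma (any `K, F`): from (LOC) at the closed point of a
  chart ring `B ≤ O2`, the pair condition on `B` and the intrinsic centre, every `x ∈ O2` without
  poles at the centred places has ONE common value at the two branches, and its value at every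
  centred place reduces to it.
* `mrn_glue : MrnGlueSpec` ; `mrn_unit : MrnUnitSpec`.
-/

set_option autoImplicit false
set_option linter.unusedSectionVars false
set_option linter.unusedVariables false
set_option linter.style.haveILetI false

noncomputable section

namespace Fermat.Agent.MR

open Polynomial ModularCurve AlgebraicCurve IsLocalRing IntermediateField
  Fermat.Agent.G Fermat.Agent.S18 Fermat.Agent.S24 Fermat.Agent.FF Fermat.Agent.TT

section Abs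

variable {K F : Type*} [Field K] [Field F] [Algebra K F] {A : ValuationSubring K}
  {Fk₁ Fk₂ : Type*} [Field Fk₁] [Field Fk₂] [Algebra (ResidueField A) Fk₁]
  [Algebra (ResidueField A) Fk₂]

/-- value compatibility on the chart ring at a centred place. -/
theorem mrng_val_B (O2 B : Subring F) (hBO : B ≤ O2) (red₁ : O2 →+* Fk₁)
    (Q₁ : Place (ResidueField A) Fk₁)
    (hconst : ∀ a : A, algebraMap K F (a : K) ∈ B)
    (hrc₁ : ∀ (a : A) (h : algebraMap K F (a : K) ∈ O2),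
      red₁ ⟨algebraMap K F (a : K), h⟩ = algebraMap (ResidueField A) Fk₁ (residue A a))
    (v : Place K F)
    (hcen : ∀ b : ↥B, GrdVal Q₁ (red₁ ⟨b, hBO b.2⟩) 0 →
      ∃ a : A, a ∈ maximalIdeal A ∧ GrdVal v (b : F) (a : K))
    (b : ↥B) (c : ResidueField A) (hc : GrdVal Q₁ (red₁ ⟨b, hBO b.2⟩) c) :
    ∃ a : A, GrdVal v (b : F) (a : K) ∧ residue A a = c := by
  obtain ⟨a₀, rfl⟩ := residue_surjective c
  have h2 : (⟨((b - ⟨algebraMap K F (a₀ : K), hconst a₀⟩ : ↥B) : F), hBO (b - _).2⟩ : O2)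
      = ⟨b, hBO b.2⟩ - ⟨algebraMap K F (a₀ : K), hBO (hconst a₀)⟩ := rfl
  have h3 : GrdVal Q₁ (red₁ ⟨((b - ⟨algebraMap K F (a₀ : K), hconst a₀⟩ : ↥B) : F),
      hBO (b - _).2⟩) 0 := by
    rw [h2, map_sub, hrc₁]
    have := ttri_val_sub Q₁ hc (grdg_val_algebraMap Q₁ (residue A a₀))
    rwa [sub_self] at this
  obtain ⟨m, hm, hmv⟩ := hcen _ h3
  refine ⟨a₀ + m, ?_, ?_⟩
  · have h4 := grdg_val_add v hmv (grdg_val_algebraMap v (a₀ : K))
    have e1 : ((b - ⟨algebraMap K F (a₀ : K), hconst a₀⟩ : ↥B) : F) + algebraMap K F (a₀ : K)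
        = (b : F) := by
      show (b : F) - algebraMap K F (a₀ : K) + algebraMap K F (a₀ : K) = b
      ring
    have e2 : ((m : K) + (a₀ : K)) = ((a₀ + m : A) : K) := by
      push_cast; ring
    rwa [e1, e2] at h4
  · rw [map_add, (residue_eq_zero_iff _).mpr hm, add_zero]

/-- **the abstract gluing lemma.** -/
theorem mrng_glue_abs (O2 B : Subring F) (hBO : B ≤ O2) (red₁ : O2 →+* Fk₁) (red₂ : O2 →+* Fk₂)
    (Q₁ : Place (ResidueField A) Fk₁) (Q₂ : Place (ResidueField A) Fk₂)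
    (cen : Place K F → Prop)
    (hconst : ∀ a : A, algebraMap K F (a : K) ∈ B)
    (hrc₁ : ∀ (a : A) (h : algebraMap K F (a : K) ∈ O2),
      red₁ ⟨algebraMap K F (a : K), h⟩ = algebraMap (ResidueField A) Fk₁ (residue A a))
    (hloc : ∀ x ∈ O2, (∀ v, cen v → x ∈ v.toValuationSubring) →
      ∃ s : B, ¬ GrdVal Q₁ (red₁ ⟨s, hBO s.2⟩) 0 ∧ (s : F) * x ∈ B)
    (hpair : ∀ b : ↥B, ∃ c : ResidueField A,
      GrdVal Q₁ (red₁ ⟨b, hBO b.2⟩) c ∧ GrdVal Q₂ (red₂ ⟨b, hBO b.2⟩) c)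
    (hcen : ∀ v, cen v → ∀ b : ↥B, GrdVal Q₁ (red₁ ⟨b, hBO b.2⟩) 0 →
      ∃ a : A, a ∈ maximalIdeal A ∧ GrdVal v (b : F) (a : K))
    (x : F) (hx : x ∈ O2) (hreg : ∀ v, cen v → x ∈ v.toValuationSubring) :
    ∃ c : ResidueField A, GrdVal Q₁ (red₁ ⟨x, hx⟩) c ∧ GrdVal Q₂ (red₂ ⟨x, hx⟩) c ∧
      ∀ v, cen v → ∃ a : A, GrdVal v x (a : K) ∧ residue A a = c := by
  obtain ⟨s, hs0, hsx⟩ := hloc x hx hreg
  obtain ⟨cs, hcs₁, hcs₂⟩ := hpair s
  obtain ⟨cb, hcb₁, hcb₂⟩ := hpair ⟨(s : F) * x, hsx⟩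
  have hcs0 : cs ≠ 0 := by
    rintro rfl
    exact hs0 hcs₁
  have hmul : (⟨((⟨(s : F) * x, hsx⟩ : ↥B) : F), hBO hsx⟩ : O2) = ⟨s, hBO s.2⟩ * ⟨x, hx⟩ := rfl
  refine ⟨cb / cs, ?_, ?_, ?_⟩
  · refine ttri_val_div Q₁ hcs₁ hcs0 hcb₁ ?_
    rw [← map_mul, ← hmul]
  · refine ttri_val_div Q₂ hcs₂ hcs0 hcb₂ ?_
    rw [← map_mul, ← hmul]
  · intro v hv
    obtain ⟨as, has, hasr⟩ := mrng_val_B O2 B hBO red₁ Q₁ hconst hrc₁ v (hcen v hv) s cs hcs₁
    obtain ⟨ab, hab, habr⟩ := mrng_val_B O2 B hBO red₁ Q₁ hconst hrc₁ v (hcen v hv)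
      ⟨(s : F) * x, hsx⟩ cb hcb₁
    have hasu : IsUnit as := by
      by_contra hnu
      have : residue A as = 0 := (residue_eq_zero_iff _).mpr ((mem_maximalIdeal _).mpr hnu)
      rw [this] at hasr
      exact hcs0 hasr.symm
    obtain ⟨w, hw⟩ := hasu
    have has0 : (as : K) ≠ 0 := by
      intro h0
      have : as = 0 := Subtype.ext h0
      rw [this, map_zero] at hasr
      exact hcs0 hasr.symm
    refine ⟨ab * (↑(w⁻¹) : A), ?_, ?_⟩
    · have h1 := ttri_val_div v has has0 hab (show (s : F) * x = ((⟨(s : F) * x, hsx⟩ : ↥B) : F)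
        from rfl)
      have e : (ab : K) / (as : K) = ((ab * (↑(w⁻¹) : A) : A) : K) := by
        have hw' : ((↑w : A) : K) * (((↑(w⁻¹) : A)) : K) = 1 := by
          have h9 : ((↑w : A) * (↑(w⁻¹) : A) : A) = 1 := Units.mul_inv w
          have := congrArg (fun z : A => (z : K)) h9
          simpa only [MulMemClass.coe_mul, OneMemClass.coe_one] using this
        have has0' : ((↑w : A) : K) ≠ 0 := by rw [hw]; exact has0
        rw [← hw, div_eq_iff has0']
        push_cast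
        rw [mul_assoc, mul_comm ((↑(w⁻¹) : A) : K), hw', mul_one]
      rwa [e] at h1
    · rw [map_mul, habr, div_eq_mul_inv]
      congr 1
      have hr : residue A (↑w : A) * residue A (↑(w⁻¹) : A) = 1 := by
        rw [← map_mul, Units.mul_inv, map_one]
      rw [hw, hasr] at hr
      exact (eq_inv_of_mul_eq_one_right hr)

end Abs

section Inst

local notation "Qb" => AlgebraicClosure ℚ

variable (M : ℕ) [NeZero M] {p : ℕ} [Fact p.Prime] [NeZero p]
variable (A : ValuationSubring Qb) (hpM : ¬ p ∣ M) (hA : A.LiesOverPrime p)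
variable {τ τ' : LaurentSeries ℤ} (hat : GrdAtlas M A τ τ')

/-- **(LOC) at the node `i`, for the CONCRETE `α`-chart ring** (the proof of `ttru_hN_inst`
without the existential packaging). -/
theorem mrng_loc_S (i : ttrkS M p A hpM hA hat) :
    ∀ x ∈ ttrglO2 M A hpM hA,
      (∀ v, ttruCenS M A hpM hA hat i v → x ∈ v.toValuationSubring) →
      ∃ s : ↥(grdB (M * p) A (heckeAlphaBar Qb M p (grdQ M hat.c.mem))),
        ¬ GrdVal (ttrkSν₁ M p A hpM hA hat i) (ttrglRed₁ M A hpM hA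
          ⟨s, ttru_le_inst M A hpM hA hat.c s.2⟩) 0 ∧
        (s : ↥(modularFunctionFieldBar (M * p))) * x ∈
          grdB (M * p) A (heckeAlphaBar Qb M p (grdQ M hat.c.mem)) := by
  haveI := gff_hasPrincipalDivisors (M * p)
  have hsat : ∀ x ∈ (ttrV1 M A hpM hA).toSubring ⊓ (ttraV2 M A hpM hA).toSubring,
      (∀ v : Place Qb ↥(modularFunctionFieldBar (M * p)),
        heckeAlphaBar Qb M p (grdQ M hat.c.mem) ∈ v.toValuationSubring →
          x ∈ v.toValuationSubring) →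
      x ∈ grdB (M * p) A (heckeAlphaBar Qb M p (grdQ M hat.c.mem)) := fun x hx hreg =>
    ttrli_sat_alpha M A hpM hA hat.c x ⟨hx.1, hx.2⟩ hreg
  exact (ttru_pkg_pair (A := A) _ _ (ttru_le_inst M A hpM hA hat.c) _ _
    (ttrkSν₁ M p A hpM hA hat i) (ttrkSν₂ M p A hpM hA hat i)
    (heckeAlphaBar Qb M p (grdQ M hat.c.mem)) (ttrli_u_mem (M * p) A _)
    (ttrli_breg (M * p) A _) hsat (ttrli_const (M * p) A _)
    (ttru_redc₁_inst M A hpM hA)
    (fun v x hx => ttrli_res (M * p) v x hx)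
    (fun v hv b c hbc => ttrr_val_mem (M * p) A _ v hv b.2 hbc)
    (ttru_hpair_S M A hpM hA hat i)).1

/-- **(LOC-GLUE_s)**, closed. -/
theorem mrn_glue : MrnGlueSpec M A hpM hA hat := by
  intro i x hx hreg
  exact mrng_glue_abs (ttrglO2 M A hpM hA) _ (ttru_le_inst M A hpM hA hat.c)
    (ttrglRed₁ M A hpM hA) (ttrglRed₂ M A hpM hA)
    (ttrkSν₁ M p A hpM hA hat i) (ttrkSν₂ M p A hpM hA hat i)
    (ttruCenS M A hpM hA hat i)
    (ttrli_const (M * p) A _) (ttru_redc₁_inst M A hpM hA)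
    (mrng_loc_S M A hpM hA hat i) (ttru_hpair_S M A hpM hA hat i)
    (fun v hv b hb => hv.2 b hb) x hx hreg

/-- a function of `V₁` with nonzero reduction is a unit of `V₁`. -/
theorem mrng_inv_mem₁ (x : ↥(modularFunctionFieldBar (M * p))) (hx : x ∈ ttrV1 M A hpM hA)
    (h : ttraRed1 M A hpM hA ⟨x, hx⟩ ≠ 0) : x⁻¹ ∈ ttrV1 M A hpM hA := by
  have h1 : x ∉ (ttrV1 M A hpM hA).nonunits := fun hn =>
    h ((ttra_ker₁ M A hpM hA (ttrvp_tb1' M A hpM hA) ⟨x, hx⟩).2 hn)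
  rw [ValuationSubring.mem_nonunits_iff, not_lt] at h1
  rw [← ValuationSubring.valuation_le_one_iff, map_inv₀]
  exact inv_le_one_of_one_le₀ h1

/-- a function of `V₂` with nonzero reduction is a unit of `V₂`. -/
theorem mrng_inv_mem₂ (x : ↥(modularFunctionFieldBar (M * p))) (hx : x ∈ ttraV2 M A hpM hA)
    (h : ttraRed2 M A hpM hA ⟨x, hx⟩ ≠ 0) : x⁻¹ ∈ ttraV2 M A hpM hA := by
  have h1 : x ∉ (ttraV2 M A hpM hA).nonunits := fun hn =>
    h ((ttra_ker₂ M A hpM hA (ttrvp_tb1' M A hpM hA) ⟨x, hx⟩).2 hn)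
  rw [ValuationSubring.mem_nonunits_iff, not_lt] at h1
  rw [← ValuationSubring.valuation_le_one_iff, map_inv₀]
  exact inv_le_one_of_one_le₀ h1

/-- a function with a nonzero value is nonzero. -/
theorem mrng_ne_zero_of_val {k' F' : Type*} [Field k'] [Field F'] [Algebra k' F']
    (Q : Place k' F') {y : F'} {c : k'} (hy : GrdVal Q y c) (hc : c ≠ 0) : y ≠ 0 := by
  rintro rfl
  exact hc (grdg_val_unique Q hy ((grdg_val_zero_iff Q 0).2 (zero_mem _)))

/-- **units of `O_s`**, closed. -/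
theorem mrn_unit : MrnUnitSpec M A hpM hA hat := by
  intro i x hx h0
  obtain ⟨c, hc₁, hc₂, hval⟩ := mrn_glue M A hpM hA hat i x hx.1 hx.2
  have hc0 : c ≠ 0 := by
    rintro rfl
    exact h0 hc₁
  have hr₁ : ttraRed1 M A hpM hA ⟨x, hx.1.1⟩ ≠ 0 := mrng_ne_zero_of_val _ hc₁ hc0
  have hr₂ : ttraRed2 M A hpM hA ⟨x, hx.1.2⟩ ≠ 0 := mrng_ne_zero_of_val _ hc₂ hc0
  refine ⟨⟨mrng_inv_mem₁ M A hpM hA x hx.1.1 hr₁, mrng_inv_mem₂ M A hpM hA x hx.1.2 hr₂⟩, ?_⟩
  intro v hv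
  obtain ⟨a, hav, har⟩ := hval v hv
  have ha0 : (a : Qb) ≠ 0 := by
    intro h
    have : a = 0 := Subtype.ext h
    rw [this, map_zero] at har
    exact hc0 har.symm
  exact grdg_val_mem v (ttrz_val_inv v hav ha0)

end Inst

end Fermat.Agent.MR
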