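import Mathlib
import Fermat.Agent.MR.Node.ConstExt
import Fermat.Agent.MR.Node.Glue
import Fermat.Agent.MR.Node.CrossSpec
import Fermat.Agent.TT.Red2.IntoNodeS
import Fermat.Agent.TT.Red2.IntoInst
import Fermat.Agent.TT.Red2.NodeInst
import Fermat.Agent.TT.Red2.NodeGauss
import Fermat.Agent.SS.Germ.IntPhi
import Fermat.Agent.SS.Germ.Abs
import Fermat.Agent.SS.Geo.Loc

/-!
# MR / block `mrn`, ascent: `u_ord`, `w_ord` of `MrnCoord` from the `E`-level generation clause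
(prefix `mrnci`)

`E ⊂ ℚ̄` ANY intermediate field with `𝔸 ∩ E` a DVR (no `Normal`, no `FiniteDimensional`),
`P_E = s18tInt (𝔸 ∩ E) j ⊂ F_E(M p)` the `j`-chart ring, `up = ssdUp E (M p)`, `i` a node of the
TT model, `𝔫_E` the closed point of `P_E` under the node (membership dictionary `hmem`), rational
(`SsResRational`).  If `z ∈ 𝔫_E (P_E)_{𝔫_E}` generates `𝔫_E` locally modulo `𝔪_{V₁}` (`SsgaGen`),
then `ord_{ν₁ i} red₁ (up z) = 1` (`mrnci_ord₁`); the mirror statement on the second branch is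
`mrnci_ord₂`.  This is the instance of `mrnce_ord_eq_one` (a constant field extension is unramified
at a rational point) with `C = red_j (up P_E)`; `F_k(M) = Frac (k · C)` because the generators
`j̄(q^d)`, `d ∣ M`, of `F_k(M)` are the reductions of `j(q^d) ∈ P_E` (branch 1), `j(q^{pd}) ∈ P_E`
(branch 2).
-/

set_option autoImplicit false
set_option linter.unusedSectionVars false
set_option linter.unusedVariables false
set_option linter.style.haveILetI false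
set_option synthInstance.maxHeartbeats 400000

noncomputable section

namespace Fermat.Agent.MR

open Polynomial ModularCurve AlgebraicCurve IsLocalRing IntermediateField
  Fermat.Agent.G Fermat.Agent.S18 Fermat.Agent.S24 Fermat.Agent.FF Fermat.Agent.TT
  Fermat.Agent.SS

local notation "Qb" => AlgebraicClosure ℚ

/-! ### the abstract core : `mrnce_ord_eq_one` for the image of a chart ring -/

section Core

universe u

variable {A₀ : Type*} [CommRing A₀] [IsDomain A₀] [IsDiscreteValuationRing A₀] [CharZero A₀]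
variable {L₀ : Type*} [Field L₀] [Algebra A₀ L₀] [IsFractionRing A₀ L₀]
variable {F₀ : Type u} [Field F₀] [Algebra A₀ F₀] [Algebra L₀ F₀] [IsScalarTower A₀ L₀ F₀]
variable {k F : Type*} [Field k] [Field F] [Algebra k F]

/-- **the core** : `ρ : P → F` a ring homomorphism from the chart ring `P = s18tInt A₀ t` to a
function field `F / k`, `Q` a place of `F / k` with `ρ(P) ⊆ 𝒪_Q`, `𝔫 = ρ⁻¹(𝔪_Q)` a rational closed
point, `W` a valuation ring of `F₀` containing `P` with `ρ(P ∩ 𝔪_W) = 0`, `F = Frac (k · ρ(P))`.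
If `w = q / s` (`s ∉ 𝔫`, `q ∈ 𝔫`) generates `𝔫` locally modulo `𝔪_W`, then `ord_Q ρ(q) = 1` and
`ord_Q ρ(s) = 0`. -/
theorem mrnci_core (t : F₀) (𝔫 : Ideal ↥(s18tInt A₀ t)) (W : ValuationSubring F₀)
    (ρ : ↥(s18tInt A₀ t) →+* F) (Q : Place k F)
    (hreg : ∀ z, ρ z ∈ Q.toValuationSubring)
    (hmem : ∀ z, z ∈ 𝔫 ↔ ρ z ∈ Q.toValuationSubring.nonunits)
    (hconst : ∀ a : A₀, ∃ a' : k,
      ρ ⟨algebraMap A₀ F₀ a, s18tc_algebraMap_mem_int t a⟩ = algebraMap k F a')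
    (hres : SsResRational t 𝔫)
    (hPW : ∀ z : ↥(s18tInt A₀ t), (z : F₀) ∈ W)
    (hker : ∀ z : ↥(s18tInt A₀ t), (z : F₀) ∈ W.nonunits → ρ z = 0)
    (hfrac : ∀ f : F, ∃ x ∈ Submodule.span k (ρ.range : Set F),
      ∃ y ∈ Submodule.span k (ρ.range : Set F), y ≠ 0 ∧ f * y = x)
    (w : F₀) (hgen : SsgaGen t 𝔫 W w)
    (s q : ↥(s18tInt A₀ t)) (hs : s ∉ 𝔫) (hq : q ∈ 𝔫) (hsw : (s : F₀) * w = (q : F₀)) :
    Q.ord (ρ q) = 1 ∧ Q.ord (ρ s) = 0 ∧ ρ s ≠ 0 := by
  have hsQ : ρ s ∉ Q.toValuationSubring.nonunits := fun h => hs ((hmem s).2 h)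
  have hs0 : ρ s ≠ 0 := by
    intro h0
    apply hsQ
    rw [h0]
    exact zero_mem _
  have hord1 : Q.ord (ρ q) = 1 := by
    refine mrnce_ord_eq_one Q ρ.range ?_ ?_ (ρ q) ⟨q, rfl⟩ ((hmem q).1 hq) ?_ hfrac
    · rintro x ⟨z, rfl⟩
      exact hreg z
    · rintro x ⟨z, rfl⟩
      obtain ⟨a, q', hq', hz⟩ := hres z
      obtain ⟨a', ha'⟩ := hconst a
      refine ⟨a', ⟨_, ha'⟩, ?_⟩
      have e : z = ⟨algebraMap A₀ F₀ a, s18tc_algebraMap_mem_int t a⟩ + q' := Subtype.ext hz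
      rw [← ha', e, map_add, add_sub_cancel_left]
      exact (hmem q').1 hq'
    · rintro x ⟨z, rfl⟩ hzQ
      have hz : z ∈ 𝔫 := (hmem z).2 hzQ
      obtain ⟨s', hs', c, hc⟩ := hgen z hz
      have hs'Q : ρ s' ∉ Q.toValuationSubring.nonunits := fun h => hs' ((hmem s').2 h)
      refine ⟨ρ s * ρ s', ⟨s * s', map_mul _ _ _⟩,
        mrnce_mul_not_nu Q (hreg s) (hreg s') hsQ hs'Q, ρ c, ⟨c, rfl⟩, ?_⟩
      have hy : ((s * s' * z - c * q : ↥(s18tInt A₀ t)) : F₀) ∈ W.nonunits := by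
        have e : ((s * s' * z - c * q : ↥(s18tInt A₀ t)) : F₀) =
            (s : F₀) * ((s' : F₀) * (z : F₀) - (c : F₀) * w) := by
          push_cast
          rw [← hsw]
          ring
        rw [e]
        exact ssga_mul_mem_nonunits W (hPW s) hc
      have h0 := hker _ hy
      rw [map_sub, map_mul, map_mul, map_mul, sub_eq_zero] at h0
      exact h0
  refine ⟨hord1, ?_, hs0⟩
  rw [PlaceOrd.ord_eq_zero_iff Q hs0]
  refine ⟨hreg s, ?_⟩
  by_contra hinv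
  apply hsQ
  rw [mrnce_mem_nonunits_iff Q hs0, PlaceOrd.ord_pos_iff Q hs0]
  exact hinv

end Core

/-! ### the generators `j(q^d)`, `d ∣ M`, at the level `M` of good reduction -/

section Gen

variable {p : ℕ} [Fact p.Prime] [NeZero p] (A : ValuationSubring Qb)
  (E : IntermediateField ℚ Qb) [IsDiscreteValuationRing ↥(s18dVal A E)] [CharZero ↥(s18dVal A E)]
variable (M : ℕ) [NeZero M]

/-- `j(q^d) ∈ F_E(M)`, `d ∣ M`. -/
def mrnciJd (d : ℕ) [NeZero d] (hd : d ∣ M) : ↥(modularFunctionFieldFullC E M) :=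
  ⟨qExpand E d (jqModC E), jqModCd_mem_full E M hd⟩

theorem mrnci_up_Jd (d : ℕ) [NeZero d] (hd : d ∣ M) :
    ssvmmUp E M (mrnciJd E M d hd) = jdBar M d hd := by
  apply Subtype.ext
  show s18dUp E (qExpand E d (jqModC E)) = coeffEmb Qb (qExpand ℚ d jq)
  rw [coeffEmb, coeffMap_qExpand, coeffMap_qExpand, ← jqModC_rat, coeffMap_jqModC,
    coeffMap_jqModC]

/-- `j(q^d)` is integral over `E[j]`. -/
theorem mrnci_Jd_isIntegralElem (d : ℕ) [NeZero d] (hd : d ∣ M) :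
    ((aeval (ssvmdJ E M) : E[X] →ₐ[E] modularFunctionFieldFullC E M) :
      E[X] →+* modularFunctionFieldFullC E M).IsIntegralElem (mrnciJd E M d hd) := by
  apply ssgq_isIntegralElem_of_up
  rw [mrnci_up_Jd]
  obtain ⟨P, hP, -, h0⟩ := exists_monic_of_mem_RBar (N := M)
    ⟨jdBar M d hd, jdBar_mem_RBar M d hd⟩
  exact ⟨P, hP, h0⟩

/-- **`j(q^d) ∈ P₀ = s18tInt (𝔸 ∩ E) j`** at the level `M` prime to `p`. -/
theorem mrnci_Jd_mem_int (hA : A.LiesOverPrime p) (hpM : ¬ p ∣ M) (d : ℕ) [NeZero d]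
    (hd : d ∣ M) :
    mrnciJd E M d hd ∈ s18tInt ↥(s18dVal A E) (ssvmdJ E M) := by
  obtain ⟨ϖ, hϖ⟩ := IsDiscreteValuationRing.exists_irreducible ↥(s18dVal A E)
  haveI := (ssvmd_finrank_j E M).1
  have hcoord := s18v_coord_j' (A₀ := ↥(s18dVal A E)) (L₀ := E) hϖ (s18d_natCast_mem A E hA) M hpM
  refine ssgq_mem_int (L := E) hϖ (ssvmdJ E M)
    (s18v_transcendental (A₀ := ↥(s18dVal A E)) (modularFunctionFieldFullC E M)
      (ssvmdJ E M) (jqModC ↥(s18dVal A E)) (s18v_pole_j M))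
    (mrnciJd E M d hd) ?_ (mrnci_Jd_isIntegralElem E M d hd)
  have e := hcoord.intLoc_eq
  show mrnciJd E M d hd ∈ s18tIntLoc ↥(s18dVal A E)
    (⟨jqModC E, jqModC_mem_full E M⟩ : ↥(modularFunctionFieldFullC E M)) (C ϖ) (s18t_prime_C hϖ)
  rw [e, mem_s18vO]
  refine ⟨qExpand ↥(s18dVal A E) d (jqModC ↥(s18dVal A E)), 1, ?_, ?_, ?_, ?_⟩
  · rw [coeffMap_qExpand, coeffMap_jqModC]
    exact jqModCd_mem_full E M hd
  · rw [map_one]; exact one_mem _
  · rw [map_one]; exact one_ne_zero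
  · rw [map_one, mul_one, coeffMap_qExpand, coeffMap_jqModC]
    rfl

end Gen

/-! ### the instance at the TT nodes -/

section Inst

set_option synthInstance.maxHeartbeats 800000 in
/-- instance shortcut (the generic search through `ResidueField` is very slow). -/
local instance mrnciInstF (A : ValuationSubring Qb) (M : ℕ) [NeZero M] :
    Field ↥(modularFunctionFieldFullC (ResidueField A) M) := inferInstance

set_option synthInstance.maxHeartbeats 800000 in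
/-- instance shortcut (the generic search through `ResidueField` is very slow). -/
local instance mrnciInstA (A : ValuationSubring Qb) (M : ℕ) [NeZero M] :
    Algebra (ResidueField A) ↥(modularFunctionFieldFullC (ResidueField A) M) := inferInstance

variable (M : ℕ) [NeZero M] {p : ℕ} [Fact p.Prime] [NeZero p]
variable (A : ValuationSubring Qb) (hpM : ¬ p ∣ M) (hA : A.LiesOverPrime p)
variable (E : IntermediateField ℚ Qb) [IsDiscreteValuationRing ↥(s18dVal A E)]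
  [CharZero ↥(s18dVal A E)]

/-- `up` restricted to the chart ring `P_E`, with values in `O2`. -/
def mrnciUp (hO : ∀ z : ↥(s18tInt ↥(s18dVal A E) (ssdJ E (M * p))),
      ssdUp E (M * p) (z : ↥(modularFunctionFieldFullC E (M * p))) ∈ ttrglO2 M A hpM hA) :
    ↥(s18tInt ↥(s18dVal A E) (ssdJ E (M * p))) →+* ↥(ttrglO2 M A hpM hA) :=
  ((ssdUp E (M * p)).comp (s18tInt ↥(s18dVal A E) (ssdJ E (M * p))).subtype).codRestrict _ hO

theorem coe_mrnciUp (hO : ∀ z : ↥(s18tInt ↥(s18dVal A E) (ssdJ E (M * p))),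
      ssdUp E (M * p) (z : ↥(modularFunctionFieldFullC E (M * p))) ∈ ttrglO2 M A hpM hA)
    (z : ↥(s18tInt ↥(s18dVal A E) (ssdJ E (M * p)))) :
    ((mrnciUp M A hpM hA E hO z : ↥(ttrglO2 M A hpM hA)) : ↥(modularFunctionFieldBar (M * p))) =
      ssdUp E (M * p) (z : ↥(modularFunctionFieldFullC E (M * p))) := rfl

/-- the reduction of a constant. -/
theorem mrnci_red₁_const (hO : ∀ z : ↥(s18tInt ↥(s18dVal A E) (ssdJ E (M * p))),
      ssdUp E (M * p) (z : ↥(modularFunctionFieldFullC E (M * p))) ∈ ttrglO2 M A hpM hA)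
    (a : ↥(s18dVal A E)) :
    ttrglRed₁ M A hpM hA (mrnciUp M A hpM hA E hO
      ⟨algebraMap ↥(s18dVal A E) ↥(modularFunctionFieldFullC E (M * p)) a,
        s18tc_algebraMap_mem_int _ a⟩) =
      algebraMap (ResidueField A) ↥(modularFunctionFieldFullC (ResidueField A) M)
        (residue A (s18dIncl A E a)) := by
  have e : ssdUp E (M * p) (algebraMap ↥(s18dVal A E) ↥(modularFunctionFieldFullC E (M * p)) a) =
      algebraMap Qb ↥(modularFunctionFieldBar (M * p)) ((s18dIncl A E a : ↥A) : Qb) :=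
    grdstUp_algebraMap (M * p) A E a
  have hmem : algebraMap Qb ↥(modularFunctionFieldBar (M * p)) ((s18dIncl A E a : ↥A) : Qb) ∈
      ttrglO2 M A hpM hA := by
    rw [← e]
    exact hO ⟨_, s18tc_algebraMap_mem_int _ a⟩
  rw [← ttru_redc₁_inst M A hpM hA (s18dIncl A E a) hmem]
  congr 1
  exact Subtype.ext e

/-- the second reduction of a constant. -/
theorem mrnci_red₂_const (hO : ∀ z : ↥(s18tInt ↥(s18dVal A E) (ssdJ E (M * p))),
      ssdUp E (M * p) (z : ↥(modularFunctionFieldFullC E (M * p))) ∈ ttrglO2 M A hpM hA)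
    (a : ↥(s18dVal A E)) :
    ttrglRed₂ M A hpM hA (mrnciUp M A hpM hA E hO
      ⟨algebraMap ↥(s18dVal A E) ↥(modularFunctionFieldFullC E (M * p)) a,
        s18tc_algebraMap_mem_int _ a⟩) =
      algebraMap (ResidueField A) ↥(modularFunctionFieldFullC (ResidueField A) M)
        (residue A (s18dIncl A E a)) := by
  have e : ssdUp E (M * p) (algebraMap ↥(s18dVal A E) ↥(modularFunctionFieldFullC E (M * p)) a) =
      algebraMap Qb ↥(modularFunctionFieldBar (M * p)) ((s18dIncl A E a : ↥A) : Qb) :=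
    grdstUp_algebraMap (M * p) A E a
  have h := (ttra_red₂ M A hpM hA (ttrvp_tb1' M A hpM hA)).red_const (s18dIncl A E a)
  rw [← h, ttalRedO₂_apply]
  congr 1
  exact Subtype.ext e

include hpM hA in
/-- the generator `j(q^d)`, `d ∣ M`, in `P_E` (level `M p`). -/
theorem mrnci_incl_Jd_mem (d : ℕ) [NeZero d] (hd : d ∣ M) :
    ssvmdIncl E M p (mrnciJd E M d hd) ∈ s18tInt ↥(s18dVal A E) (ssdJ E (M * p)) :=
  ssgq_incl_mem_int A E M (mrnci_Jd_mem_int A E M hA hpM d hd)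

include hpM hA in
/-- the generator `j(q^{p d})`, `d ∣ M`, in `P_E` (level `M p`). -/
theorem mrnci_phi_Jd_mem (d : ℕ) [NeZero d] (hd : d ∣ M) :
    ssvmfPhi E M p (mrnciJd E M d hd) ∈ s18tInt ↥(s18dVal A E) (ssdJ E (M * p)) :=
  ssgq_phi_mem_int A E M hA hpM (mrnci_Jd_mem_int A E M hA hpM d hd)

/-- `red₁ (up j(q^d)) = j̄(q^d)`. -/
theorem mrnci_red₁_Jd (hO : ∀ z : ↥(s18tInt ↥(s18dVal A E) (ssdJ E (M * p))),
      ssdUp E (M * p) (z : ↥(modularFunctionFieldFullC E (M * p))) ∈ ttrglO2 M A hpM hA)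
    (d : ℕ) [NeZero d] (hd : d ∣ M) :
    ((ttrglRed₁ M A hpM hA (mrnciUp M A hpM hA E hO
      ⟨ssvmdIncl E M p (mrnciJd E M d hd), mrnci_incl_Jd_mem M A hpM hA E d hd⟩) :
        ↥(modularFunctionFieldFullC (ResidueField A) M)) : LaurentSeries (ResidueField A)) =
      qExpand (ResidueField A) d (jqModC (ResidueField A)) := by
  rw [ttalRedO₁_apply]
  have h := ttrRed1_eq M A hA
    ⟨ssdUp E (M * p) (ssvmdIncl E M p (mrnciJd E M d hd)), (hO ⟨_, mrnci_incl_Jd_mem M A hpM hA E d hd⟩).1⟩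
    (qExpand ↥A d (jqModC ↥A)) 1 (by rw [map_one]; exact one_ne_zero) (by
      rw [map_one, mul_one, coeffMap_qExpand, coeffMap_jqModC]
      show s18dUp E ((ssvmdIncl E M p (mrnciJd E M d hd) :
        ↥(modularFunctionFieldFullC E (M * p))) : LaurentSeries E) = _
      rw [ssvmdIncl_coe]
      show s18dUp E (qExpand E d (jqModC E)) = _
      rw [coeffMap_qExpand, coeffMap_jqModC])
  rw [map_one, div_one, coeffMap_qExpand, coeffMap_jqModC] at h
  exact h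

/-- `red₂ (up j(q^{p d})) = j̄(q^d)`. -/
theorem mrnci_red₂_Jd (hO : ∀ z : ↥(s18tInt ↥(s18dVal A E) (ssdJ E (M * p))),
      ssdUp E (M * p) (z : ↥(modularFunctionFieldFullC E (M * p))) ∈ ttrglO2 M A hpM hA)
    (d : ℕ) [NeZero d] (hd : d ∣ M) :
    ((ttrglRed₂ M A hpM hA (mrnciUp M A hpM hA E hO
      ⟨ssvmfPhi E M p (mrnciJd E M d hd), mrnci_phi_Jd_mem M A hpM hA E d hd⟩) :
        ↥(modularFunctionFieldFullC (ResidueField A) M)) : LaurentSeries (ResidueField A)) =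
      qExpand (ResidueField A) d (jqModC (ResidueField A)) := by
  have hz := hO ⟨_, mrnci_phi_Jd_mem M A hpM hA E d hd⟩
  have hz2 : ttrW M hpM (ssdUp E (M * p) (ssvmfPhi E M p (mrnciJd E M d hd))) ∈
      grdO (M * p) A := hz.2
  have e : ttrW M hpM (ssdUp E (M * p) (ssvmfPhi E M p (mrnciJd E M d hd))) =
      heckeAlphaBar Qb M p (ssdUp E M (mrnciJd E M d hd)) := by
    rw [← ttrW_beta M hpM]
    congr 1
    apply Subtype.ext
    rw [coe_heckeBetaBar]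
    show s18dUp E (qExpand E p ((mrnciJd E M d hd : ↥(modularFunctionFieldFullC E M)) :
      LaurentSeries E)) = qExpand Qb p (s18dUp E ((mrnciJd E M d hd :
        ↥(modularFunctionFieldFullC E M)) : LaurentSeries E))
    rw [coeffMap_qExpand]
  have key : ((ttrRed1 M A hA ⟨_, hz2⟩ : ↥(modularFunctionFieldFullC (ResidueField A) M)) :
      LaurentSeries (ResidueField A)) = qExpand (ResidueField A) d (jqModC (ResidueField A)) := by
    have h := ttrRed1_eq M A hA ⟨_, hz2⟩ (qExpand ↥A d (jqModC ↥A)) 1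
      (by rw [map_one]; exact one_ne_zero) (by
        rw [map_one, mul_one, coeffMap_qExpand, coeffMap_jqModC]
        show ((ttrW M hpM (ssdUp E (M * p) (ssvmfPhi E M p (mrnciJd E M d hd))) :
          ↥(modularFunctionFieldBar (M * p))) : LaurentSeries Qb) = _
        rw [e, coe_heckeAlphaBar]
        show s18dUp E (qExpand E d (jqModC E)) = _
        rw [coeffMap_qExpand, coeffMap_jqModC])
    rw [map_one, div_one, coeffMap_qExpand, coeffMap_jqModC] at h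
    exact h
  exact key

/-- `ρ₁ = red₁ ∘ up` on `P_E`. -/
def mrnciRho₁ (hO : ∀ z : ↥(s18tInt ↥(s18dVal A E) (ssdJ E (M * p))),
      ssdUp E (M * p) (z : ↥(modularFunctionFieldFullC E (M * p))) ∈ ttrglO2 M A hpM hA) :
    ↥(s18tInt ↥(s18dVal A E) (ssdJ E (M * p))) →+*
      ↥(modularFunctionFieldFullC (ResidueField A) M) :=
  (ttrglRed₁ M A hpM hA).comp (mrnciUp M A hpM hA E hO)

/-- `ρ₂ = red₂ ∘ up` on `P_E`. -/
def mrnciRho₂ (hO : ∀ z : ↥(s18tInt ↥(s18dVal A E) (ssdJ E (M * p))),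
      ssdUp E (M * p) (z : ↥(modularFunctionFieldFullC E (M * p))) ∈ ttrglO2 M A hpM hA) :
    ↥(s18tInt ↥(s18dVal A E) (ssdJ E (M * p))) →+*
      ↥(modularFunctionFieldFullC (ResidueField A) M) :=
  (ttrglRed₂ M A hpM hA).comp (mrnciUp M A hpM hA E hO)

/-- `F_k(M) = Frac (k · ρ₁(P_E))`. -/
theorem mrnci_frac₁ (hO : ∀ z : ↥(s18tInt ↥(s18dVal A E) (ssdJ E (M * p))),
      ssdUp E (M * p) (z : ↥(modularFunctionFieldFullC E (M * p))) ∈ ttrglO2 M A hpM hA)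
    (f : ↥(modularFunctionFieldFullC (ResidueField A) M)) :
    ∃ x ∈ Submodule.span (ResidueField A) ((mrnciRho₁ M A hpM hA E hO).range : Set _),
      ∃ y ∈ Submodule.span (ResidueField A) ((mrnciRho₁ M A hpM hA E hO).range : Set _),
        y ≠ 0 ∧ f * y = x := by
  refine mrnce_frac_of_adjoin (divisorExpansionsC (ResidueField A) M)
    (mrnciRho₁ M A hpM hA E hO).range ?_ f
  rintro g ⟨d, hne, hd, rfl⟩
  haveI := hne
  exact ⟨_, ⟨⟨ssvmdIncl E M p (mrnciJd E M d hd), mrnci_incl_Jd_mem M A hpM hA E d hd⟩, rfl⟩,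
    mrnci_red₁_Jd M A hpM hA E hO d hd⟩

/-- `F_k(M) = Frac (k · ρ₂(P_E))`. -/
theorem mrnci_frac₂ (hO : ∀ z : ↥(s18tInt ↥(s18dVal A E) (ssdJ E (M * p))),
      ssdUp E (M * p) (z : ↥(modularFunctionFieldFullC E (M * p))) ∈ ttrglO2 M A hpM hA)
    (f : ↥(modularFunctionFieldFullC (ResidueField A) M)) :
    ∃ x ∈ Submodule.span (ResidueField A) ((mrnciRho₂ M A hpM hA E hO).range : Set _),
      ∃ y ∈ Submodule.span (ResidueField A) ((mrnciRho₂ M A hpM hA E hO).range : Set _),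
        y ≠ 0 ∧ f * y = x := by
  refine mrnce_frac_of_adjoin (divisorExpansionsC (ResidueField A) M)
    (mrnciRho₂ M A hpM hA E hO).range ?_ f
  rintro g ⟨d, hne, hd, rfl⟩
  haveI := hne
  exact ⟨_, ⟨⟨ssvmfPhi E M p (mrnciJd E M d hd), mrnci_phi_Jd_mem M A hpM hA E d hd⟩, rfl⟩,
    mrnci_red₂_Jd M A hpM hA E hO d hd⟩

/-- `ρ₁` kills `P_E ∩ 𝔪_{W₁}`. -/
theorem mrnci_ker₁ (hO : ∀ z : ↥(s18tInt ↥(s18dVal A E) (ssdJ E (M * p))),
      ssdUp E (M * p) (z : ↥(modularFunctionFieldFullC E (M * p))) ∈ ttrglO2 M A hpM hA)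
    (z : ↥(s18tInt ↥(s18dVal A E) (ssdJ E (M * p))))
    (hz : (z : ↥(modularFunctionFieldFullC E (M * p))) ∈ (mrnxW₁ M A hpM hA E).nonunits) :
    mrnciRho₁ M A hpM hA E hO z = 0 := by
  have h1 : ssdUp E (M * p) (z : ↥(modularFunctionFieldFullC E (M * p))) ∈
      (ttrV1 M A hpM hA).nonunits := (ttrn_comap_nonunits _ _ _).1 hz
  exact (ttra_ker₁ M A hpM hA (ttrvp_tb1' M A hpM hA) ⟨_, (hO z).1⟩).2 h1

/-- `ρ₂` kills `P_E ∩ 𝔪_{W₂}`. -/
theorem mrnci_ker₂ (hO : ∀ z : ↥(s18tInt ↥(s18dVal A E) (ssdJ E (M * p))),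
      ssdUp E (M * p) (z : ↥(modularFunctionFieldFullC E (M * p))) ∈ ttrglO2 M A hpM hA)
    (z : ↥(s18tInt ↥(s18dVal A E) (ssdJ E (M * p))))
    (hz : (z : ↥(modularFunctionFieldFullC E (M * p))) ∈ (mrnxW₂ M A hpM hA E).nonunits) :
    mrnciRho₂ M A hpM hA E hO z = 0 := by
  have h1 : ssdUp E (M * p) (z : ↥(modularFunctionFieldFullC E (M * p))) ∈
      (ttraV2 M A hpM hA).nonunits := (ttrn_comap_nonunits _ _ _).1 hz
  exact (ttra_ker₂ M A hpM hA (ttrvp_tb1' M A hpM hA) ⟨_, (hO z).2⟩).2 h1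

variable {τ τ' : LaurentSeries ℤ} (hat : GrdAtlas M A τ τ')

/-- **(D4), first branch** : a local generator of the rational node prime `𝔫` of `P_E` modulo
`𝔪_{W₁}` reduces to a uniformiser at `ν₁ i`. -/
theorem mrnci_ord₁ (i : ttrkS M p A hpM hA hat)
    (𝔫 : Ideal ↥(s18tInt ↥(s18dVal A E) (ssdJ E (M * p))))
    (hO : ∀ z : ↥(s18tInt ↥(s18dVal A E) (ssdJ E (M * p))),
      MrnInOs M A hpM hA hat i (ssdUp E (M * p) (z : ↥(modularFunctionFieldFullC E (M * p)))))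
    (hNP : MrnxNodePrime M A hpM hA hat E i 𝔫)
    (hres : SsResRational (ssdJ E (M * p)) 𝔫) :
    MrnxDictOrd₁ M A hpM hA hat E i 𝔫 := by
  intro w hw hgen h
  obtain ⟨s, hs, q, hq, hsw⟩ := hw
  have hO2 : ∀ z : ↥(s18tInt ↥(s18dVal A E) (ssdJ E (M * p))),
      ssdUp E (M * p) (z : ↥(modularFunctionFieldFullC E (M * p))) ∈ ttrglO2 M A hpM hA :=
    fun z => (hO z).1
  obtain ⟨h1, h0, hs0⟩ := mrnci_core (ssdJ E (M * p)) 𝔫 (mrnxW₁ M A hpM hA E)
    (mrnciRho₁ M A hpM hA E hO2) (ttrkSν₁ M p A hpM hA hat i)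
    (fun z => by
      obtain ⟨c, hc, -, -⟩ := mrn_glue M A hpM hA hat i _ (hO z).1 (hO z).2
      exact grdg_val_mem _ hc)
    (fun z => (hNP z).trans ⟨fun ⟨_, hv⟩ => (grdg_val_zero_iff _ _).1 hv,
      fun hv => ⟨hO2 z, (grdg_val_zero_iff _ _).2 hv⟩⟩)
    (fun a => ⟨_, mrnci_red₁_const M A hpM hA E hO2 a⟩)
    hres (fun z => (hO z).1.1) (mrnci_ker₁ M A hpM hA E hO2) (mrnci_frac₁ M A hpM hA E hO2)
    w hgen s q hs hq hsw
  have hmul : mrnciRho₁ M A hpM hA E hO2 s * ttrglRed₁ M A hpM hA ⟨_, h⟩ =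
      mrnciRho₁ M A hpM hA E hO2 q := by
    show ttrglRed₁ M A hpM hA (mrnciUp M A hpM hA E hO2 s) * ttrglRed₁ M A hpM hA ⟨_, h⟩ =
      ttrglRed₁ M A hpM hA (mrnciUp M A hpM hA E hO2 q)
    rw [← map_mul]
    congr 1
    apply Subtype.ext
    show ssdUp E (M * p) (s : ↥(modularFunctionFieldFullC E (M * p))) * ssdUp E (M * p) w =
      ssdUp E (M * p) (q : ↥(modularFunctionFieldFullC E (M * p)))
    rw [← map_mul, hsw]
  have hw0 : ttrglRed₁ M A hpM hA ⟨_, h⟩ ≠ 0 := by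
    intro h0'
    rw [h0', mul_zero] at hmul
    rw [← hmul, Place.ord_zero] at h1
    exact zero_ne_one h1
  have h2 := congrArg (ttrkSν₁ M p A hpM hA hat i).ord hmul
  rw [Place.ord_mul _ hs0 hw0, h0, zero_add, h1] at h2
  exact h2

set_option maxHeartbeats 1600000 in
/-- **(D4), second branch.** -/
theorem mrnci_ord₂ (i : ttrkS M p A hpM hA hat)
    (𝔫 : Ideal ↥(s18tInt ↥(s18dVal A E) (ssdJ E (M * p))))
    (hO : ∀ z : ↥(s18tInt ↥(s18dVal A E) (ssdJ E (M * p))),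
      MrnInOs M A hpM hA hat i (ssdUp E (M * p) (z : ↥(modularFunctionFieldFullC E (M * p)))))
    (hNP : MrnxNodePrime M A hpM hA hat E i 𝔫)
    (hres : SsResRational (ssdJ E (M * p)) 𝔫) :
    MrnxDictOrd₂ M A hpM hA hat E i 𝔫 := by
  intro w hw hgen h
  obtain ⟨s, hs, q, hq, hsw⟩ := hw
  have hO2 : ∀ z : ↥(s18tInt ↥(s18dVal A E) (ssdJ E (M * p))),
      ssdUp E (M * p) (z : ↥(modularFunctionFieldFullC E (M * p))) ∈ ttrglO2 M A hpM hA :=
    fun z => (hO z).1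
  have hglue : ∀ z : ↥(s18tInt ↥(s18dVal A E) (ssdJ E (M * p))), ∃ c : ResidueField A,
      GrdVal (ttrkSν₁ M p A hpM hA hat i) (mrnciRho₁ M A hpM hA E hO2 z) c ∧
      GrdVal (ttrkSν₂ M p A hpM hA hat i) (mrnciRho₂ M A hpM hA E hO2 z) c := fun z => by
    obtain ⟨c, hc₁, hc₂, -⟩ := mrn_glue M A hpM hA hat i _ (hO z).1 (hO z).2
    exact ⟨c, hc₁, hc₂⟩
  have hreg₂ : ∀ z : ↥(s18tInt ↥(s18dVal A E) (ssdJ E (M * p))),
      mrnciRho₂ M A hpM hA E hO2 z ∈ (ttrkSν₂ M p A hpM hA hat i).toValuationSubring := fun z => by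
    obtain ⟨c, -, hc⟩ := hglue z
    exact grdg_val_mem _ hc
  have hmem₂ : ∀ z : ↥(s18tInt ↥(s18dVal A E) (ssdJ E (M * p))), z ∈ 𝔫 ↔
      mrnciRho₂ M A hpM hA E hO2 z ∈
        (ttrkSν₂ M p A hpM hA hat i).toValuationSubring.nonunits := fun z => by
    obtain ⟨c, hc₁, hc₂⟩ := hglue z
    constructor
    · intro hz
      obtain ⟨_, hv⟩ := (hNP z).1 hz
      have hc0 : c = 0 := grdg_val_unique _ hc₁ hv
      rw [hc0] at hc₂
      exact (grdg_val_zero_iff _ _).1 hc₂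
    · intro hv
      have hc0 : c = 0 := grdg_val_unique _ hc₂ ((grdg_val_zero_iff _ _).2 hv)
      rw [hc0] at hc₁
      exact (hNP z).2 ⟨hO2 z, hc₁⟩
  obtain ⟨h1, h0, hs0⟩ := mrnci_core (ssdJ E (M * p)) 𝔫 (mrnxW₂ M A hpM hA E)
    (mrnciRho₂ M A hpM hA E hO2) (ttrkSν₂ M p A hpM hA hat i) hreg₂ hmem₂
    (fun a => ⟨_, mrnci_red₂_const M A hpM hA E hO2 a⟩)
    hres (fun z => (hO z).1.2) (mrnci_ker₂ M A hpM hA E hO2) (mrnci_frac₂ M A hpM hA E hO2)
    w hgen s q hs hq hsw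
  have hmul : mrnciRho₂ M A hpM hA E hO2 s * ttrglRed₂ M A hpM hA ⟨_, h⟩ =
      mrnciRho₂ M A hpM hA E hO2 q := by
    show ttrglRed₂ M A hpM hA (mrnciUp M A hpM hA E hO2 s) * ttrglRed₂ M A hpM hA ⟨_, h⟩ =
      ttrglRed₂ M A hpM hA (mrnciUp M A hpM hA E hO2 q)
    rw [← map_mul]
    congr 1
    apply Subtype.ext
    show ssdUp E (M * p) (s : ↥(modularFunctionFieldFullC E (M * p))) * ssdUp E (M * p) w =
      ssdUp E (M * p) (q : ↥(modularFunctionFieldFullC E (M * p)))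
    rw [← map_mul, hsw]
  have hw0 : ttrglRed₂ M A hpM hA ⟨_, h⟩ ≠ 0 := by
    intro h0'
    rw [h0', mul_zero] at hmul
    rw [← hmul, Place.ord_zero] at h1
    exact zero_ne_one h1
  have h2 := congrArg (ttrkSν₂ M p A hpM hA hat i).ord hmul
  rw [Place.ord_mul _ hs0 hw0, h0, zero_add, h1] at h2
  exact h2

/-- **`MrnxOrdSpec` (helper3's literal of `MR/Node/CrossSpec.lean`), CLOSED** : any atlas, any
`E` with `𝔸 ∩ E` a DVR. -/
theorem mrnci_ordSpec : MrnxOrdSpec M A hpM hA hat := by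
  intro E _ _ _ i 𝔫 h𝔫 hNP hres hDL
  have hO : ∀ z : ↥(s18tInt ↥(s18dVal A E) (ssdJ E (M * p))),
      MrnInOs M A hpM hA hat i (ssdUp E (M * p) (z : ↥(modularFunctionFieldFullC E (M * p)))) :=
    fun z => hDL.1 z ⟨1, (Ideal.ne_top_iff_one _).1 h𝔫.ne_top, by
      rw [OneMemClass.coe_one, one_mul]; exact z.2⟩
  exact ⟨mrnci_ord₁ M A hpM hA E hat i 𝔫 hO hNP hres, mrnci_ord₂ M A hpM hA E hat i 𝔫 hO hNP hres⟩

end Inst

end Fermat.Agent.MR
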