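import Mathlib
import Fermat.Agent.MR.Node.CrossSpec
import Fermat.Agent.MR.Node.Glue
import Fermat.Agent.TT.Red2.NodeClosed

/-!
# PROGRAM MR (S44), block `mrn`, file CROSS : THE ASCENT `E`-LEVEL EXACT GERM ⟶ TT NODE

Owner: helper3 (MR-PM R69(1)).  Prefix `mrnx`.  Namespace `Fermat.Agent.MR`.

* `mrnx_up_inv` : a function with coefficients in a field `E ⊂ ℚ̄^I` is fixed by inertia;
* `mrnx_coord_of_exact` : **hypothesis-first ascent** : an exact pair `u' w' = p^e ε'` at the prime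
  `𝔫` of `P_E` + the dictionary clauses (D3), (D4) at `𝔫` ⟹ `MrnCoord i (up w') (up u') (up ε') p^e`
  (the roles are SWAPPED : main's `u' ∈ 𝔪_{W₁}` vanishes on the first component, `MrnCoord`'s `u`
  is the parameter of the first branch);
* `mrnx_onBoth` : a node prime lies on both components and contains `p`;
* `mrnx_thick` : `MrnxDictSpec → MrnxGermSpec → MrnxOrdSpec → MrnxThick`.
-/

set_option autoImplicit false
set_option linter.unusedSectionVars false
set_option linter.unusedVariables false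
set_option linter.style.haveILetI false

noncomputable section

namespace Fermat.Agent.MR

open Polynomial ModularCurve AlgebraicCurve IsLocalRing IntermediateField
  Fermat.Agent.G Fermat.Agent.S18 Fermat.Agent.S24 Fermat.Agent.FF Fermat.Agent.TT
  Fermat.Agent.SS

local notation "Qb" => AlgebraicClosure ℚ

variable (M : ℕ) [NeZero M] {p : ℕ} [Fact p.Prime] [NeZero p]
variable (A : ValuationSubring Qb) (hpM : ¬ p ∣ M) (hA : A.LiesOverPrime p)
variable {τ τ' : LaurentSeries ℤ} (hat : GrdAtlas M A τ τ')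
variable (E : IntermediateField ℚ Qb)

/-! ## Inertia invariance of functions defined over `E ⊂ ℚ̄^I` -/

/-- a function with coefficients in a field fixed by inertia is fixed by inertia. -/
theorem mrnx_up_inv (N : ℕ) [NeZero N]
    (hinv : ∀ σ ∈ A.inertiaSubgroupIn ℚ, ∀ x : E, σ (x : Qb) = x)
    (x : ↥(modularFunctionFieldFullC E N)) (σ : ↥(ffI A)) :
    ffigRho N A σ • ssdUp E N x = ssdUp E N x := by
  apply Subtype.ext
  rw [ffigRho_apply, coe_arithmeticGalois_smul, coe_ssdUp]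
  show coeffMap ((σ : Qb ≃ₐ[ℚ] Qb) : Qb →+* Qb)
    (coeffMap (algebraMap E Qb) (x : LaurentSeries E)) = coeffMap (algebraMap E Qb) _
  rw [coeffMap_coeffMap]
  exact coeffMap_congr (RingHom.ext fun a => hinv σ.1 σ.2 a) _

/-! ## Small helpers -/

theorem mrnx_inLoc_of_inMax {F : Type*} [Field F] {R : Type*} [CommRing R] [Algebra R F] {t : F}
    {𝔫 : Ideal ↥(s18tInt R t)} {x : F} (hx : SsnfInMax t 𝔫 x) : SsnfInLoc t 𝔫 x := by
  obtain ⟨s, hs, q, hq, h⟩ := hx
  exact ⟨s, hs, by rw [h]; exact q.2⟩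

/-- a value `0` means membership in the maximal ideal of the place. -/
theorem mrnx_val_zero_iff {k' F' : Type*} [Field k'] [Field F'] [Algebra k' F']
    (Q : Place k' F') (y : F') : GrdVal Q y 0 ↔ y ∈ Q.toValuationSubring.nonunits := by
  unfold GrdVal
  rw [map_zero, sub_zero]

/-- a function with a value at `Q` is regular at `Q`. -/
theorem mrnx_mem_of_val {k' F' : Type*} [Field k'] [Field F'] [Algebra k' F']
    (Q : Place k' F') {y : F'} {c : k'} (hy : GrdVal Q y c) : y ∈ Q.toValuationSubring := by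
  have h1 : y - algebraMap k' F' c ∈ Q.toValuationSubring :=
    Q.toValuationSubring.nonunits_subset hy
  have h2 : algebraMap k' F' c ∈ Q.toValuationSubring := Q.algebraMap_mem' c
  have := Q.toValuationSubring.add_mem _ _ h1 h2
  rwa [sub_add_cancel] at this

variable [IsDiscreteValuationRing ↥(s18dVal A E)] [CharZero ↥(s18dVal A E)]

/-! ## The ascent, hypothesis-first -/

set_option maxHeartbeats 1000000 in
/-- **THE ASCENT** : an exact crossing pair at the prime `𝔫` of `P_E` (`E ⊂ ℚ̄^I`) under the node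
`i`, with the dictionary clauses (D3), (D4), gives exact node coordinates of thickness `e`. -/
theorem mrnx_coord_of_exact
    (hinv : ∀ σ ∈ A.inertiaSubgroupIn ℚ, ∀ x : E, σ (x : Qb) = x)
    (i : ttrkS M p A hpM hA hat)
    (𝔫 : Ideal ↥(s18tInt ↥(s18dVal A E) (ssdJ E (M * p))))
    (hloc : MrnxDictLoc M A hpM hA hat E i 𝔫)
    (ho₁ : MrnxDictOrd₁ M A hpM hA hat E i 𝔫) (ho₂ : MrnxDictOrd₂ M A hpM hA hat E i 𝔫)
    {e : ℕ} (hex : MrnxExactAt e ((p : ℕ) : ↥(s18dVal A E)) (ssdJ E (M * p)) 𝔫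
      (mrnxW₁ M A hpM hA E) (mrnxW₂ M A hpM hA E)) :
    ∃ (u w ε : ↥(modularFunctionFieldBar (M * p))) (κ : Qb),
      MrnCoord M A hpM hA hat i u w ε κ ∧ A.valuation κ = A.valuation (p : Qb) ^ e := by
  obtain ⟨u', w', ε', hu', hw', hu1, hw2, hgu, hgw, hε, hεi, hmul⟩ := hex
  have hU : MrnInOs M A hpM hA hat i (ssdUp E (M * p) w') :=
    hloc.1 w' (mrnx_inLoc_of_inMax hw')
  have hW : MrnInOs M A hpM hA hat i (ssdUp E (M * p) u') :=
    hloc.1 u' (mrnx_inLoc_of_inMax hu')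
  have hEps : MrnInOs M A hpM hA hat i (ssdUp E (M * p) ε') := hloc.1 ε' hε
  have hEpsI : MrnInOs M A hpM hA hat i (ssdUp E (M * p) ε'⁻¹) := hloc.1 ε'⁻¹ hεi
  have h₁ := ttrvp_tb1' M A hpM hA
  -- the reductions vanishing identically
  have hUred₂ : ttrglRed₂ M A hpM hA ⟨ssdUp E (M * p) w', hU.1⟩ = 0 := by
    rw [ttalRedO₂_apply]
    refine (ttra_ker₂ M A hpM hA h₁ _).2 ?_
    exact (ttrn_comap_nonunits (ssdUp E (M * p)) (ttraV2 M A hpM hA) w').1 hw2
  have hWred₁ : ttrglRed₁ M A hpM hA ⟨ssdUp E (M * p) u', hW.1⟩ = 0 := by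
    rw [ttalRedO₁_apply]
    refine (ttra_ker₁ M A hpM hA h₁ _).2 ?_
    exact (ttrn_comap_nonunits (ssdUp E (M * p)) (ttrV1 M A hpM hA) u').1 hu1
  -- the orders
  have hUord := ho₁ w' hw' hgw hU.1
  have hWord := ho₂ u' hu' hgu hW.1
  -- nonvanishing
  have hU0 : ssdUp E (M * p) w' ≠ 0 := by
    intro h0
    have : ttrglRed₁ M A hpM hA ⟨ssdUp E (M * p) w', hU.1⟩ = 0 := by
      have e0 : (⟨ssdUp E (M * p) w', hU.1⟩ : ↥(ttrglO2 M A hpM hA)) = 0 := Subtype.ext h0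
      rw [e0, map_zero]
    rw [this, Place.ord_zero] at hUord
    exact zero_ne_one hUord
  have hW0 : ssdUp E (M * p) u' ≠ 0 := by
    intro h0
    have : ttrglRed₂ M A hpM hA ⟨ssdUp E (M * p) u', hW.1⟩ = 0 := by
      have e0 : (⟨ssdUp E (M * p) u', hW.1⟩ : ↥(ttrglO2 M A hpM hA)) = 0 := Subtype.ext h0
      rw [e0, map_zero]
    rw [this, Place.ord_zero] at hWord
    exact zero_ne_one hWord
  have hw'0 : w' ≠ 0 := fun h => hU0 (by rw [h, map_zero])
  have hu'0 : u' ≠ 0 := fun h => hW0 (by rw [h, map_zero])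
  have hp0 : algebraMap ↥(s18dVal A E) ↥(modularFunctionFieldFullC E (M * p))
      ((p : ℕ) : ↥(s18dVal A E)) ≠ 0 := by
    rw [map_natCast]
    exact Nat.cast_ne_zero.2 (NeZero.ne p)
  have hε'0 : ε' ≠ 0 := by
    intro h
    rw [h, mul_zero] at hmul
    exact mul_ne_zero hu'0 hw'0 hmul
  -- the product at the upper level
  have hmulUp : ssdUp E (M * p) w' * ssdUp E (M * p) u' =
      algebraMap Qb ↥(modularFunctionFieldBar (M * p)) ((p : Qb) ^ e) * ssdUp E (M * p) ε' := by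
    rw [← map_mul, mul_comm w' u', hmul, map_mul, map_pow, map_natCast, map_natCast, map_pow,
      map_natCast]
  -- `ε` is a unit at the node
  have hεu : ¬ GrdVal (ttrkSν₁ M p A hpM hA hat i)
      (ttrglRed₁ M A hpM hA ⟨ssdUp E (M * p) ε', hEps.1⟩) 0 := by
    intro h0
    obtain ⟨c, hc, -, -⟩ := mrn_glue M A hpM hA hat i _ hEpsI.1 hEpsI.2
    have hreg := mrnx_mem_of_val _ hc
    have hprod : ttrglRed₁ M A hpM hA ⟨ssdUp E (M * p) ε', hEps.1⟩ *
        ttrglRed₁ M A hpM hA ⟨ssdUp E (M * p) ε'⁻¹, hEpsI.1⟩ = 1 := by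
      rw [← map_mul]
      have e1 : (⟨ssdUp E (M * p) ε', hEps.1⟩ : ↥(ttrglO2 M A hpM hA)) *
          ⟨ssdUp E (M * p) ε'⁻¹, hEpsI.1⟩ = 1 := by
        apply Subtype.ext
        show ssdUp E (M * p) ε' * ssdUp E (M * p) ε'⁻¹ = 1
        rw [← map_mul, mul_inv_cancel₀ hε'0, map_one]
      rw [e1, map_one]
    rw [mrnx_val_zero_iff] at h0
    have h1 : (1 : ↥(modularFunctionFieldFullC (ResidueField A) M)) ∈
        (ttrkSν₁ M p A hpM hA hat i).toValuationSubring.nonunits := by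
      rw [← hprod]
      rw [ValuationSubring.mem_nonunits_iff] at h0 ⊢
      rw [map_mul]
      exact mul_lt_one_of_nonneg_of_lt_one_left zero_le h0
        ((ValuationSubring.valuation_le_one_iff _ _).2 hreg)
    rw [ValuationSubring.mem_nonunits_iff, map_one] at h1
    exact lt_irrefl _ h1
  -- `e ≥ 1`
  have he : 1 ≤ e := by
    by_contra hlt
    have he0 : e = 0 := by omega
    apply hεu
    have hred : ttrglRed₁ M A hpM hA ⟨ssdUp E (M * p) ε', hEps.1⟩ = 0 := by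
      have e1 : (⟨ssdUp E (M * p) ε', hEps.1⟩ : ↥(ttrglO2 M A hpM hA)) =
          ⟨ssdUp E (M * p) w', hU.1⟩ * ⟨ssdUp E (M * p) u', hW.1⟩ := by
        apply Subtype.ext
        show ssdUp E (M * p) ε' = ssdUp E (M * p) w' * ssdUp E (M * p) u'
        rw [hmulUp, he0, pow_zero, map_one, one_mul]
      rw [e1, map_mul, hWred₁, mul_zero]
    rw [hred]
    exact (mrnx_val_zero_iff _ _).2 (by
      rw [ValuationSubring.mem_nonunits_iff, map_zero]; exact zero_lt_one)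
  have hpA : (p : Qb) ∈ A.nonunits := hA
  have hp0' : (p : Qb) ≠ 0 := Nat.cast_ne_zero.2 (NeZero.ne p)
  refine ⟨ssdUp E (M * p) w', ssdUp E (M * p) u', ssdUp E (M * p) ε', (p : Qb) ^ e,
    ⟨hU, hW, hEps, hεu, ?_, pow_ne_zero e hp0', hmulUp, hUred₂, hWred₁, hUord, hWord,
      fun σ => mrnx_up_inv A E (M * p) hinv w' σ, fun σ => mrnx_up_inv A E (M * p) hinv u' σ,
      fun σ => by rw [map_pow, map_natCast]⟩, map_pow _ _ _⟩
  rw [ValuationSubring.mem_nonunits_iff] at hpA ⊢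
  rw [map_pow]
  exact pow_lt_one₀ zero_le hpA (by omega)


/-! ## A node prime lies on both components -/

section OnBoth

variable {σ' : LaurentSeries ℤ}

omit [IsDiscreteValuationRing ↥(s18dVal A E)] [CharZero ↥(s18dVal A E)] in
/-- `P_E` goes into the `α`-chart ring `B` of the `j`-atlas. -/
theorem mrnx_up_mem_B (hatj : GrdAtlas M A (jqModC ℤ) σ')
    (z : ↥(modularFunctionFieldFullC E (M * p)))
    (hz : z ∈ s18tInt ↥(s18dVal A E) (ssdJ E (M * p))) :
    ssdUp E (M * p) z ∈ grdB (M * p) A (heckeAlphaBar Qb M p (grdQ M hatj.c.mem)) := by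
  rw [ttrc_al_grdQ M p hatj.c.mem (grdi_mem_j (M * p))]
  have e : (⟨grdSer (jqModC ℤ) E, grdi_mem_j (M * p) E⟩ :
      ↥(modularFunctionFieldFullC E (M * p))) = ssdJ E (M * p) := Subtype.ext (grdi_grdSer_j E)
  have hz' : z ∈ s18tInt ↥(s18dVal A E) (⟨grdSer (jqModC ℤ) E, grdi_mem_j (M * p) E⟩ :
      ↥(modularFunctionFieldFullC E (M * p))) := by
    rw [e]; exact hz
  exact grdst_ascend_int (M * p) A (grdi_mem_j (M * p)) E z hz'

omit [IsDiscreteValuationRing ↥(s18dVal A E)] [CharZero ↥(s18dVal A E)] in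
/-- `P_E` goes into `O2`. -/
theorem mrnx_up_mem_O2 (hatj : GrdAtlas M A (jqModC ℤ) σ')
    (z : ↥(modularFunctionFieldFullC E (M * p)))
    (hz : z ∈ s18tInt ↥(s18dVal A E) (ssdJ E (M * p))) :
    ssdUp E (M * p) z ∈ ttrglO2 M A hpM hA :=
  ttru_le_inst M A hpM hA hatj.c (mrnx_up_mem_B M A E hatj z hz)

/-- **a node prime contains `p` and lies on both components.** -/
theorem mrnx_onBoth (hatj : GrdAtlas M A (jqModC ℤ) σ') (i : ttrkS M p A hpM hA hatj)
    (𝔫 : Ideal ↥(s18tInt ↥(s18dVal A E) (ssdJ E (M * p))))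
    (h𝔫 : MrnxNodePrime M A hpM hA hatj E i 𝔫) : MrnxOnBoth M A hpM hA E 𝔫 := by
  have h₁ := ttrvp_tb1' M A hpM hA
  refine ⟨?_, ?_, ?_⟩
  · rw [h𝔫]
    have hO : ssdUp E (M * p) ((sskPi ((p : ℕ) : ↥(s18dVal A E)) (ssdJ E (M * p)) :
        ↥(s18tInt ↥(s18dVal A E) (ssdJ E (M * p)))) : ↥(modularFunctionFieldFullC E (M * p))) ∈
        ttrglO2 M A hpM hA := mrnx_up_mem_O2 M A hpM hA E hatj _ (Subtype.property _)
    refine ⟨hO, ?_⟩
    have hred : ttrglRed₁ M A hpM hA ⟨_, hO⟩ = 0 := by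
      have e1 : (⟨_, hO⟩ : ↥(ttrglO2 M A hpM hA)) = ((p : ℕ) : ↥(ttrglO2 M A hpM hA)) := by
        apply Subtype.ext
        show ssdUp E (M * p) (algebraMap ↥(s18dVal A E) _ ((p : ℕ) : ↥(s18dVal A E))) = _
        rw [map_natCast, map_natCast]
        rfl
      rw [e1, map_natCast]
      haveI := ttr_charP A hA
      have h0 : ((p : ℕ) : ResidueField A) = 0 := CharP.cast_eq_zero _ p
      have h2 : ((p : ℕ) : ↥(modularFunctionFieldFullC (ResidueField A) M)) =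
          algebraMap (ResidueField A) _ ((p : ℕ) : ResidueField A) := (map_natCast _ p).symm
      rw [h2, h0, map_zero]
    rw [hred]
    exact grdr_val_zero _
  · intro z hz
    rw [h𝔫]
    have hO := mrnx_up_mem_O2 M A hpM hA E hatj _ z.2
    refine ⟨hO, ?_⟩
    have hred : ttrglRed₁ M A hpM hA ⟨_, hO⟩ = 0 := by
      rw [ttalRedO₁_apply]
      refine (ttra_ker₁ M A hpM hA h₁ _).2 ?_
      exact (ttrn_comap_nonunits (ssdUp E (M * p)) (ttrV1 M A hpM hA) _).1 hz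
    rw [hred]
    exact grdr_val_zero _
  · intro z hz
    rw [h𝔫]
    have hB := mrnx_up_mem_B M A E hatj _ z.2
    have hO := mrnx_up_mem_O2 M A hpM hA E hatj _ z.2
    refine ⟨hO, ?_⟩
    obtain ⟨c, hc₁, hc₂⟩ := ttru_hpair_S M A hpM hA hatj i ⟨_, hB⟩
    have hred : ttalRedO₂ (V₁ := ttrV1 M A hpM hA) (ttraRed2 M A hpM hA)
        ⟨ssdUp E (M * p) (z : ↥(modularFunctionFieldFullC E (M * p))), hO⟩ = 0 := by
      rw [ttalRedO₂_apply]
      refine (ttra_ker₂ M A hpM hA h₁ _).2 ?_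
      exact (ttrn_comap_nonunits (ssdUp E (M * p)) (ttraV2 M A hpM hA) _).1 hz
    have hc0 : c = 0 := by
      have h2 : GrdVal (ttrkSν₂ M p A hpM hA hatj i) (ttalRedO₂ (V₁ := ttrV1 M A hpM hA)
          (ttraRed2 M A hpM hA) ⟨ssdUp E (M * p)
            (z : ↥(modularFunctionFieldFullC E (M * p))), hO⟩) c := hc₂
      rw [hred] at h2
      exact grdg_val_unique _ h2 (grdr_val_zero _)
    rw [hc0] at hc₁
    exact hc₁

end OnBoth

/-! ## The assembly -/

set_option maxHeartbeats 1000000 in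
/-- **THE OUTPUT OF `mrnx`** : exact coordinates of integral thickness at every canonical node of
the `j`-atlas, from the dictionary (helper27), the `E`-level exact germs (`mrk`) and (D4). -/
theorem mrnx_thick {σ' : LaurentSeries ℤ} (hatj : GrdAtlas M A (jqModC ℤ) σ')
    (hD : MrnxDictSpec M A hpM hA hatj) (hG : MrnxGermSpec M A hpM hA)
    (hO : MrnxOrdSpec M A hpM hA hatj) : MrnxThick M A hpM hA hatj := by
  classical
  intro i
  obtain ⟨E₁, hfd₁, h1⟩ := hD i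
  obtain ⟨E₂, hfd₂, h2⟩ := hG
  haveI := hfd₁
  haveI := hfd₂
  haveI halg : Algebra.IsAlgebraic ℚ Qb := AlgebraicClosure.isAlgebraic ℚ
  haveI hcl : IsAlgClosure ℚ Qb := AlgebraicClosure.instIsAlgClosure ℚ
  haveI hnormQb : Normal ℚ Qb := IsAlgClosure.normal ℚ Qb
  obtain ⟨E₀, hE₀⟩ : ∃ E₀ : IntermediateField ℚ Qb, E₀ = E₁ ⊔ E₂ := ⟨_, rfl⟩
  haveI hfd₀ : FiniteDimensional ℚ E₀ := by
    rw [hE₀]
    exact IntermediateField.finiteDimensional_sup _ _
  obtain ⟨E', hEdef⟩ : ∃ E' : IntermediateField ℚ Qb,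
      E' = IntermediateField.normalClosure ℚ E₀ Qb := ⟨_, rfl⟩
  have hE₀E : E₀ ≤ E' := hEdef ▸ IntermediateField.le_normalClosure E₀
  haveI hEfd : FiniteDimensional ℚ E' := by
    rw [hEdef]; exact normalClosure.is_finiteDimensional ℚ E₀ Qb
  haveI hEn : Normal ℚ E' := by
    rw [hEdef]; exact normalClosure.normal ℚ E₀ Qb
  have hE₁E : E₁ ≤ E' := le_trans (hE₀ ▸ le_sup_left) hE₀E
  have hE₂E : E₂ ≤ E' := le_trans (hE₀ ▸ le_sup_right) hE₀E
  haveI : IsDiscreteValuationRing ↥(s18dVal A (ssgfE0 A E')) := s18d_isDVR A (ssgfE0 A E') hA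
  haveI : CharZero ↥(s18dVal A (ssgfE0 A E')) := ggn_charZero A (ssgfE0 A E')
  obtain ⟨𝔫, h𝔫p, hnode, hrat, hloc⟩ := h1 E' hE₁E
  have hboth := mrnx_onBoth M A hpM hA (ssgfE0 A E') hatj i 𝔫 hnode
  obtain ⟨e, he1, hex⟩ := h2 E' hE₂E 𝔫 h𝔫p hboth hrat
  obtain ⟨ho₁, ho₂⟩ := hO (ssgfE0 A E') i 𝔫 h𝔫p hnode hrat hloc
  obtain ⟨u, w, ε, κ, hC, hv⟩ := mrnx_coord_of_exact M A hpM hA hatj (ssgfE0 A E')
    (fun σ hσ x => ((mem_ssgfE0 A E').mp x.2).2 σ hσ) i 𝔫 hloc ho₁ ho₂ hex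
  exact ⟨e, u, w, ε, κ, hC, hv, he1⟩

end Fermat.Agent.MR
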