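import Mathlib
import Fermat.Agent.MR.Node.Glue

/-!
# PROGRAM MR (S44), block `mrn` : COMPARISON OF NODE COORDINATES over the TT ring (prefix `mrnc`)

Owner: helper19.  Namespace `Fermat.Agent.MR`.

`MrnA1 i x` : `x ∈ O_s`, `red₁ x` has a simple zero at the first branch, `red₂ x = 0`, and `x` has
no zero at the places centred at the node `i` ("zero-free coordinate of the first kind").

* `mrnc_unit_ratio` : two such coordinates differ by a unit of `O_s`;
* `mrnc_cmp` : **(CMP)** if `x` and `u` are two such coordinates and `u` is *shallow at `R`*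
  (`u / u(R) ∈ 𝔪_{V₂}`), then `ord_v (u - u(R)) = ord_v (x - x(R))` at every centred place `v`:
  the one-zero property passes from `x` to `u`;
* `mrnc_a1_of_coord`, `mrnc_deep` : `MrnCoord` gives `MrnA1 u` and the shallowness at every
  centred place.
-/

set_option autoImplicit false
set_option linter.unusedSectionVars false
set_option linter.unusedVariables false
set_option linter.style.haveILetI false

noncomputable section

namespace Fermat.Agent.MR

open Polynomial ModularCurve AlgebraicCurve IsLocalRing IntermediateField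
  Fermat.Agent.G Fermat.Agent.S18 Fermat.Agent.S24 Fermat.Agent.FF Fermat.Agent.TT

local notation "Qb" => AlgebraicClosure ℚ

variable (M : ℕ) [NeZero M] {p : ℕ} [Fact p.Prime] [NeZero p]
variable (A : ValuationSubring Qb) (hpM : ¬ p ∣ M) (hA : A.LiesOverPrime p)
variable {τ τ' : LaurentSeries ℤ} (hat : GrdAtlas M A τ τ')

/-! ### constants -/

/-- constants of `𝔸` lie in `O2`. -/
theorem mrnc_const_mem (a : A) :
    algebraMap Qb ↥(modularFunctionFieldBar (M * p)) (a : Qb) ∈ ttrglO2 M A hpM hA :=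
  ⟨(ttrvp_tb1' M A hpM hA).const_mem a,
    (ttra_red₂ M A hpM hA (ttrvp_tb1' M A hpM hA)).const_mem a⟩

/-- constants of `𝔪_𝔸` lie in `𝔪_{V₁}`. -/
theorem mrnc_const_nu₁ (a : A) (ha : a ∈ maximalIdeal A) :
    algebraMap Qb ↥(modularFunctionFieldBar (M * p)) (a : Qb) ∈ (ttrV1 M A hpM hA).nonunits := by
  have h := (ttrvp_tb1' M A hpM hA).red_const a
  rw [(residue_eq_zero_iff _).mpr ha, map_zero] at h
  exact (ttra_ker₁ M A hpM hA (ttrvp_tb1' M A hpM hA) ⟨_, _⟩).1 h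

/-- constants of `𝔪_𝔸` lie in `𝔪_{V₂}`. -/
theorem mrnc_const_nu₂ (a : A) (ha : a ∈ maximalIdeal A) :
    algebraMap Qb ↥(modularFunctionFieldBar (M * p)) (a : Qb) ∈ (ttraV2 M A hpM hA).nonunits := by
  have h := (ttra_red₂ M A hpM hA (ttrvp_tb1' M A hpM hA)).red_const a
  rw [(residue_eq_zero_iff _).mpr ha, map_zero] at h
  exact (ttra_ker₂ M A hpM hA (ttrvp_tb1' M A hpM hA) ⟨_, _⟩).1 h

/-! ### the local ring `O_s` -/

variable {M A hpM hA hat}

theorem MrnInOs.mul {i : ttrkS M p A hpM hA hat} {x y : ↥(modularFunctionFieldBar (M * p))}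
    (hx : MrnInOs M A hpM hA hat i x) (hy : MrnInOs M A hpM hA hat i y) :
    MrnInOs M A hpM hA hat i (x * y) :=
  ⟨Subring.mul_mem _ hx.1 hy.1, fun v hv => v.toValuationSubring.mul_mem _ _ (hx.2 v hv) (hy.2 v hv)⟩

theorem MrnInOs.add {i : ttrkS M p A hpM hA hat} {x y : ↥(modularFunctionFieldBar (M * p))}
    (hx : MrnInOs M A hpM hA hat i x) (hy : MrnInOs M A hpM hA hat i y) :
    MrnInOs M A hpM hA hat i (x + y) :=
  ⟨Subring.add_mem _ hx.1 hy.1, fun v hv => v.toValuationSubring.add_mem _ _ (hx.2 v hv) (hy.2 v hv)⟩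

theorem MrnInOs.sub {i : ttrkS M p A hpM hA hat} {x y : ↥(modularFunctionFieldBar (M * p))}
    (hx : MrnInOs M A hpM hA hat i x) (hy : MrnInOs M A hpM hA hat i y) :
    MrnInOs M A hpM hA hat i (x - y) :=
  ⟨Subring.sub_mem _ hx.1 hy.1, fun v hv => sub_mem (hx.2 v hv) (hy.2 v hv)⟩

theorem mrnInOs_const (i : ttrkS M p A hpM hA hat) (a : A) :
    MrnInOs M A hpM hA hat i (algebraMap Qb ↥(modularFunctionFieldBar (M * p)) (a : Qb)) :=
  ⟨mrnc_const_mem M A hpM hA a, fun v _ => v.algebraMap_mem' _⟩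

theorem mrnInOs_one (i : ttrkS M p A hpM hA hat) :
    MrnInOs M A hpM hA hat i (1 : ↥(modularFunctionFieldBar (M * p))) :=
  ⟨Subring.one_mem _, fun v _ => v.toValuationSubring.one_mem⟩

/-- `red₁` of a product of elements of `O2`. -/
theorem mrnc_red₁_mul {x y : ↥(modularFunctionFieldBar (M * p))} (hx : x ∈ ttrglO2 M A hpM hA)
    (hy : y ∈ ttrglO2 M A hpM hA) (hxy : x * y ∈ ttrglO2 M A hpM hA) :
    ttrglRed₁ M A hpM hA ⟨x * y, hxy⟩ =
      ttrglRed₁ M A hpM hA ⟨x, hx⟩ * ttrglRed₁ M A hpM hA ⟨y, hy⟩ := by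
  rw [← map_mul]; rfl

/-- `red₂` of a product of elements of `O2`. -/
theorem mrnc_red₂_mul {x y : ↥(modularFunctionFieldBar (M * p))} (hx : x ∈ ttrglO2 M A hpM hA)
    (hy : y ∈ ttrglO2 M A hpM hA) (hxy : x * y ∈ ttrglO2 M A hpM hA) :
    ttrglRed₂ M A hpM hA ⟨x * y, hxy⟩ =
      ttrglRed₂ M A hpM hA ⟨x, hx⟩ * ttrglRed₂ M A hpM hA ⟨y, hy⟩ := by
  rw [← map_mul]; rfl

/-- `red₂ x = 0` for `x ∈ O2 ∩ 𝔪_{V₂}`. -/
theorem mrnc_red₂_eq_zero {x : ↥(modularFunctionFieldBar (M * p))} (hx : x ∈ ttrglO2 M A hpM hA)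
    (h : x ∈ (ttraV2 M A hpM hA).nonunits) : ttrglRed₂ M A hpM hA ⟨x, hx⟩ = 0 :=
  (ttra_ker₂ M A hpM hA (ttrvp_tb1' M A hpM hA) ⟨x, hx.2⟩).2 h

/-- `red₁ x = 0` for `x ∈ O2 ∩ 𝔪_{V₁}`. -/
theorem mrnc_red₁_eq_zero {x : ↥(modularFunctionFieldBar (M * p))} (hx : x ∈ ttrglO2 M A hpM hA)
    (h : x ∈ (ttrV1 M A hpM hA).nonunits) : ttrglRed₁ M A hpM hA ⟨x, hx⟩ = 0 :=
  (ttra_ker₁ M A hpM hA (ttrvp_tb1' M A hpM hA) ⟨x, hx.1⟩).2 h

/-- **values at the centred places of an element of `O_s` vanishing at the node.** -/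
theorem mrnc_val_max {i : ttrkS M p A hpM hA hat} {x : ↥(modularFunctionFieldBar (M * p))}
    (hx : MrnInOs M A hpM hA hat i x)
    (h0 : GrdVal (ttrkSν₁ M p A hpM hA hat i) (ttrglRed₁ M A hpM hA ⟨x, hx.1⟩) 0) :
    ∀ v, ttruCenS M A hpM hA hat i v → ∃ a : A, a ∈ maximalIdeal A ∧ GrdVal v x (a : Qb) := by
  obtain ⟨c, hc₁, -, hval⟩ := mrn_glue M A hpM hA hat i x hx.1 hx.2
  have hc0 : c = 0 := grdg_val_unique _ hc₁ h0
  intro v hv
  obtain ⟨a, hav, har⟩ := hval v hv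
  exact ⟨a, (residue_eq_zero_iff _).mp (har.trans hc0), hav⟩

/-- every element of `O_s` has a value in `𝔸` at every centred place. -/
theorem mrnc_val_exists {i : ttrkS M p A hpM hA hat} {x : ↥(modularFunctionFieldBar (M * p))}
    (hx : MrnInOs M A hpM hA hat i x) :
    ∀ v, ttruCenS M A hpM hA hat i v → ∃ a : A, GrdVal v x (a : Qb) := by
  obtain ⟨c, -, -, hval⟩ := mrn_glue M A hpM hA hat i x hx.1 hx.2
  intro v hv
  obtain ⟨a, hav, -⟩ := hval v hv
  exact ⟨a, hav⟩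

/-- an element of `O_s` with `red₁ x = 0` has all its centred values in `𝔪_𝔸`. -/
theorem mrnc_val_max_of_red₁ {i : ttrkS M p A hpM hA hat} {x : ↥(modularFunctionFieldBar (M * p))}
    (hx : MrnInOs M A hpM hA hat i x) (h0 : ttrglRed₁ M A hpM hA ⟨x, hx.1⟩ = 0) :
    ∀ v, ttruCenS M A hpM hA hat i v → ∃ a : A, a ∈ maximalIdeal A ∧ GrdVal v x (a : Qb) := by
  apply mrnc_val_max hx
  rw [h0]
  exact (grdg_val_zero_iff _ 0).2 (zero_mem _)

/-! ### zero-free coordinates of the first kind -/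

variable (M A hpM hA hat)

/-- **zero-free coordinate of the first kind at the node `i`.** -/
structure MrnA1 (i : ttrkS M p A hpM hA hat) (x : ↥(modularFunctionFieldBar (M * p))) : Prop where
  mem : MrnInOs M A hpM hA hat i x
  ord₁ : (ttrkSν₁ M p A hpM hA hat i).ord (ttrglRed₁ M A hpM hA ⟨x, mem.1⟩) = 1
  red₂ : ttrglRed₂ M A hpM hA ⟨x, mem.1⟩ = 0
  zf : ∀ v, ttruCenS M A hpM hA hat i v → ¬ GrdVal v x 0

variable {M A hpM hA hat}

theorem MrnA1.red₁_ne {i : ttrkS M p A hpM hA hat} {x : ↥(modularFunctionFieldBar (M * p))}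
    (h : MrnA1 M A hpM hA hat i x) : ttrglRed₁ M A hpM hA ⟨x, h.mem.1⟩ ≠ 0 := by
  intro h0
  have := h.ord₁
  rw [h0, Place.ord_zero] at this
  exact absurd this (by norm_num)

theorem MrnA1.ne_zero {i : ttrkS M p A hpM hA hat} {x : ↥(modularFunctionFieldBar (M * p))}
    (h : MrnA1 M A hpM hA hat i x) : x ≠ 0 := by
  rintro rfl
  apply h.red₁_ne
  have : (⟨0, h.mem.1⟩ : ↥(ttrglO2 M A hpM hA)) = 0 := rfl
  rw [this, map_zero]

theorem MrnA1.inv_mem₁ {i : ttrkS M p A hpM hA hat} {x : ↥(modularFunctionFieldBar (M * p))}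
    (h : MrnA1 M A hpM hA hat i x) : x⁻¹ ∈ ttrV1 M A hpM hA :=
  mrng_inv_mem₁ M A hpM hA x h.mem.1.1 h.red₁_ne

/-- the inverse of a zero-free coordinate is regular at the centred places. -/
theorem MrnA1.inv_reg {i : ttrkS M p A hpM hA hat} {x : ↥(modularFunctionFieldBar (M * p))}
    (h : MrnA1 M A hpM hA hat i x) :
    ∀ v, ttruCenS M A hpM hA hat i v → x⁻¹ ∈ v.toValuationSubring := by
  intro v hv
  obtain ⟨a, ha⟩ := mrnc_val_exists h.mem v hv
  have ha0 : (a : Qb) ≠ 0 := by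
    intro h0
    rw [h0] at ha
    exact h.zf v hv ha
  exact grdg_val_mem v (ttrz_val_inv v ha ha0)

/-- the centred values of a coordinate of the first kind lie in `𝔪_𝔸 ∖ 0`. -/
theorem MrnA1.val {i : ttrkS M p A hpM hA hat} {x : ↥(modularFunctionFieldBar (M * p))}
    (h : MrnA1 M A hpM hA hat i x) :
    ∀ v, ttruCenS M A hpM hA hat i v →
      ∃ a : A, a ∈ maximalIdeal A ∧ (a : Qb) ≠ 0 ∧ GrdVal v x (a : Qb) := by
  intro v hv
  have hne := h.red₁_ne
  have h0 : GrdVal (ttrkSν₁ M p A hpM hA hat i) (ttrglRed₁ M A hpM hA ⟨x, h.mem.1⟩) 0 :=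
    (grdg_val_zero_iff_ord _ hne).2 (by rw [h.ord₁]; norm_num)
  obtain ⟨a, ham, hav⟩ := mrnc_val_max h.mem h0 v hv
  refine ⟨a, ham, ?_, hav⟩
  intro h0'
  rw [h0'] at hav
  exact h.zf v hv hav

/-- **(KEY)** `y ∈ O_s`, `y x = u` with `x, u` of the first kind : `y ∉ 𝔪_{V₂}`. -/
theorem mrnc_key {i : ttrkS M p A hpM hA hat} {x u y : ↥(modularFunctionFieldBar (M * p))}
    (hx : MrnA1 M A hpM hA hat i x) (hu : MrnA1 M A hpM hA hat i u)
    (hy : MrnInOs M A hpM hA hat i y) (hyx : y * x = u) :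
    y ∉ (ttraV2 M A hpM hA).nonunits := by
  intro hnu
  have hr₂ : ttrglRed₂ M A hpM hA ⟨y, hy.1⟩ = 0 := mrnc_red₂_eq_zero hy.1 hnu
  obtain ⟨c, hc₁, hc₂, -⟩ := mrn_glue M A hpM hA hat i y hy.1 hy.2
  rw [hr₂] at hc₂
  have hc0 : c = 0 := grdg_val_unique _ hc₂ ((grdg_val_zero_iff _ 0).2 (zero_mem _))
  rw [hc0] at hc₁
  -- `red₁ y * red₁ x = red₁ u`
  have hmul : ttrglRed₁ M A hpM hA ⟨u, hu.mem.1⟩ =
      ttrglRed₁ M A hpM hA ⟨y, hy.1⟩ * ttrglRed₁ M A hpM hA ⟨x, hx.mem.1⟩ := by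
    rw [← mrnc_red₁_mul hy.1 hx.mem.1 (by rw [hyx]; exact hu.mem.1)]
    congr 1
    exact Subtype.ext hyx.symm
  have hy0 : ttrglRed₁ M A hpM hA ⟨y, hy.1⟩ ≠ 0 := by
    intro h0
    rw [h0, zero_mul] at hmul
    exact hu.red₁_ne hmul
  have hord := Place.ord_mul (ttrkSν₁ M p A hpM hA hat i) hy0 hx.red₁_ne
  rw [← hmul, hu.ord₁, hx.ord₁] at hord
  have hpos := (grdg_val_zero_iff_ord _ hy0).1 hc₁
  omega

/-- **(UNIT-RATIO)** two zero-free coordinates of the first kind differ by a unit of `O_s`. -/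
theorem mrnc_unit_ratio {i : ttrkS M p A hpM hA hat} {x u : ↥(modularFunctionFieldBar (M * p))}
    (hx : MrnA1 M A hpM hA hat i x) (hu : MrnA1 M A hpM hA hat i u) :
    MrnInOs M A hpM hA hat i (x * u⁻¹) := by
  have hx0 := hx.ne_zero
  have hu0 := hu.ne_zero
  -- both ratios are in `V₁` and regular at the centred places
  have h1 : x * u⁻¹ ∈ ttrV1 M A hpM hA := (ttrV1 M A hpM hA).mul_mem _ _ hx.mem.1.1 hu.inv_mem₁
  have h1' : u * x⁻¹ ∈ ttrV1 M A hpM hA := (ttrV1 M A hpM hA).mul_mem _ _ hu.mem.1.1 hx.inv_mem₁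
  have hreg : ∀ v, ttruCenS M A hpM hA hat i v → x * u⁻¹ ∈ v.toValuationSubring :=
    fun v hv => v.toValuationSubring.mul_mem _ _ (hx.mem.2 v hv) (hu.inv_reg v hv)
  have hreg' : ∀ v, ttruCenS M A hpM hA hat i v → u * x⁻¹ ∈ v.toValuationSubring :=
    fun v hv => v.toValuationSubring.mul_mem _ _ (hu.mem.2 v hv) (hx.inv_reg v hv)
  have hinv : (x * u⁻¹)⁻¹ = u * x⁻¹ := by rw [mul_inv, inv_inv]; exact mul_comm _ _
  by_cases h2 : x * u⁻¹ ∈ ttraV2 M A hpM hA
  · exact ⟨⟨h1, h2⟩, hreg⟩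
  · exfalso
    -- then `u x⁻¹ ∈ 𝔪_{V₂}`
    have h3 : u * x⁻¹ ∈ (ttraV2 M A hpM hA).nonunits := by
      rw [ValuationSubring.mem_nonunits_iff]
      have h4 : ¬ (ttraV2 M A hpM hA).valuation (x * u⁻¹) ≤ 1 := fun h =>
        h2 ((ValuationSubring.valuation_le_one_iff _ _).1 h)
      rw [not_le] at h4
      rw [← hinv, map_inv₀]
      exact inv_lt_one_of_one_lt₀ h4
    have hy : MrnInOs M A hpM hA hat i (u * x⁻¹) :=
      ⟨⟨h1', (ttraV2 M A hpM hA).nonunits_le h3⟩, hreg'⟩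
    exact mrnc_key hx hu hy (by field_simp) h3

/-- the inverse ratio. -/
theorem mrnc_unit_ratio_inv {i : ttrkS M p A hpM hA hat} {x u : ↥(modularFunctionFieldBar (M * p))}
    (hx : MrnA1 M A hpM hA hat i x) (hu : MrnA1 M A hpM hA hat i u) :
    MrnInOs M A hpM hA hat i (x * u⁻¹)⁻¹ := by
  have : (x * u⁻¹)⁻¹ = u * x⁻¹ := by rw [mul_inv, inv_inv]; exact mul_comm _ _
  rw [this]
  exact mrnc_unit_ratio hu hx

/-! ### (CMP) -/

/-- `1 - y` is a unit of `V` for `y ∈ 𝔪_V`. -/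
theorem mrnc_one_sub_inv_mem {F : Type*} [Field F] (V : ValuationSubring F) {y : F}
    (hy : y ∈ V.nonunits) : (1 - y)⁻¹ ∈ V := by
  have h1 : V.valuation (1 - y) = 1 := by
    have h2 : V.valuation y < V.valuation (1 : F) := by
      rw [map_one]; exact (ValuationSubring.mem_nonunits_iff _).1 hy
    rw [sub_eq_add_neg, Valuation.map_add_eq_of_lt_left _ (by rwa [Valuation.map_neg]), map_one]
  rw [← ValuationSubring.valuation_le_one_iff, map_inv₀, h1, inv_one]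

/-- `𝔪_V` is stable under multiplication by `V`. -/
theorem mrnc_mul_mem_nonunits {F : Type*} [Field F] (V : ValuationSubring F) {a b : F}
    (ha : a ∈ V) (hb : b ∈ V.nonunits) : a * b ∈ V.nonunits := by
  rw [ValuationSubring.mem_nonunits_iff, map_mul]
  have h4 : V.valuation a ≤ 1 := (V.valuation_le_one_iff _).2 ha
  calc _ ≤ 1 * V.valuation b := by gcongr
    _ < 1 := by rw [one_mul]; exact (ValuationSubring.mem_nonunits_iff _).1 hb

/-- the centred value of a constant is itself. -/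
theorem mrnc_val_const (v : Place Qb ↥(modularFunctionFieldBar (M * p))) (a : Qb) :
    GrdVal v (algebraMap Qb ↥(modularFunctionFieldBar (M * p)) a) a :=
  grdg_val_algebraMap v a

/-- **(CMP)** : the one-zero property at `R` passes from a zero-free coordinate `x` of the first
kind to any other one `u` which is shallow at `R` (`u / u(R) ∈ 𝔪_{V₂}`): the orders of `u - u(R)`
and `x - x(R)` agree at EVERY centred place. -/
theorem mrnc_cmp {i : ttrkS M p A hpM hA hat} {x u : ↥(modularFunctionFieldBar (M * p))}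
    (hx : MrnA1 M A hpM hA hat i x) (hu : MrnA1 M A hpM hA hat i u)
    (R : Place Qb ↥(modularFunctionFieldBar (M * p))) (hR : ttruCenS M A hpM hA hat i R)
    (a a' : A) (ha : GrdVal R u (a : Qb)) (ha' : GrdVal R x (a' : Qb))
    (hdeep : u * (algebraMap Qb ↥(modularFunctionFieldBar (M * p)) (a : Qb))⁻¹ ∈
      (ttraV2 M A hpM hA).nonunits)
    (h1 : R.ord (x - algebraMap Qb ↥(modularFunctionFieldBar (M * p)) (a' : Qb)) = 1)
    (h2 : ∀ v, ttruCenS M A hpM hA hat i v → v ≠ R →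
      v.ord (x - algebraMap Qb ↥(modularFunctionFieldBar (M * p)) (a' : Qb)) = 0) :
    ∀ v, ttruCenS M A hpM hA hat i v →
      v.ord (u - algebraMap Qb ↥(modularFunctionFieldBar (M * p)) (a : Qb)) =
        v.ord (x - algebraMap Qb ↥(modularFunctionFieldBar (M * p)) (a' : Qb)) := by
  have hx0 := hx.ne_zero
  have hu0 := hu.ne_zero
  set θ : ↥(modularFunctionFieldBar (M * p)) := x * u⁻¹ with hθdef
  have hθ : MrnInOs M A hpM hA hat i θ := mrnc_unit_ratio hx hu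
  have hθ' : MrnInOs M A hpM hA hat i θ⁻¹ := mrnc_unit_ratio_inv hx hu
  have hθ0 : θ ≠ 0 := mul_ne_zero hx0 (inv_ne_zero hu0)
  have hxe : x = θ * u := by rw [hθdef, mul_assoc, inv_mul_cancel₀ hu0, mul_one]
  obtain ⟨t, ht⟩ := mrnc_val_exists hθ R hR
  obtain ⟨t', ht'⟩ := mrnc_val_exists hθ' R hR
  have htt' : (t : Qb) * t' = 1 := by
    have h3 := grdg_val_mul R ht ht'
    rw [mul_inv_cancel₀ hθ0] at h3
    exact grdg_val_unique R h3 (ttru_val_one R)
  have ht0 : (t : Qb) ≠ 0 := left_ne_zero_of_mul_eq_one htt'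
  have ha'eq : (a' : Qb) = t * a := by
    have h3 := grdg_val_mul R ht ha
    rw [← hxe] at h3
    exact grdg_val_unique R ha' h3
  -- the values are in `𝔪_𝔸 ∖ 0`
  obtain ⟨a₁, ha₁m, ha₁0, ha₁⟩ := hu.val R hR
  have haa₁ : (a : Qb) = a₁ := grdg_val_unique R ha ha₁
  have ha_eq : a = a₁ := Subtype.ext haa₁
  have ham : a ∈ maximalIdeal A := ha_eq ▸ ha₁m
  have ha0 : (a : Qb) ≠ 0 := by rw [haa₁]; exact ha₁0
  obtain ⟨a₂, ha₂m, ha₂0, ha₂⟩ := hx.val R hR
  have haa₂ : (a' : Qb) = a₂ := grdg_val_unique R ha' ha₂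
  have ha'_eq : a' = a₂ := Subtype.ext haa₂
  have ha'm : a' ∈ maximalIdeal A := ha'_eq ▸ ha₂m
  have ha'0 : (a' : Qb) ≠ 0 := by rw [haa₂]; exact ha₂0
  -- notation
  set ca : ↥(modularFunctionFieldBar (M * p)) :=
    algebraMap Qb ↥(modularFunctionFieldBar (M * p)) (a : Qb) with hca
  set ca' : ↥(modularFunctionFieldBar (M * p)) :=
    algebraMap Qb ↥(modularFunctionFieldBar (M * p)) (a' : Qb) with hca'
  set ct : ↥(modularFunctionFieldBar (M * p)) :=
    algebraMap Qb ↥(modularFunctionFieldBar (M * p)) (t : Qb) with hct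
  have hca0 : ca ≠ 0 := (map_ne_zero_iff _ (algebraMap Qb _).injective).mpr ha0
  have hca'0 : ca' ≠ 0 := (map_ne_zero_iff _ (algebraMap Qb _).injective).mpr ha'0
  have hct0 : ct ≠ 0 := (map_ne_zero_iff _ (algebraMap Qb _).injective).mpr ht0
  have hca'eq : ca' = ct * ca := by rw [hca', ha'eq, map_mul]
  set δ : ↥(modularFunctionFieldBar (M * p)) := θ - ct with hδdef
  have hδ : MrnInOs M A hpM hA hat i δ := hθ.sub (mrnInOs_const i t)
  have hδR : GrdVal R δ 0 := by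
    have h3 := ttri_val_sub R ht (grdg_val_algebraMap R (t : Qb))
    rwa [sub_self] at h3
  set g : ↥(modularFunctionFieldBar (M * p)) := x - ca' with hgdef
  set f : ↥(modularFunctionFieldBar (M * p)) := u - ca with hfdef
  have hg0 : g ≠ 0 := by
    intro h0
    rw [h0, Place.ord_zero] at h1
    exact absurd h1 (by norm_num)
  have hgf : g = θ * f + ca * δ := by
    rw [hgdef, hfdef, hδdef, hca'eq]
    conv_lhs => rw [hxe]
    ring
  -- `g` is a unit of `V₁`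
  have hgO : g ∈ ttrglO2 M A hpM hA := Subring.sub_mem _ hx.mem.1 (mrnc_const_mem M A hpM hA a')
  have hgr : ttraRed1 M A hpM hA ⟨g, hgO.1⟩ ≠ 0 := by
    have e1 : (⟨g, hgO.1⟩ : ↥(ttrV1 M A hpM hA)) = ⟨x, hx.mem.1.1⟩ -
        ⟨ca', (mrnc_const_mem M A hpM hA a').1⟩ := rfl
    rw [e1, map_sub]
    have e2 : ttraRed1 M A hpM hA ⟨ca', (mrnc_const_mem M A hpM hA a').1⟩ = 0 :=
      (ttra_ker₁ M A hpM hA (ttrvp_tb1' M A hpM hA) ⟨ca', _⟩).2
        (mrnc_const_nu₁ M A hpM hA a' ha'm)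
    rw [e2, sub_zero]
    exact hx.red₁_ne
  have hginv₁ : g⁻¹ ∈ ttrV1 M A hpM hA := mrng_inv_mem₁ M A hpM hA g hgO.1 hgr
  -- `g / a'` is a unit of `V₂`
  have hxdeep : x * ca'⁻¹ ∈ (ttraV2 M A hpM hA).nonunits := by
    have e : x * ca'⁻¹ = (θ * ct⁻¹) * (u * ca⁻¹) := by
      rw [hxe, hca'eq, mul_inv]; ring
    rw [e]
    have hct' : ct⁻¹ ∈ ttraV2 M A hpM hA := by
      have : ct⁻¹ = algebraMap Qb ↥(modularFunctionFieldBar (M * p)) (t' : Qb) := by
        rw [hct, ← map_inv₀]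
        congr 1
        exact (eq_inv_of_mul_eq_one_right htt').symm ▸ rfl
      rw [this]
      exact (mrnc_const_mem M A hpM hA t').2
    exact mrnc_mul_mem_nonunits _ ((ttraV2 M A hpM hA).mul_mem _ _ hθ.1.2 hct') hdeep
  have hgdeep : (g * ca'⁻¹)⁻¹ ∈ ttraV2 M A hpM hA := by
    have e : g * ca'⁻¹ = -(1 - x * ca'⁻¹) := by
      rw [hgdef, sub_mul, mul_inv_cancel₀ hca'0]; ring
    rw [e, inv_neg]
    exact (ttraV2 M A hpM hA).neg_mem _ (mrnc_one_sub_inv_mem _ hxdeep)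
  -- the correction term `h' = a δ / g`
  set h' : ↥(modularFunctionFieldBar (M * p)) := ca * δ * g⁻¹ with hh'def
  have hh'1 : h' ∈ (ttrV1 M A hpM hA).nonunits := by
    have e : h' = (δ * g⁻¹) * ca := by rw [hh'def]; ring
    rw [e]
    exact mrnc_mul_mem_nonunits _ ((ttrV1 M A hpM hA).mul_mem _ _ hδ.1.1 hginv₁)
      (mrnc_const_nu₁ M A hpM hA a ham)
  have hh'2 : h' ∈ ttraV2 M A hpM hA := by
    have e : h' = (ct⁻¹ * δ) * (g * ca'⁻¹)⁻¹ := by
      rw [hh'def, hca'eq]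
      field_simp
    rw [e]
    have hct' : ct⁻¹ ∈ ttraV2 M A hpM hA := by
      have : ct⁻¹ = algebraMap Qb ↥(modularFunctionFieldBar (M * p)) (t' : Qb) := by
        rw [hct, ← map_inv₀]
        congr 1
        exact (eq_inv_of_mul_eq_one_right htt').symm ▸ rfl
      rw [this]
      exact (mrnc_const_mem M A hpM hA t').2
    exact (ttraV2 M A hpM hA).mul_mem _ _ ((ttraV2 M A hpM hA).mul_mem _ _ hct' hδ.1.2) hgdeep
  have hh'reg : ∀ v, ttruCenS M A hpM hA hat i v → h' ∈ v.toValuationSubring := by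
    intro v hv
    by_cases hvR : v = R
    · subst hvR
      rw [hh'def, mul_assoc]
      refine v.toValuationSubring.mul_mem _ _ (v.algebraMap_mem' _) ?_
      rcases eq_or_ne δ 0 with hδ0 | hδ0
      · rw [hδ0, zero_mul]; exact zero_mem _
      · apply PlaceOrd.mem_of_ord_nonneg
        rw [Place.ord_mul v hδ0 (inv_ne_zero hg0), Place.ord_inv, h1]
        have := (grdg_val_zero_iff_ord v hδ0).1 hδR
        omega
    · have hgv := h2 v hv hvR
      have hginv : g⁻¹ ∈ v.toValuationSubring := ((PlaceOrd.ord_eq_zero_iff v hg0).1 hgv).2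
      rw [hh'def]
      exact v.toValuationSubring.mul_mem _ _
        (v.toValuationSubring.mul_mem _ _ (v.algebraMap_mem' _) (hδ.2 v hv)) hginv
  have hh' : MrnInOs M A hpM hA hat i h' :=
    ⟨⟨(ttrV1 M A hpM hA).nonunits_le hh'1, hh'2⟩, hh'reg⟩
  have hh'r : ttrglRed₁ M A hpM hA ⟨h', hh'.1⟩ = 0 := mrnc_red₁_eq_zero hh'.1 hh'1
  -- the factorisation `f = θ⁻¹ g (1 - h')`
  have hfac : f = θ⁻¹ * g * (1 - h') := by
    have e : g * (1 - h') = θ * f := by
      rw [hh'def, mul_sub, mul_one]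
      have : g * (ca * δ * g⁻¹) = ca * δ := by
        rw [mul_comm g, mul_assoc (ca * δ), inv_mul_cancel₀ hg0, mul_one]
      rw [this, hgf]; ring
    rw [mul_assoc, e, ← mul_assoc, inv_mul_cancel₀ hθ0, one_mul]
  intro v hv
  obtain ⟨m, hmm, hmv⟩ := mrnc_val_max_of_red₁ hh' hh'r v hv
  have h1m : GrdVal v (1 - h') ((1 : Qb) - (m : Qb)) := ttri_val_sub v (ttru_val_one v) hmv
  have h1m0 : (1 : Qb) - (m : Qb) ≠ 0 := by
    intro h0
    have hm1 : (m : Qb) = 1 := (sub_eq_zero.mp h0).symm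
    have : m = 1 := Subtype.ext hm1
    rw [this] at hmm
    exact (mem_maximalIdeal _).mp hmm isUnit_one
  have hone0 : (1 - h') ≠ 0 := mrng_ne_zero_of_val v h1m h1m0
  have hord1 : v.ord (1 - h') = 0 :=
    ttri_ord_eq_zero v (grdg_val_mem v h1m) (fun h0 => h1m0 (grdg_val_unique v h1m h0))
  have hordθ : v.ord θ⁻¹ = 0 := by
    rw [PlaceOrd.ord_eq_zero_iff v (inv_ne_zero hθ0), inv_inv]
    exact ⟨hθ'.2 v hv, hθ.2 v hv⟩
  show v.ord f = v.ord g
  rw [hfac, Place.ord_mul v (mul_ne_zero (inv_ne_zero hθ0) hg0) hone0,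
    Place.ord_mul v (inv_ne_zero hθ0) hg0, hordθ, hord1]
  ring

/-! ### from a coordinate pair `u w = κ ε` -/

/-- the values of `ε` at the centred places are units of `𝔸`. -/
theorem MrnCoord.ε_val {i : ttrkS M p A hpM hA hat} {u w ε : ↥(modularFunctionFieldBar (M * p))}
    {κ : Qb} (h : MrnCoord M A hpM hA hat i u w ε κ) :
    ∀ v, ttruCenS M A hpM hA hat i v → ∃ e : A, IsUnit e ∧ GrdVal v ε (e : Qb) := by
  obtain ⟨c, hc₁, -, hval⟩ := mrn_glue M A hpM hA hat i ε h.hε.1 h.hε.2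
  intro v hv
  obtain ⟨a, hav, har⟩ := hval v hv
  refine ⟨a, ?_, hav⟩
  by_contra hnu
  have ham : a ∈ maximalIdeal A := (mem_maximalIdeal _).2 hnu
  have hc0 : c = 0 := har.symm.trans ((residue_eq_zero_iff _).2 ham)
  rw [hc0] at hc₁
  exact h.hεu hc₁

/-- the values of `w` at the centred places lie in `𝔪_𝔸`. -/
theorem MrnCoord.w_val {i : ttrkS M p A hpM hA hat} {u w ε : ↥(modularFunctionFieldBar (M * p))}
    {κ : Qb} (h : MrnCoord M A hpM hA hat i u w ε κ) :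
    ∀ v, ttruCenS M A hpM hA hat i v → ∃ b : A, b ∈ maximalIdeal A ∧ GrdVal v w (b : Qb) :=
  mrnc_val_max_of_red₁ h.hw h.w_red₁

/-- the product relation on values : `u(v) w(v) = κ ε(v)`. -/
theorem MrnCoord.val_mul {i : ttrkS M p A hpM hA hat} {u w ε : ↥(modularFunctionFieldBar (M * p))}
    {κ : Qb} (h : MrnCoord M A hpM hA hat i u w ε κ)
    (v : Place Qb ↥(modularFunctionFieldBar (M * p))) {a b e : Qb}
    (ha : GrdVal v u a) (hb : GrdVal v w b) (he : GrdVal v ε e) : a * b = κ * e := by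
  have h1 := grdg_val_mul v ha hb
  rw [h.mul] at h1
  exact grdg_val_unique v h1 (grdg_val_mul v (grdg_val_algebraMap v κ) he)

/-- **the first coordinate of a coordinate pair is a zero-free coordinate of the first kind.** -/
theorem mrnc_a1_of_coord {i : ttrkS M p A hpM hA hat} {u w ε : ↥(modularFunctionFieldBar (M * p))}
    {κ : Qb} (h : MrnCoord M A hpM hA hat i u w ε κ) : MrnA1 M A hpM hA hat i u where
  mem := h.hu
  ord₁ := h.u_ord
  red₂ := h.u_red₂
  zf := by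
    intro v hv h0
    obtain ⟨b, -, hb⟩ := h.w_val v hv
    obtain ⟨e, heu, he⟩ := h.ε_val v hv
    have h1 := h.val_mul v h0 hb he
    rw [zero_mul] at h1
    have he0 : (e : Qb) ≠ 0 := by
      intro h0'
      have : e = 0 := Subtype.ext h0'
      rw [this] at heu
      exact not_isUnit_zero heu
    exact mul_ne_zero h.κ_ne he0 h1.symm

/-- **(SHALLOW)** for a coordinate pair : `u / u(v) ∈ 𝔪_{V₂}` at every centred place `v`. -/
theorem mrnc_deep {i : ttrkS M p A hpM hA hat} {u w ε : ↥(modularFunctionFieldBar (M * p))}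
    {κ : Qb} (h : MrnCoord M A hpM hA hat i u w ε κ)
    (v : Place Qb ↥(modularFunctionFieldBar (M * p))) (hv : ttruCenS M A hpM hA hat i v)
    (a : Qb) (ha : GrdVal v u a) :
    u * (algebraMap Qb ↥(modularFunctionFieldBar (M * p)) a)⁻¹ ∈
      (ttraV2 M A hpM hA).nonunits := by
  obtain ⟨b, hbm, hb⟩ := h.w_val v hv
  obtain ⟨e, heu, he⟩ := h.ε_val v hv
  have h1 := h.val_mul v ha hb he
  have he0 : (e : Qb) ≠ 0 := by
    intro h0'
    have : e = 0 := Subtype.ext h0'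
    rw [this] at heu
    exact not_isUnit_zero heu
  have ha0 : a ≠ 0 := by
    rintro rfl
    rw [zero_mul] at h1
    exact mul_ne_zero h.κ_ne he0 h1.symm
  -- `w` is a unit of `V₂`
  have hwr : ttraRed2 M A hpM hA ⟨w, h.hw.1.2⟩ ≠ 0 := by
    intro h0
    have h2 := h.w_ord
    have h3 : ttrglRed₂ M A hpM hA ⟨w, h.hw.1⟩ = 0 := h0
    rw [h3, Place.ord_zero] at h2
    exact absurd h2 (by norm_num)
  have hwinv : w⁻¹ ∈ ttraV2 M A hpM hA := mrng_inv_mem₂ M A hpM hA w h.hw.1.2 hwr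
  have hw0 : w ≠ 0 := by
    rintro rfl
    apply hwr
    have : (⟨0, h.hw.1.2⟩ : ↥(ttraV2 M A hpM hA)) = 0 := rfl
    rw [this, map_zero]
  -- the constant `b / e ∈ 𝔪_𝔸`
  obtain ⟨e', he'⟩ := heu
  set d : A := b * (↑e'⁻¹ : A) with hd
  have hdm : d ∈ maximalIdeal A := Ideal.mul_mem_right _ _ hbm
  have hdq : (d : Qb) = b * (e : Qb)⁻¹ := by
    have h4 : ((↑e'⁻¹ : A) : Qb) * (e : Qb) = 1 := by
      have h5 : (↑e'⁻¹ : A) * e = 1 := by rw [← he']; exact e'.inv_mul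
      have h6 := congrArg (fun z : A => (z : Qb)) h5
      simpa using h6
    rw [hd]
    push_cast
    rw [eq_inv_of_mul_eq_one_left h4]
  have hκ : κ = a * (d : Qb) := by
    rw [hdq, ← mul_assoc, h1, mul_assoc, mul_inv_cancel₀ he0, mul_one]
  have hu : u = algebraMap Qb ↥(modularFunctionFieldBar (M * p)) κ * ε * w⁻¹ := by
    rw [← h.mul, mul_assoc, mul_inv_cancel₀ hw0, mul_one]
  have hca0 : algebraMap Qb ↥(modularFunctionFieldBar (M * p)) a ≠ 0 :=
    (map_ne_zero_iff _ (algebraMap Qb _).injective).mpr ha0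
  have e1 : u * (algebraMap Qb ↥(modularFunctionFieldBar (M * p)) a)⁻¹ =
      (ε * w⁻¹) * algebraMap Qb ↥(modularFunctionFieldBar (M * p)) (d : Qb) := by
    conv_lhs => rw [hu, hκ, map_mul]
    field_simp
  rw [e1]
  exact mrnc_mul_mem_nonunits _ ((ttraV2 M A hpM hA).mul_mem _ _ h.hε.1.2 hwinv)
    (mrnc_const_nu₂ M A hpM hA d hdm)

/-- **(ONE-ZERO) transfers to a coordinate pair** : if SOME zero-free coordinate `x` of the first
kind at the node `i` has the one-zero property at `R`, then so does `u`. -/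
theorem mrnc_oneZero_of_a1 {i : ttrkS M p A hpM hA hat}
    {u w ε x : ↥(modularFunctionFieldBar (M * p))} {κ : Qb}
    (h : MrnCoord M A hpM hA hat i u w ε κ) (hx : MrnA1 M A hpM hA hat i x)
    (R : Place Qb ↥(modularFunctionFieldBar (M * p))) (hR : ttruCenS M A hpM hA hat i R)
    (a' : A) (ha' : GrdVal R x (a' : Qb))
    (h1 : R.ord (x - algebraMap Qb ↥(modularFunctionFieldBar (M * p)) (a' : Qb)) = 1)
    (h2 : ∀ v, ttruCenS M A hpM hA hat i v → v ≠ R →
      v.ord (x - algebraMap Qb ↥(modularFunctionFieldBar (M * p)) (a' : Qb)) = 0) :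
    ∃ c : Qb, c ∈ A.nonunits ∧ c ≠ 0 ∧ κ / c ∈ A.nonunits ∧ GrdVal R u c ∧
      R.ord (u - algebraMap Qb ↥(modularFunctionFieldBar (M * p)) c) = 1 ∧
      ∀ R', ttruCenS M A hpM hA hat i R' → R' ≠ R →
        R'.ord (u - algebraMap Qb ↥(modularFunctionFieldBar (M * p)) c) = 0 := by
  have hu := mrnc_a1_of_coord h
  obtain ⟨a, ham, ha0, ha⟩ := hu.val R hR
  obtain ⟨b, hbm, hb⟩ := h.w_val R hR
  obtain ⟨e, heu, he⟩ := h.ε_val R hR
  have hmul := h.val_mul R ha hb he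
  have hcmp := mrnc_cmp hx hu R hR a a' ha ha' (mrnc_deep h R hR _ ha) h1 h2
  refine ⟨(a : Qb), ?_, ha0, ?_, ha, ?_, ?_⟩
  · -- `a ∈ 𝔪_𝔸`
    rw [ValuationSubring.mem_nonunits_iff_exists_mem_maximalIdeal]
    exact ⟨a.2, ham⟩
  · -- `κ / a = b / e ∈ 𝔪_𝔸`
    obtain ⟨e', he'⟩ := heu
    have he0 : (e : Qb) ≠ 0 := by
      intro h0'
      have h00 : e = 0 := Subtype.ext h0'
      have h01 : IsUnit e := he' ▸ e'.isUnit
      rw [h00] at h01
      exact not_isUnit_zero h01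
    have hdm : b * (↑e'⁻¹ : A) ∈ maximalIdeal A := Ideal.mul_mem_right _ _ hbm
    have h4 : ((↑e'⁻¹ : A) : Qb) * (e : Qb) = 1 := by
      have h5 : (↑e'⁻¹ : A) * e = 1 := by rw [← he']; exact e'.inv_mul
      have h6 := congrArg (fun z : A => (z : Qb)) h5
      simpa using h6
    have hdq : ((b * (↑e'⁻¹ : A) : A) : Qb) = κ / (a : Qb) := by
      push_cast
      rw [eq_inv_of_mul_eq_one_left h4, eq_div_iff ha0]
      calc (b : Qb) * (e : Qb)⁻¹ * a = (a * b) * (e : Qb)⁻¹ := by ring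
        _ = κ := by rw [hmul, mul_assoc, mul_inv_cancel₀ he0, mul_one]
    rw [← hdq, ValuationSubring.mem_nonunits_iff_exists_mem_maximalIdeal]
    exact ⟨(b * (↑e'⁻¹ : A)).2, hdm⟩
  · rw [hcmp R hR, h1]
  · intro R' hR' hne
    rw [hcmp R' hR', h2 R' hR' hne]

end Fermat.Agent.MR
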