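import Mathlib
import Fermat.Agent.TT.Red2.NodeLoc

/-!
# PROGRAM MR (S44), block `mrn`, (ONE-ZERO) : TRANSFER OF GENERATION (prefix `mrne`, Mathlib only)

`O ⊂ F` a noetherian local subring of a field, `V₁ V₂ ⊇ O` two valuation rings with the
two-component hypotheses `TtrnTwo O V₁ V₂ ϖ` of main's `NodeLoc.lean` (reduced fibre
`O ∩ 𝔪₁ ∩ 𝔪₂ = ϖ O`, both centres proper and distinct).  Let `𝔪_O = (ϖ, x, y)` with `x y ∈ ϖ O`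
(a crossing germ of precision one) and let `u, w ∈ 𝔪_O` with `u ∈ 𝔪₂`, `w ∈ 𝔪₁`, neither of them in
`ϖ O + 𝔪_O²`.  Then `𝔪_O = (ϖ, u, w)` (`mrne_span_transfer`).

Proof: `x y ∈ 𝔪₁ ∩ 𝔪₂` and no smooth germ exists on two components (`ttrn_smooth_false`), so, up to
exchanging `x` and `y`, `x ∈ 𝔪₁ ∖ 𝔪₂` and `y ∈ 𝔪₂ ∖ 𝔪₁`.  Write `u = a ϖ + b x + c y`; as
`u, ϖ, y ∈ 𝔪₂` and `x` is a unit of `V₂`, `b ∈ 𝔪₂`, hence `b x ∈ 𝔪₁ ∩ 𝔪₂ ∩ O = ϖ O` and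
`u = a' ϖ + c y`; `c` is a unit since `u ∉ ϖ O + 𝔪_O²` (`mrne_coord_eq`).  In the same way
`w = a'' ϖ + b' x` with `b'` a unit.
-/

set_option autoImplicit false
set_option linter.unusedSectionVars false
set_option linter.unusedVariables false

namespace Fermat.Agent.MR

open IsLocalRing Fermat.Agent.TT

variable {F : Type*} [Field F]
variable {O : Subring F} [IsLocalRing ↥O] [IsNoetherianRing ↥O]
variable {ϖ : F}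

/-- **one coordinate** : `u ∈ 𝔪_O ∩ 𝔪_V`, `u ∉ ϖ O + 𝔪_O²`, and `𝔪_O = (ϖ, x, y)` with
`x ∈ 𝔪_{V'} ∖ 𝔪_V`, `y ∈ 𝔪_V` : then `u = a ϖ + c y` with `c` a unit of `O`. -/
theorem mrne_coord_eq {V V' : ValuationSubring F} (h : TtrnTwo O V V' ϖ) (x y : F)
    (hx : x ∈ O) (hy : y ∈ O) (hymax : (⟨y, hy⟩ : ↥O) ∈ maximalIdeal ↥O)
    (hxV' : x ∈ V'.nonunits) (hxV : x ∉ V.nonunits) (hyV : y ∈ V.nonunits)
    (hmax : ∀ z : ↥O, z ∈ maximalIdeal ↥O →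
      ∃ a b c : ↥O, (z : F) = (a : F) * ϖ + (b : F) * x + (c : F) * y)
    (u : F) (hu : u ∈ O) (humax : (⟨u, hu⟩ : ↥O) ∈ maximalIdeal ↥O) (huV : u ∈ V.nonunits)
    (hsu : ∀ a b c : ↥O, b ∈ maximalIdeal ↥O → c ∈ maximalIdeal ↥O →
      u ≠ (a : F) * ϖ + (b : F) * (c : F)) :
    ∃ a c : ↥O, IsUnit c ∧ u = (a : F) * ϖ + (c : F) * y := by
  obtain ⟨a, b, c, habc⟩ := hmax ⟨u, hu⟩ humax
  have habc' : u = (a : F) * ϖ + (b : F) * x + (c : F) * y := habc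
  -- `b x ∈ 𝔪_V`
  have hbx : (b : F) * x ∈ V.nonunits := by
    have e : (b : F) * x = u - (a : F) * ϖ - (c : F) * y := by rw [habc']; ring
    rw [e]
    exact ttrn_nu_sub V (ttrn_nu_sub V huV (ttrn_nu_mul V (h.le₁ _ a.2) h.pi₁))
      (ttrn_nu_mul V (h.le₁ _ c.2) hyV)
  have hb : (b : F) ∈ V.nonunits := by
    rcases ttrn_nu_of_mul V (h.le₁ _ b.2) (h.le₁ _ hx) hbx with hb | hx'
    · exact hb
    · exact absurd hx' hxV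
  have hbx' : (b : F) * x ∈ V'.nonunits := ttrn_nu_mul V' (h.le₂ _ b.2) hxV'
  obtain ⟨r, hr, hbr⟩ := h.sat _ (O.mul_mem b.2 hx) hbx hbx'
  refine ⟨a + ⟨r, hr⟩, c, ?_, ?_⟩
  · -- `c` is a unit
    by_contra hc
    have hcm : c ∈ maximalIdeal ↥O := (mem_maximalIdeal _).2 hc
    refine hsu (a + ⟨r, hr⟩) c ⟨y, hy⟩ hcm hymax ?_
    rw [habc', hbr, Subring.coe_add]
    ring
  · rw [habc', hbr, Subring.coe_add]
    ring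

/-- **TRANSFER OF GENERATION** : `𝔪_O = (ϖ, x, y)`, `x y ∈ ϖ O` ⟹ `𝔪_O = (ϖ, u, w)` for
`u ∈ 𝔪_O ∩ 𝔪₂`, `w ∈ 𝔪_O ∩ 𝔪₁` outside `ϖ O + 𝔪_O²`. -/
theorem mrne_span_transfer {V₁ V₂ : ValuationSubring F} (h : TtrnTwo O V₁ V₂ ϖ) (x y : F)
    (hx : x ∈ O) (hy : y ∈ O)
    (hxmax : (⟨x, hx⟩ : ↥O) ∈ maximalIdeal ↥O) (hymax : (⟨y, hy⟩ : ↥O) ∈ maximalIdeal ↥O)
    (hxy : ∃ ρ ∈ O, x * y = ϖ * ρ)
    (hmax : ∀ z : ↥O, z ∈ maximalIdeal ↥O →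
      ∃ a b c : ↥O, (z : F) = (a : F) * ϖ + (b : F) * x + (c : F) * y)
    (u w : F) (hu : u ∈ O) (hw : w ∈ O)
    (humax : (⟨u, hu⟩ : ↥O) ∈ maximalIdeal ↥O) (hwmax : (⟨w, hw⟩ : ↥O) ∈ maximalIdeal ↥O)
    (hu₂ : u ∈ V₂.nonunits) (hw₁ : w ∈ V₁.nonunits)
    (hsu : ∀ a b c : ↥O, b ∈ maximalIdeal ↥O → c ∈ maximalIdeal ↥O →
      u ≠ (a : F) * ϖ + (b : F) * (c : F))
    (hsw : ∀ a b c : ↥O, b ∈ maximalIdeal ↥O → c ∈ maximalIdeal ↥O →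
      w ≠ (a : F) * ϖ + (b : F) * (c : F)) :
    ∀ z : ↥O, z ∈ maximalIdeal ↥O →
      ∃ a b c : ↥O, (z : F) = (a : F) * ϖ + (b : F) * u + (c : F) * w := by
  obtain ⟨ρ, hρ, hxyρ⟩ := hxy
  have hxy₁ : x * y ∈ V₁.nonunits := by
    rw [hxyρ, mul_comm]; exact ttrn_nu_mul V₁ (h.le₁ _ hρ) h.pi₁
  have hxy₂ : x * y ∈ V₂.nonunits := by
    rw [hxyρ, mul_comm]; exact ttrn_nu_mul V₂ (h.le₂ _ hρ) h.pi₂
  -- a coordinate of the germ is never in both centres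
  have bad : ∀ (x y : F) (hx : x ∈ O) (hy : y ∈ O)
      (hymax : (⟨y, hy⟩ : ↥O) ∈ maximalIdeal ↥O)
      (hmax : ∀ z : ↥O, z ∈ maximalIdeal ↥O →
        ∃ a b c : ↥O, (z : F) = (a : F) * ϖ + (b : F) * x + (c : F) * y)
      (hx₁ : x ∈ V₁.nonunits) (hx₂ : x ∈ V₂.nonunits), False := by
    intro x y hx hy hymax hmax hx₁ hx₂
    obtain ⟨r, hr, hxr⟩ := h.sat x hx hx₁ hx₂
    refine ttrn_smooth_false h y hy hymax ?_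
    intro z hz
    obtain ⟨a, b, c, habc⟩ := hmax z hz
    refine ⟨a + b * ⟨r, hr⟩, c, ?_⟩
    rw [habc, hxr, Subring.coe_add, Subring.coe_mul]
    ring
  have hmax' : ∀ z : ↥O, z ∈ maximalIdeal ↥O →
      ∃ a b c : ↥O, (z : F) = (a : F) * ϖ + (b : F) * y + (c : F) * x := by
    intro z hz
    obtain ⟨a, b, c, habc⟩ := hmax z hz
    exact ⟨a, c, b, by rw [habc]; ring⟩
  -- the good position : `x ∈ 𝔪₁ ∖ 𝔪₂`, `y ∈ 𝔪₂ ∖ 𝔪₁`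
  have good : ∀ (x y : F) (hx : x ∈ O) (hy : y ∈ O)
      (hxmax : (⟨x, hx⟩ : ↥O) ∈ maximalIdeal ↥O) (hymax : (⟨y, hy⟩ : ↥O) ∈ maximalIdeal ↥O)
      (hmax : ∀ z : ↥O, z ∈ maximalIdeal ↥O →
        ∃ a b c : ↥O, (z : F) = (a : F) * ϖ + (b : F) * x + (c : F) * y)
      (hx₁ : x ∈ V₁.nonunits) (hx₂ : x ∉ V₂.nonunits) (hy₂ : y ∈ V₂.nonunits)
      (hy₁ : y ∉ V₁.nonunits),
      ∀ z : ↥O, z ∈ maximalIdeal ↥O →
        ∃ a b c : ↥O, (z : F) = (a : F) * ϖ + (b : F) * u + (c : F) * w := by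
    intro x y hx hy hxmax hymax hmax hx₁ hx₂ hy₂ hy₁ z hz
    have hmaxs : ∀ z : ↥O, z ∈ maximalIdeal ↥O →
        ∃ a b c : ↥O, (z : F) = (a : F) * ϖ + (b : F) * y + (c : F) * x := by
      intro z hz
      obtain ⟨a, b, c, habc⟩ := hmax z hz
      exact ⟨a, c, b, by rw [habc]; ring⟩
    obtain ⟨a₁, c₁, hc₁, hu'⟩ := mrne_coord_eq h.symm x y hx hy hymax hx₁ hx₂ hy₂ hmax u hu humax
      hu₂ hsu
    obtain ⟨a₂, c₂, hc₂, hw'⟩ := mrne_coord_eq h y x hy hx hxmax hy₂ hy₁ hx₁ hmaxs w hw hwmax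
      hw₁ hsw
    obtain ⟨d₁, hd₁⟩ := hc₁.exists_right_inv
    obtain ⟨d₂, hd₂⟩ := hc₂.exists_right_inv
    have h1 : (c₁ : F) * (d₁ : F) = 1 := by
      have := congrArg (fun z : ↥O => (z : F)) hd₁
      simpa using this
    have h2 : (c₂ : F) * (d₂ : F) = 1 := by
      have := congrArg (fun z : ↥O => (z : F)) hd₂
      simpa using this
    obtain ⟨a, b, c, habc⟩ := hmax z hz
    refine ⟨a - b * d₂ * a₂ - c * d₁ * a₁, c * d₁, b * d₂, ?_⟩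
    push_cast
    linear_combination habc - (c : F) * (d₁ : F) * hu' - (b : F) * (d₂ : F) * hw'
      - (c : F) * y * h1 - (b : F) * x * h2
  rcases ttrn_nu_of_mul V₁ (h.le₁ _ hx) (h.le₁ _ hy) hxy₁ with hx₁ | hy₁
  · rcases ttrn_nu_of_mul V₂ (h.le₂ _ hx) (h.le₂ _ hy) hxy₂ with hx₂ | hy₂
    · exact (bad x y hx hy hymax hmax hx₁ hx₂).elim
    · refine good x y hx hy hxmax hymax hmax hx₁ (fun hx₂ => bad x y hx hy hymax hmax hx₁ hx₂) hy₂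
        (fun hy₁ => bad y x hy hx hxmax hmax' hy₁ hy₂)
  · rcases ttrn_nu_of_mul V₂ (h.le₂ _ hx) (h.le₂ _ hy) hxy₂ with hx₂ | hy₂
    · refine good y x hy hx hymax hxmax hmax' hy₁ (fun hy₂ => bad y x hy hx hxmax hmax' hy₁ hy₂) hx₂
        (fun hx₁ => bad x y hx hy hymax hmax hx₁ hx₂)
    · exact (bad y x hy hx hxmax hmax' hy₁ hy₂).elim

end Fermat.Agent.MR
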