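import Mathlib
import Fermat.Agent.MR.Node.Span
import Fermat.Agent.TT.Red2.NodeGerm
import Fermat.Agent.SS.Loc.Main

/-!
# PROGRAM MR (S44), block `mrn`, (ONE-ZERO) AT THE NUMBER-FIELD LEVEL (prefix `mrne`)

Setting of S18 package T : `A` a DVR, `L = Frac A`, `F / L(t)` finite, `P = s18tInt A t`,
`V₁ V₂` the two valuation rings above the Gauss ring (`SsgaTwo`), `𝔫` a prime of `P` containing `ϖ`
and both centres, main's germ alternative `SsGermSmooth ∨ SsGermCross` at `𝔫`.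

* `mrne_gen_of_germ` : an EXACT pair `u, w ∈ 𝔫 P_𝔫`, `u ∈ 𝔪_{V₂}`, `w ∈ 𝔪_{V₁}`, neither in
  `ϖ P_𝔫 + (𝔫 P_𝔫)²`, generates : `SsGen ϖ t 𝔫 u w` (from the germ of precision ONE and
  `mrne_span_transfer`);
* `mrne_onezero_nf` : if moreover `u w = κ ∈ A` EXACTLY, then at every rational point `R` centred
  at `𝔫` with `a := u(R) ≠ 0` : `u - a` is a uniformiser at `R` and `R` is the only place centred at
  `𝔫` at which `u - a` vanishes (main's `ss_loc_cross` with `d = 0`).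
-/

set_option autoImplicit false
set_option linter.unusedSectionVars false
set_option linter.unusedVariables false

noncomputable section

namespace Fermat.Agent.MR

open Polynomial IntermediateField AlgebraicCurve Fermat.Agent.S18 Fermat.Agent.SS IsLocalRing
  Fermat.Agent.TT

universe u

variable {A : Type*} [CommRing A] [IsDomain A] [IsDiscreteValuationRing A] [CharZero A]
variable {L : Type*} [Field L] [Algebra A L] [IsFractionRing A L]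
variable {F : Type u} [Field F] [Algebra A F] [Algebra L F] [IsScalarTower A L F]
variable {ϖ : A} {t : F} {V₁ V₂ : ValuationSubring F}
variable {𝔫 : Ideal ↥(s18tInt A t)} [h𝔫 : 𝔫.IsPrime]

/-- **generation by an exact pair**, from main's germ alternative. -/
theorem mrne_gen_of_germ (hϖ : Irreducible ϖ) (ht : Transcendental L t) [FiniteDimensional L⟮t⟯ F]
    (hϖ𝔫 : sskPi ϖ t ∈ 𝔫) (two : SsgaTwo ϖ t V₁ V₂)
    (h𝔭₁ : ∀ p : ↥(s18tInt A t), (p : F) ∈ V₁.nonunits → p ∈ 𝔫)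
    (h𝔭₂ : ∀ p : ↥(s18tInt A t), (p : F) ∈ V₂.nonunits → p ∈ 𝔫)
    (sep₁ : ∃ u₁ ∈ s18tInt A t, u₁ ∈ V₁.nonunits ∧ u₁ ∉ V₂.nonunits)
    (sep₂ : ∃ u₂ ∈ s18tInt A t, u₂ ∈ V₂.nonunits ∧ u₂ ∉ V₁.nonunits)
    (G : Subgroup (SemilinearAut L F))
    (germ : SsGermSmooth ϖ t G 𝔫 ∨ SsGermCross ϖ t G 𝔫)
    (u w : F) (hu : SsInMax t 𝔫 u) (hw : SsInMax t 𝔫 w)
    (hu₂ : u ∈ V₂.nonunits) (hw₁ : w ∈ V₁.nonunits)
    (hsu : ∀ a b c : F, SsInLoc t 𝔫 a → SsInMax t 𝔫 b → SsInMax t 𝔫 c →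
      u ≠ a * algebraMap A F ϖ + b * c)
    (hsw : ∀ a b c : F, SsInLoc t 𝔫 a → SsInMax t 𝔫 b → SsInMax t 𝔫 c →
      w ≠ a * algebraMap A F ϖ + b * c) :
    SsGen ϖ t 𝔫 u w := by
  have : IsNoetherianRing ↥(ssLocRing t 𝔫) := ssl_locRing_isNoetherianRing (L := L) t ht 𝔫
  have H := ttrn_two_of_ssga two h𝔭₁ h𝔭₂ sep₁ sep₂
  have huO : u ∈ ssLocRing t 𝔫 := SsInMax.inLoc (t := t) (𝔫 := 𝔫) hu
  have hwO : w ∈ ssLocRing t 𝔫 := SsInMax.inLoc (t := t) (𝔫 := 𝔫) hw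
  have humax : (⟨u, huO⟩ : ↥(ssLocRing t 𝔫)) ∈ maximalIdeal ↥(ssLocRing t 𝔫) := by
    rw [ssl_mem_maximalIdeal]; exact hu
  have hwmax : (⟨w, hwO⟩ : ↥(ssLocRing t 𝔫)) ∈ maximalIdeal ↥(ssLocRing t 𝔫) := by
    rw [ssl_mem_maximalIdeal]; exact hw
  have hsu' : ∀ a b c : ↥(ssLocRing t 𝔫), b ∈ maximalIdeal ↥(ssLocRing t 𝔫) →
      c ∈ maximalIdeal ↥(ssLocRing t 𝔫) → u ≠ (a : F) * algebraMap A F ϖ + (b : F) * (c : F) :=
    fun a b c hb hc => hsu a b c a.2 ((ssl_mem_maximalIdeal t 𝔫 b).mp hb)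
      ((ssl_mem_maximalIdeal t 𝔫 c).mp hc)
  have hsw' : ∀ a b c : ↥(ssLocRing t 𝔫), b ∈ maximalIdeal ↥(ssLocRing t 𝔫) →
      c ∈ maximalIdeal ↥(ssLocRing t 𝔫) → w ≠ (a : F) * algebraMap A F ϖ + (b : F) * (c : F) :=
    fun a b c hb hc => hsw a b c a.2 ((ssl_mem_maximalIdeal t 𝔫 b).mp hb)
      ((ssl_mem_maximalIdeal t 𝔫 c).mp hc)
  -- generation of `𝔪_{P_𝔫}` suffices
  have concl : (∀ z : ↥(ssLocRing t 𝔫), z ∈ maximalIdeal ↥(ssLocRing t 𝔫) →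
      ∃ a b c : ↥(ssLocRing t 𝔫),
        (z : F) = (a : F) * algebraMap A F ϖ + (b : F) * u + (c : F) * w) →
      SsGen ϖ t 𝔫 u w := by
    intro hgen
    refine ⟨hu, hw, fun p hp => ?_⟩
    have hpO : (p : F) ∈ ssLocRing t 𝔫 := ssl_int_le_locRing t 𝔫 p.2
    have hpmax : (⟨(p : F), hpO⟩ : ↥(ssLocRing t 𝔫)) ∈ maximalIdeal ↥(ssLocRing t 𝔫) := by
      rw [ssl_mem_maximalIdeal]
      exact ⟨1, fun h => h𝔫.ne_top ((Ideal.eq_top_iff_one _).mpr h), p, hp, by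
        rw [OneMemClass.coe_one, one_mul]⟩
    obtain ⟨a, b, c, habc⟩ := hgen _ hpmax
    exact ⟨a, b, c, a.2, b.2, c.2, habc⟩
  rcases germ with ⟨z, hz, hspan⟩ | hcross
  · -- smooth germ : impossible
    exfalso
    have hzO : z ∈ ssLocRing t 𝔫 := SsInMax.inLoc (t := t) (𝔫 := 𝔫) hz
    refine ttrn_smooth_false H z hzO ?_ ?_
    · rw [ssl_mem_maximalIdeal]; exact hz
    · intro x' hx'
      obtain ⟨s, hs, p, hp, hsp⟩ := ttrn_max_frac x' hx'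
      obtain ⟨s', hs', a, b, hab⟩ := hspan p hp
      have hs0 := ttrn_ne_zero hs
      have hs0' := ttrn_ne_zero hs'
      refine ⟨⟨(s : F)⁻¹ * (s' : F)⁻¹ * a, Subring.mul_mem _ (Subring.mul_mem _ (ttrn_inv_mem hs)
        (ttrn_inv_mem hs')) (ssl_int_le_locRing t 𝔫 a.2)⟩,
        ⟨(s : F)⁻¹ * (s' : F)⁻¹ * b, Subring.mul_mem _ (Subring.mul_mem _ (ttrn_inv_mem hs)
        (ttrn_inv_mem hs')) (ssl_int_le_locRing t 𝔫 b.2)⟩, ?_⟩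
      show (x' : F) = (s : F)⁻¹ * (s' : F)⁻¹ * a * algebraMap A F ϖ + (s : F)⁻¹ * (s' : F)⁻¹ * b * z
      have e : (x' : F) = (s : F)⁻¹ * (s' : F)⁻¹ * ((s' : F) * ((s : F) * (x' : F))) := by
        field_simp
      rw [e, hsp, hab]
      ring
  · -- crossing germ of precision one
    apply concl
    obtain ⟨x, y, hx, hy, -, -, hspan, κ, ρ, hρ, hxy⟩ := hcross 1
    have hxO : x ∈ ssLocRing t 𝔫 := SsInMax.inLoc (t := t) (𝔫 := 𝔫) hx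
    have hyO : y ∈ ssLocRing t 𝔫 := SsInMax.inLoc (t := t) (𝔫 := 𝔫) hy
    have hxmax : (⟨x, hxO⟩ : ↥(ssLocRing t 𝔫)) ∈ maximalIdeal ↥(ssLocRing t 𝔫) := by
      rw [ssl_mem_maximalIdeal]; exact hx
    have hymax : (⟨y, hyO⟩ : ↥(ssLocRing t 𝔫)) ∈ maximalIdeal ↥(ssLocRing t 𝔫) := by
      rw [ssl_mem_maximalIdeal]; exact hy
    have hρO : ρ ∈ ssLocRing t 𝔫 := hρ
    have hπO : algebraMap A F ϖ ∈ ssLocRing t 𝔫 := H.pi_mem
    have hπmax : (⟨algebraMap A F ϖ, hπO⟩ : ↥(ssLocRing t 𝔫)) ∈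
        maximalIdeal ↥(ssLocRing t 𝔫) := by
      rw [ssl_mem_maximalIdeal]
      exact ⟨1, fun h => h𝔫.ne_top ((Ideal.eq_top_iff_one _).mpr h), sskPi ϖ t, hϖ𝔫, by
        rw [OneMemClass.coe_one, one_mul]; rfl⟩
    -- `κ ∈ ϖ A`
    have hκ : κ ∈ maximalIdeal A := by
      by_contra hκ
      have hκu : IsUnit κ := by
        rw [mem_maximalIdeal, mem_nonunits_iff, not_not] at hκ
        exact hκ
      obtain ⟨κ', hκ'⟩ := hκu.exists_right_inv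
      have hκO : algebraMap A F κ ∈ ssLocRing t 𝔫 :=
        ssl_int_le_locRing t 𝔫 (s18tc_algebraMap_mem_int t κ)
      have hκmax : (⟨algebraMap A F κ, hκO⟩ : ↥(ssLocRing t 𝔫)) ∈
          maximalIdeal ↥(ssLocRing t 𝔫) := by
        have e : (⟨algebraMap A F κ, hκO⟩ : ↥(ssLocRing t 𝔫)) =
            ⟨x, hxO⟩ * ⟨y, hyO⟩ - ⟨algebraMap A F ϖ, hπO⟩ * ⟨ρ, hρO⟩ := by
          apply Subtype.ext
          show algebraMap A F κ = x * y - algebraMap A F ϖ * ρ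
          rw [hxy, pow_one]; ring
        rw [e]
        exact Ideal.sub_mem _ (Ideal.mul_mem_right _ _ hxmax) (Ideal.mul_mem_right _ _ hπmax)
      have hκ'O : algebraMap A F κ' ∈ ssLocRing t 𝔫 :=
        ssl_int_le_locRing t 𝔫 (s18tc_algebraMap_mem_int t κ')
      have h1 : (1 : ↥(ssLocRing t 𝔫)) ∈ maximalIdeal ↥(ssLocRing t 𝔫) := by
        have e : (1 : ↥(ssLocRing t 𝔫)) = ⟨algebraMap A F κ, hκO⟩ * ⟨algebraMap A F κ', hκ'O⟩ := by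
          apply Subtype.ext
          show (1 : F) = algebraMap A F κ * algebraMap A F κ'
          rw [← map_mul, hκ', map_one]
        rw [e]
        exact Ideal.mul_mem_right _ _ hκmax
      exact (Ideal.ne_top_iff_one _).mp (IsLocalRing.maximalIdeal.isMaximal _).ne_top h1
    rw [hϖ.maximalIdeal_eq, Ideal.mem_span_singleton'] at hκ
    obtain ⟨κ₁, hκ₁⟩ := hκ
    have hxy' : ∃ ρ' ∈ ssLocRing t 𝔫, x * y = algebraMap A F ϖ * ρ' := by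
      refine ⟨algebraMap A F κ₁ + ρ, Subring.add_mem _
        (ssl_int_le_locRing t 𝔫 (s18tc_algebraMap_mem_int t κ₁)) hρO, ?_⟩
      rw [hxy, ← hκ₁, map_mul, pow_one]; ring
    refine mrne_span_transfer H x y hxO hyO hxmax hymax hxy' ?_ u w huO hwO humax hwmax hu₂ hw₁
      hsu' hsw'
    intro x' hx'
    obtain ⟨s, hs, p, hp, hsp⟩ := ttrn_max_frac x' hx'
    obtain ⟨s', hs', a, b, c, hab⟩ := hspan p hp
    have hs0 := ttrn_ne_zero hs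
    have hs0' := ttrn_ne_zero hs'
    have hinv : (s : F)⁻¹ * (s' : F)⁻¹ ∈ ssLocRing t 𝔫 :=
      Subring.mul_mem _ (ttrn_inv_mem hs) (ttrn_inv_mem hs')
    refine ⟨⟨(s : F)⁻¹ * (s' : F)⁻¹ * a, Subring.mul_mem _ hinv (ssl_int_le_locRing t 𝔫 a.2)⟩,
      ⟨(s : F)⁻¹ * (s' : F)⁻¹ * b, Subring.mul_mem _ hinv (ssl_int_le_locRing t 𝔫 b.2)⟩,
      ⟨(s : F)⁻¹ * (s' : F)⁻¹ * c, Subring.mul_mem _ hinv (ssl_int_le_locRing t 𝔫 c.2)⟩, ?_⟩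
    show (x' : F) = (s : F)⁻¹ * (s' : F)⁻¹ * a * algebraMap A F ϖ +
      (s : F)⁻¹ * (s' : F)⁻¹ * b * x + (s : F)⁻¹ * (s' : F)⁻¹ * c * y
    have e : (x' : F) = (s : F)⁻¹ * (s' : F)⁻¹ * ((s' : F) * ((s : F) * (x' : F))) := by
      field_simp
    rw [e, hsp, hab]
    ring

/-- **(ONE-ZERO) AT THE NUMBER-FIELD LEVEL** for an exact pair `u w = κ`. -/
theorem mrne_onezero_nf (hϖ : Irreducible ϖ) (ht : Transcendental L t) [FiniteDimensional L⟮t⟯ F]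
    (hϖ𝔫 : sskPi ϖ t ∈ 𝔫) (two : SsgaTwo ϖ t V₁ V₂)
    (h𝔭₁ : ∀ p : ↥(s18tInt A t), (p : F) ∈ V₁.nonunits → p ∈ 𝔫)
    (h𝔭₂ : ∀ p : ↥(s18tInt A t), (p : F) ∈ V₂.nonunits → p ∈ 𝔫)
    (sep₁ : ∃ u₁ ∈ s18tInt A t, u₁ ∈ V₁.nonunits ∧ u₁ ∉ V₂.nonunits)
    (sep₂ : ∃ u₂ ∈ s18tInt A t, u₂ ∈ V₂.nonunits ∧ u₂ ∉ V₁.nonunits)
    (G : Subgroup (SemilinearAut L F))
    (germ : SsGermSmooth ϖ t G 𝔫 ∨ SsGermCross ϖ t G 𝔫)
    (u w : F) (hu : SsInMax t 𝔫 u) (hw : SsInMax t 𝔫 w)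
    (hu₂ : u ∈ V₂.nonunits) (hw₁ : w ∈ V₁.nonunits)
    (hsu : ∀ a b c : F, SsInLoc t 𝔫 a → SsInMax t 𝔫 b → SsInMax t 𝔫 c →
      u ≠ a * algebraMap A F ϖ + b * c)
    (hsw : ∀ a b c : F, SsInLoc t 𝔫 a → SsInMax t 𝔫 b → SsInMax t 𝔫 c →
      w ≠ a * algebraMap A F ϖ + b * c)
    (κ : A) (hnode : u * w = algebraMap A F κ)
    {R : ValuationSubring F} (hR : SsPoint L ϖ t 𝔫 R)
    (a : A) (ha : R.valuation (u - algebraMap A F a) < 1) (ha0 : a ≠ 0) :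
    S18IsUnif R (u - algebraMap A F a) ∧
    ∀ V : ValuationSubring F, S18IsPlace L V → SsCentred t 𝔫 V →
      V.valuation (u - algebraMap A F a) < 1 → V = R := by
  have hgen := mrne_gen_of_germ hϖ ht hϖ𝔫 two h𝔭₁ h𝔭₂ sep₁ sep₂ G germ u w hu hw hu₂ hw₁ hsu hsw
  have hρ : SsInLoc t 𝔫 (0 : F) := ssl_inLoc_of_mem h𝔫.ne_top (Subring.zero_mem _)
  exact ss_loc_cross ht hR u w 0 hgen hρ κ 0 (by rw [hnode, map_zero, zero_mul, sub_zero]) a ha ha0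
    0 (by rw [mul_zero]) (dvd_zero _)

end Fermat.Agent.MR
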