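import Mathlib
import Fermat.Agent.MR.Node.OneZeroNF
import Fermat.Agent.TT.Red2.NodeAscent
import Fermat.Agent.SS.Loc.Germ
import Fermat.Agent.SS.Dict.Rational

/-!
# PROGRAM MR (S44), block `mrn`, (ONE-ZERO) : THE ASCENT TO `ℚ̄` (prefix `mrnd`)

`B = grdB N A t` the `ℚ̄`-level chart ring, `𝔫` a closed point of `B` lying on both components
`V1`, `V2`, `R` a place of `F_ℚ̄(N)` centred at `𝔫`, and an EXACT pair `u, w ∈ 𝔫 B_𝔫`, `u w = κ`,
`u ∈ 𝔪_{V2}`, `w ∈ 𝔪_{V1}`, neither in `𝔪_A B_𝔫 + (𝔫 B_𝔫)²`.  Then `u - u(R)` is a uniformiser at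
`R` and a unit at every other place centred at `𝔫` (`mrnd_onezero_bar`), provided `u(R) ≠ 0`.

Proof: everything descends to ONE big number field `E`; there `mrne_onezero_nf` (main's germ of
precision one + transfer of generation + `ss_loc_cross` with `d = 0`) applies; `ord` ascends with
ramification index one because `R` has a uniformiser in `F_E(N)` (`ssd_exists_rational`), and the
extension of `R_E` to `F_ℚ̄(N)` is unique by the pinning set of `ssdr_exists_pinning`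
(`mrnd_exists_pin`).  The template is main's `ttrn_T_bar` (`TT/Red2/NodeAscent.lean`).
-/

set_option autoImplicit false
set_option linter.unusedSectionVars false
set_option linter.unusedVariables false
set_option linter.style.haveILetI false
set_option synthInstance.maxHeartbeats 400000

noncomputable section

namespace Fermat.Agent.MR

open ModularCurve AlgebraicCurve IsLocalRing Polynomial IntermediateField Fermat.Agent.S18
  Fermat.Agent.S24 Fermat.Agent.G Fermat.Agent.SS Fermat.Agent.TT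

local notation "Qb" => AlgebraicClosure ℚ

/-! ### uniqueness of the extension of `R_E` -/

/-- **the pinning level** : for all big `E`, a place `R'` of `F_ℚ̄(N)` with the same restriction to
`F_E(N)` as `R` IS `R`. -/
theorem mrnd_exists_pin (N : ℕ) [NeZero N] (R : Place Qb ↥(modularFunctionFieldBar N)) :
    ∃ E₁ : IntermediateField ℚ Qb, FiniteDimensional ℚ E₁ ∧
      ∀ E : IntermediateField ℚ Qb, E₁ ≤ E →
        ∀ R' : Place Qb ↥(modularFunctionFieldBar N),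
          R'.toValuationSubring.comap (ssdUp E N) = R.toValuationSubring.comap (ssdUp E N) →
          R' = R := by
  classical
  haveI := gff_hasPrincipalDivisors N
  obtain ⟨f, hf⟩ := ssdr_exists_ord_eq_one R
  obtain ⟨S, hfS, hSpos, hSuniq⟩ := ssdr_exists_pinning R f hf
  obtain ⟨E₁, hfd, hE₁⟩ := ssdr_exists_model_finset N S
  refine ⟨E₁, hfd, fun E hE R' hR' => hSuniq R' fun s hs => ?_⟩
  obtain ⟨z, hz⟩ := hE₁ E hE s hs
  have hpos := hSpos s hs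
  have hs0 : s ≠ 0 := by
    rintro rfl
    rw [Place.ord_zero] at hpos
    exact absurd hpos (by norm_num)
  have h1 : s ∈ R.toValuationSubring.nonunits :=
    (grdg_val_zero_iff R s).1 ((grdg_val_zero_iff_ord R hs0).2 hpos)
  have h2 : z ∈ (R.toValuationSubring.comap (ssdUp E N)).nonunits := by
    rw [ttrn_comap_nonunits, hz]; exact h1
  rw [← hR', ttrn_comap_nonunits, hz] at h2
  exact (grdg_val_zero_iff_ord R' hs0).1 ((grdg_val_zero_iff R' s).2 h2)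

/-! ### fractions of the chart ring -/

section Frac

variable (N : ℕ) [NeZero N] (A : ValuationSubring Qb)
variable {υ : LaurentSeries ℤ} (hυ : GrdSerMem N υ)

/-- `x ∈ B_𝔫`. -/
def MrndInLoc (𝔫 : Ideal ↥(grdB N A (grdQ N hυ))) (x : ↥(modularFunctionFieldBar N)) : Prop :=
  ∃ s : ↥(grdB N A (grdQ N hυ)), s ∉ 𝔫 ∧
    (s : ↥(modularFunctionFieldBar N)) * x ∈ grdB N A (grdQ N hυ)

/-- `x ∈ 𝔫 B_𝔫`. -/
def MrndInMax (𝔫 : Ideal ↥(grdB N A (grdQ N hυ))) (x : ↥(modularFunctionFieldBar N)) : Prop :=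
  ∃ s : ↥(grdB N A (grdQ N hυ)), s ∉ 𝔫 ∧ ∃ p : ↥(grdB N A (grdQ N hυ)), p ∈ 𝔫 ∧
    (s : ↥(modularFunctionFieldBar N)) * x = (p : ↥(modularFunctionFieldBar N))

variable {N A}

/-- ascent of `SsInLoc`. -/
theorem mrnd_inLoc_up (E : IntermediateField ℚ Qb) (𝔫 : Ideal ↥(grdB N A (grdQ N hυ)))
    {a : ↥(modularFunctionFieldFullC E N)}
    (ha : SsInLoc (ttrnTE N E hυ) (ttrnDown N A E hυ 𝔫) a) :
    MrndInLoc N A hυ 𝔫 (ssdUp E N a) := by
  obtain ⟨s, hs, hsa⟩ := ha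
  refine ⟨ttrnUp N A E hυ s, hs, ?_⟩
  rw [coe_ttrnUp, ← map_mul]
  exact (ttrnUp N A E hυ ⟨_, hsa⟩).2

/-- ascent of `SsInMax`. -/
theorem mrnd_inMax_up (E : IntermediateField ℚ Qb) (𝔫 : Ideal ↥(grdB N A (grdQ N hυ)))
    {a : ↥(modularFunctionFieldFullC E N)}
    (ha : SsInMax (ttrnTE N E hυ) (ttrnDown N A E hυ 𝔫) a) :
    MrndInMax N A hυ 𝔫 (ssdUp E N a) := by
  obtain ⟨s, hs, p, hp, hsa⟩ := ha
  refine ⟨ttrnUp N A E hυ s, hs, ttrnUp N A E hυ p, hp, ?_⟩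
  rw [coe_ttrnUp, coe_ttrnUp, ← map_mul, hsa]

/-- descent of an element of `𝔫 B_𝔫` to all big number fields. -/
theorem mrnd_exists_frac (𝔫 : Ideal ↥(grdB N A (grdQ N hυ))) [h𝔫 : 𝔫.IsPrime]
    {x : ↥(modularFunctionFieldBar N)} (hx : MrndInMax N A hυ 𝔫 x) :
    ∃ E₁ : IntermediateField ℚ Qb, FiniteDimensional ℚ E₁ ∧
      ∀ E : IntermediateField ℚ Qb, E₁ ≤ E →
        ∃ z : ↥(modularFunctionFieldFullC E N), ssdUp E N z = x ∧
          SsInMax (ttrnTE N E hυ) (ttrnDown N A E hυ 𝔫) z := by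
  obtain ⟨s, hs, p, hp, hsx⟩ := hx
  obtain ⟨E₁, hfd₁, h₁⟩ := ttrn_exists_model N A hυ s
  obtain ⟨E₂, hfd₂, h₂⟩ := ttrn_exists_model N A hυ p
  haveI := hfd₁
  haveI := hfd₂
  refine ⟨E₁ ⊔ E₂, IntermediateField.finiteDimensional_sup _ _, fun E hE => ?_⟩
  obtain ⟨sE, hsE⟩ := h₁ E (le_trans le_sup_left hE)
  obtain ⟨pE, hpE⟩ := h₂ E (le_trans le_sup_right hE)
  have hs0 : (s : ↥(modularFunctionFieldBar N)) ≠ 0 := by
    intro h0
    apply hs
    have : s = 0 := Subtype.ext h0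
    rw [this]; exact 𝔫.zero_mem
  have hsE0 : (sE : ↥(modularFunctionFieldFullC E N)) ≠ 0 := by
    intro h0
    apply hs0
    rw [← hsE, coe_ttrnUp, h0, map_zero]
  refine ⟨(pE : ↥(modularFunctionFieldFullC E N)) * (sE : ↥(modularFunctionFieldFullC E N))⁻¹,
    ?_, ⟨sE, ?_, pE, ?_, ?_⟩⟩
  · rw [map_mul, map_inv₀, ← coe_ttrnUp, ← coe_ttrnUp, hsE, hpE, ← hsx]
    field_simp
  · rw [mem_ttrnDown, hsE]; exact hs
  · rw [mem_ttrnDown, hpE]; exact hp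
  · field_simp

end Frac

/-! ### the ascent -/

section Main

variable {N : ℕ} [NeZero N] {A : ValuationSubring Qb}
variable {υ : LaurentSeries ℤ} (hυ : GrdSerMem N υ)

/-- restriction of a place centred at `𝔫` is centred at `𝔫_E`. -/
theorem mrnd_centredAt (E : IntermediateField ℚ Qb) [IsDiscreteValuationRing ↥(s18dVal A E)]
    [CharZero ↥(s18dVal A E)]
    (𝔫 : Ideal ↥(grdB N A (grdQ N hυ)))
    (R : Place Qb ↥(modularFunctionFieldBar N))
    (hBR : ∀ x ∈ grdB N A (grdQ N hυ), x ∈ R.toValuationSubring)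
    (hRc : ∀ x : ↥(grdB N A (grdQ N hυ)),
      (x : ↥(modularFunctionFieldBar N)) ∈ R.toValuationSubring.nonunits → x ∈ 𝔫)
    (RE : Place E ↥(modularFunctionFieldFullC E N))
    (hRE : RE.toValuationSubring = R.toValuationSubring.comap (ssdUp E N)) :
    SsCentredAt (ttrnTE N E hυ) (ttrnDown N A E hυ 𝔫) RE := by
  refine ⟨fun p hp => ?_, fun p hp => ?_⟩
  · show p ∈ RE.toValuationSubring
    rw [hRE, ValuationSubring.mem_comap]
    exact hBR _ (ttrnUp N A E hυ ⟨p, hp⟩).2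
  · have hp' : (p : ↥(modularFunctionFieldFullC E N)) ∈ RE.toValuationSubring.nonunits := hp
    rw [hRE, ttrn_comap_nonunits] at hp'
    show p ∈ ttrnDown N A E hυ 𝔫
    rw [mem_ttrnDown]
    exact hRc _ hp'

set_option maxHeartbeats 2000000 in
/-- **(ONE-ZERO) FOR THE ℚ̄-LEVEL CHART RING** `B = grdB N A t` at a closed point lying on both
components `V1`, `V2`, for an exact pair. -/
theorem mrnd_onezero_bar {ℓ : ℕ} [Fact ℓ.Prime] (hA : A.LiesOverPrime ℓ)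
    (V1 V2 : ValuationSubring ↥(modularFunctionFieldBar N))
    (hV1 : TtrnGauss N A hυ V1) (hV2 : TtrnGauss N A hυ V2)
    (hRAT : TtrnRAT N A hυ) (hTWO : TtrnTWO N A hυ)
    (htr : ∀ E : IntermediateField ℚ Qb, Transcendental E (ttrnTE N E hυ))
    (hfd : ∀ E : IntermediateField ℚ Qb,
      FiniteDimensional E⟮ttrnTE N E hυ⟯ (modularFunctionFieldFullC E N))
    (hgerm : ∃ (E₁ : IntermediateField ℚ Qb) (_ : FiniteDimensional ℚ E₁),
      ∀ (E : IntermediateField ℚ Qb) [FiniteDimensional ℚ E] [Normal ℚ E]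
        [IsDiscreteValuationRing ↥(s18dVal A E)] [CharZero ↥(s18dVal A E)], E₁ ≤ E →
        SsGermAll N A E (ttrnTE N E hυ))
    (u₁ u₂ : ∀ E : IntermediateField ℚ Qb, ↥(modularFunctionFieldFullC E N))
    (hu₁ : ∀ E, ssdUp E N (u₁ E) ∈ V1.nonunits) (hu₂ : ∀ E, ssdUp E N (u₂ E) ∈ V2.nonunits)
    (htwo : ∀ (E : IntermediateField ℚ Qb) [FiniteDimensional ℚ E] [Normal ℚ E]
      [IsDiscreteValuationRing ↥(s18dVal A E)] [CharZero ↥(s18dVal A E)]
      (ϖ : ↥(s18dVal A E)) (hϖ : Irreducible ϖ),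
      ∃ W₁ W₂ : ValuationSubring ↥(modularFunctionFieldFullC E N),
        SsvTwo hϖ (ttrnTE N E hυ) (u₁ E) (u₂ E) W₁ W₂)
    (𝔫 : Ideal ↥(grdB N A (grdQ N hυ))) (h𝔫 : 𝔫.IsMaximal)
    (h𝔭₁ : ∀ x : ↥(grdB N A (grdQ N hυ)),
      (x : ↥(modularFunctionFieldBar N)) ∈ V1.nonunits → x ∈ 𝔫)
    (h𝔭₂ : ∀ x : ↥(grdB N A (grdQ N hυ)),
      (x : ↥(modularFunctionFieldBar N)) ∈ V2.nonunits → x ∈ 𝔫)
    -- the exact pair
    (u w : ↥(modularFunctionFieldBar N)) (κ : Qb) (hκA : κ ∈ A)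
    (hu : MrndInMax N A hυ 𝔫 u) (hw : MrndInMax N A hυ 𝔫 w)
    (huV : u ∈ V2.nonunits) (hwV : w ∈ V1.nonunits)
    (hnode : u * w = algebraMap Qb ↥(modularFunctionFieldBar N) κ)
    (hsu : ∀ c : ↥A, c ∈ maximalIdeal ↥A → ∀ a b x : ↥(modularFunctionFieldBar N),
      MrndInLoc N A hυ 𝔫 a → MrndInMax N A hυ 𝔫 b → MrndInMax N A hυ 𝔫 x →
      u ≠ a * algebraMap Qb ↥(modularFunctionFieldBar N) (c : Qb) + b * x)
    (hsw : ∀ c : ↥A, c ∈ maximalIdeal ↥A → ∀ a b x : ↥(modularFunctionFieldBar N),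
      MrndInLoc N A hυ 𝔫 a → MrndInMax N A hυ 𝔫 b → MrndInMax N A hυ 𝔫 x →
      w ≠ a * algebraMap Qb ↥(modularFunctionFieldBar N) (c : Qb) + b * x)
    -- the place
    (R : Place Qb ↥(modularFunctionFieldBar N))
    (hBR : ∀ x ∈ grdB N A (grdQ N hυ), x ∈ R.toValuationSubring)
    (hRc : ∀ x : ↥(grdB N A (grdQ N hυ)),
      (x : ↥(modularFunctionFieldBar N)) ∈ R.toValuationSubring.nonunits → x ∈ 𝔫)
    (a : Qb) (ha : GrdVal R u a) (ha0 : a ≠ 0) :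
    R.ord (u - algebraMap Qb ↥(modularFunctionFieldBar N) a) = 1 ∧
    ∀ R' : Place Qb ↥(modularFunctionFieldBar N),
      (∀ x ∈ grdB N A (grdQ N hυ), x ∈ R'.toValuationSubring) →
      (∀ x : ↥(grdB N A (grdQ N hυ)),
        (x : ↥(modularFunctionFieldBar N)) ∈ R'.toValuationSubring.nonunits → x ∈ 𝔫) →
      R' ≠ R → R'.ord (u - algebraMap Qb ↥(modularFunctionFieldBar N) a) = 0 := by
  classical
  haveI h𝔫p : 𝔫.IsPrime := h𝔫.isPrime
  -- `𝔪_A ⊆ 𝔫`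
  have hm : ∀ a : ↥A, a ∈ maximalIdeal ↥A → grdzι N A (grdQ N hυ) a ∈ 𝔫 :=
    fun a ha => h𝔭₁ _ (hV1.max_mem a ha)
  obtain ⟨E₁, hfd₁, hrat⟩ := hRAT R hBR 𝔫 h𝔫p hRc hm
  obtain ⟨E₂, hfd₂, hgermE⟩ := hgerm
  obtain ⟨E₃, hfd₃, hmodu⟩ := mrnd_exists_frac hυ 𝔫 hu
  obtain ⟨E₄, hfd₄, hmodw⟩ := mrnd_exists_frac hυ 𝔫 hw
  obtain ⟨E₅, hfd₅, hratR⟩ := ssd_exists_rational N R
  obtain ⟨E₆, hfd₆, hpin⟩ := mrnd_exists_pin N R
  haveI halg : Algebra.IsAlgebraic ℚ Qb := AlgebraicClosure.isAlgebraic ℚ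
  have hκint : IsIntegral ℚ κ := (Algebra.IsAlgebraic.isAlgebraic (R := ℚ) κ).isIntegral
  obtain ⟨E₇, hE₇⟩ : ∃ E₇ : IntermediateField ℚ Qb, E₇ = ℚ⟮κ⟯ := ⟨_, rfl⟩
  haveI hfd₇ : FiniteDimensional ℚ E₇ := by
    rw [hE₇]; exact IntermediateField.adjoin.finiteDimensional hκint
  have hκE₇ : κ ∈ E₇ := by rw [hE₇]; exact IntermediateField.mem_adjoin_simple_self ℚ κ
  haveI := hfd₁
  haveI := hfd₂
  haveI := hfd₃
  haveI := hfd₄
  haveI := hfd₅
  haveI := hfd₆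
  haveI hcl : IsAlgClosure ℚ Qb := AlgebraicClosure.instIsAlgClosure ℚ
  haveI hnormQb : Normal ℚ Qb := IsAlgClosure.normal ℚ Qb
  obtain ⟨E₀, hE₀⟩ : ∃ E₀ : IntermediateField ℚ Qb,
      E₀ = E₁ ⊔ E₂ ⊔ E₃ ⊔ E₄ ⊔ E₅ ⊔ E₆ ⊔ E₇ := ⟨_, rfl⟩
  haveI hfd₀ : FiniteDimensional ℚ E₀ := by
    rw [hE₀]
    haveI h12 : FiniteDimensional ℚ (E₁ ⊔ E₂ : IntermediateField ℚ Qb) :=
      IntermediateField.finiteDimensional_sup _ _
    haveI h123 : FiniteDimensional ℚ (E₁ ⊔ E₂ ⊔ E₃ : IntermediateField ℚ Qb) :=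
      IntermediateField.finiteDimensional_sup _ _
    haveI h1234 : FiniteDimensional ℚ (E₁ ⊔ E₂ ⊔ E₃ ⊔ E₄ : IntermediateField ℚ Qb) :=
      IntermediateField.finiteDimensional_sup _ _
    haveI h12345 : FiniteDimensional ℚ (E₁ ⊔ E₂ ⊔ E₃ ⊔ E₄ ⊔ E₅ : IntermediateField ℚ Qb) :=
      IntermediateField.finiteDimensional_sup _ _
    haveI h123456 : FiniteDimensional ℚ (E₁ ⊔ E₂ ⊔ E₃ ⊔ E₄ ⊔ E₅ ⊔ E₆ : IntermediateField ℚ Qb) :=
      IntermediateField.finiteDimensional_sup _ _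
    exact IntermediateField.finiteDimensional_sup _ _
  obtain ⟨E, hEdef⟩ : ∃ E : IntermediateField ℚ Qb, E = IntermediateField.normalClosure ℚ E₀ Qb :=
    ⟨_, rfl⟩
  have hE₀E : E₀ ≤ E := hEdef ▸ IntermediateField.le_normalClosure E₀
  haveI hEfd : FiniteDimensional ℚ E := by
    rw [hEdef]; exact normalClosure.is_finiteDimensional ℚ E₀ Qb
  haveI hEn : Normal ℚ E := by
    rw [hEdef]; exact normalClosure.normal ℚ E₀ Qb
  have hle : ∀ {X : IntermediateField ℚ Qb}, X ≤ E₀ → X ≤ E := fun h => le_trans h hE₀E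
  have hE₁E : E₁ ≤ E := hle (hE₀ ▸ (le_sup_left.trans (le_sup_left.trans (le_sup_left.trans
    (le_sup_left.trans (le_sup_left.trans le_sup_left))))))
  have hE₂E : E₂ ≤ E := hle (hE₀ ▸ (le_sup_right.trans (le_sup_left.trans (le_sup_left.trans
    (le_sup_left.trans (le_sup_left.trans le_sup_left))))))
  have hE₃E : E₃ ≤ E := hle (hE₀ ▸ (le_sup_right.trans (le_sup_left.trans
    (le_sup_left.trans (le_sup_left.trans le_sup_left)))))
  have hE₄E : E₄ ≤ E := hle (hE₀ ▸ (le_sup_right.trans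
    (le_sup_left.trans (le_sup_left.trans le_sup_left))))
  have hE₅E : E₅ ≤ E := hle (hE₀ ▸ (le_sup_right.trans (le_sup_left.trans le_sup_left)))
  have hE₆E : E₆ ≤ E := hle (hE₀ ▸ (le_sup_right.trans le_sup_left))
  have hE₇E : E₇ ≤ E := hle (hE₀ ▸ le_sup_right)
  haveI : IsDiscreteValuationRing ↥(s18dVal A E) := s18d_isDVR A E hA
  haveI : CharZero ↥(s18dVal A E) := ggn_charZero A E
  haveI := hfd E
  obtain ⟨ϖ, hϖ⟩ := IsDiscreteValuationRing.exists_irreducible ↥(s18dVal A E)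
  obtain ⟨W₁, W₂, h2⟩ := htwo E ϖ hϖ
  have e₁ : V1.comap (ssdUp E N) = W₁ := (hTWO V1 hV1 E ϖ hϖ _ _ W₁ W₂ h2).1 (hu₁ E)
  have e₂ : V2.comap (ssdUp E N) = W₂ := (hTWO V2 hV2 E ϖ hϖ _ _ W₁ W₂ h2).2 (hu₂ E)
  have two : SsgaTwo ϖ (ttrnTE N E hυ) W₁ W₂ := ssga_two_of_ssvTwo hϖ _ (htr E) h2
  obtain ⟨sep₁, sep₂⟩ := ttrn_sep_of_ssvTwo hϖ (htr E) h2
  have hres : SsResRational (ttrnTE N E hυ) (ttrnDown N A E hυ 𝔫) := hrat E hE₁E
  -- `ϖ ∈ 𝔪_A`, `ϖ ∈ 𝔫_E`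
  have hϖm : s18dIncl A E ϖ ∈ maximalIdeal ↥A := by
    rw [mem_maximalIdeal, mem_nonunits_iff]
    intro hu
    haveI := ggn_isLocalHom A E
    exact hϖ.not_isUnit (isUnit_of_map_unit (s18dIncl A E) ϖ hu)
  have hϖ𝔫 : sskPi ϖ (ttrnTE N E hυ) ∈ ttrnDown N A E hυ 𝔫 := by
    rw [mem_ttrnDown]
    have e : ttrnUp N A E hυ (sskPi ϖ (ttrnTE N E hυ)) =
        grdzι N A (grdQ N hυ) (s18dIncl A E ϖ) := by
      apply Subtype.ext
      exact grdstUp_algebraMap N A E ϖ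
    rw [e]
    exact hm _ hϖm
  have hmaxE : (ttrnDown N A E hυ 𝔫).IsMaximal :=
    ttrn_isMaximal_of_rational hϖ _ hϖ𝔫 hres
  have germ := hgermE E hE₂E ϖ hϖ (ttrnDown N A E hυ 𝔫) hmaxE hϖ𝔫 hres
  have h𝔭₁E : ∀ p : ↥(s18tInt ↥(s18dVal A E) (ttrnTE N E hυ)),
      (p : ↥(modularFunctionFieldFullC E N)) ∈ W₁.nonunits → p ∈ ttrnDown N A E hυ 𝔫 := by
    intro p hp
    rw [← e₁, ttrn_comap_nonunits] at hp
    exact h𝔭₁ (ttrnUp N A E hυ p) hp
  have h𝔭₂E : ∀ p : ↥(s18tInt ↥(s18dVal A E) (ttrnTE N E hυ)),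
      (p : ↥(modularFunctionFieldFullC E N)) ∈ W₂.nonunits → p ∈ ttrnDown N A E hυ 𝔫 := by
    intro p hp
    rw [← e₂, ttrn_comap_nonunits] at hp
    exact h𝔭₂ (ttrnUp N A E hυ p) hp
  -- the pair over `E`
  obtain ⟨uE, huE, huEmax⟩ := hmodu E hE₃E
  obtain ⟨wE, hwE, hwEmax⟩ := hmodw E hE₄E
  have huEV : uE ∈ W₂.nonunits := by
    rw [← e₂, ttrn_comap_nonunits, huE]; exact huV
  have hwEV : wE ∈ W₁.nonunits := by
    rw [← e₁, ttrn_comap_nonunits, hwE]; exact hwV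
  -- constants
  have hconst : ∀ c : ↥(s18dVal A E),
      ssdUp E N (algebraMap ↥(s18dVal A E) ↥(modularFunctionFieldFullC E N) c) =
        algebraMap Qb ↥(modularFunctionFieldBar N) ((s18dIncl A E c : ↥A) : Qb) := fun c =>
    grdstUp_algebraMap N A E c
  have hsuE : ∀ a b c : ↥(modularFunctionFieldFullC E N),
      SsInLoc (ttrnTE N E hυ) (ttrnDown N A E hυ 𝔫) a →
      SsInMax (ttrnTE N E hυ) (ttrnDown N A E hυ 𝔫) b →
      SsInMax (ttrnTE N E hυ) (ttrnDown N A E hυ 𝔫) c →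
      uE ≠ a * algebraMap ↥(s18dVal A E) ↥(modularFunctionFieldFullC E N) ϖ + b * c := by
    intro a b c ha hb hc he
    refine hsu _ hϖm (ssdUp E N a) (ssdUp E N b) (ssdUp E N c) (mrnd_inLoc_up hυ E 𝔫 ha)
      (mrnd_inMax_up hυ E 𝔫 hb) (mrnd_inMax_up hυ E 𝔫 hc) ?_
    rw [← huE, he, map_add, map_mul, map_mul, hconst]
  have hswE : ∀ a b c : ↥(modularFunctionFieldFullC E N),
      SsInLoc (ttrnTE N E hυ) (ttrnDown N A E hυ 𝔫) a →
      SsInMax (ttrnTE N E hυ) (ttrnDown N A E hυ 𝔫) b →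
      SsInMax (ttrnTE N E hυ) (ttrnDown N A E hυ 𝔫) c →
      wE ≠ a * algebraMap ↥(s18dVal A E) ↥(modularFunctionFieldFullC E N) ϖ + b * c := by
    intro a b c ha hb hc he
    refine hsw _ hϖm (ssdUp E N a) (ssdUp E N b) (ssdUp E N c) (mrnd_inLoc_up hυ E 𝔫 ha)
      (mrnd_inMax_up hυ E 𝔫 hb) (mrnd_inMax_up hυ E 𝔫 hc) ?_
    rw [← hwE, he, map_add, map_mul, map_mul, hconst]
  -- `κ` over `E`
  have hκE : κ ∈ E := hE₇E hκE₇
  set κE : ↥(s18dVal A E) := ⟨⟨κ, hκE⟩, hκA⟩ with hκEdef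
  have hnodeE : uE * wE = algebraMap ↥(s18dVal A E) ↥(modularFunctionFieldFullC E N) κE := by
    apply ssdUp_injective E N
    rw [map_mul, huE, hwE, hnode, hconst]
    rfl
  -- the place over `E`
  obtain ⟨RE, r, hr, hRE, hordR⟩ := ssd_restrict E N R
  obtain ⟨⟨π, hπ⟩, hratval⟩ := hratR E hE₅E
  have hr1 : r = 1 := by
    have h1 := hordR π
    rw [hπ] at h1
    have h2 : (r : ℤ) = 1 := Int.eq_one_of_mul_eq_one_right (by positivity) h1.symm
    exact_mod_cast h2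
  have hRr : SsRational RE := by
    intro x hx
    rw [hRE, ValuationSubring.mem_comap] at hx
    obtain ⟨c, hc⟩ := hratval x hx
    refine ⟨c, ?_⟩
    rw [hRE, ttrn_comap_nonunits, map_sub, ssdUp_algebraMap]
    exact hc
  have hRcE : SsCentredAt (ttrnTE N E hυ) (ttrnDown N A E hυ 𝔫) RE :=
    mrnd_centredAt hυ E 𝔫 R hBR hRc RE hRE
  have hR := ssl_point_of_place hϖ hϖ𝔫 RE hRr hRcE
  -- the value of `u` at `R`
  have huEloc : SsInLoc (ttrnTE N E hυ) (ttrnDown N A E hυ 𝔫) uE := huEmax.inLoc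
  set aE : ↥(s18dVal A E) := sslEv hR (⟨uE, huEloc⟩ : ↥(ssLocRing _ (ttrnDown N A E hυ 𝔫)))
    with haEdef
  have hspec := sslEv_spec hR (⟨uE, huEloc⟩ : ↥(ssLocRing _ (ttrnDown N A E hυ 𝔫)))
  have hspec' : uE - algebraMap ↥(s18dVal A E) ↥(modularFunctionFieldFullC E N) aE ∈
      RE.toValuationSubring.nonunits := (ValuationSubring.mem_nonunits_iff _).2 hspec
  have hup : ssdUp E N (uE - algebraMap ↥(s18dVal A E) ↥(modularFunctionFieldFullC E N) aE) =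
      u - algebraMap Qb ↥(modularFunctionFieldBar N) ((s18dIncl A E aE : ↥A) : Qb) := by
    rw [map_sub, huE, hconst]
  have haeq : a = ((s18dIncl A E aE : ↥A) : Qb) := by
    refine grdg_val_unique R ha ?_
    show u - algebraMap Qb ↥(modularFunctionFieldBar N) ((s18dIncl A E aE : ↥A) : Qb) ∈
      R.toValuationSubring.nonunits
    rw [← hup, ← ttrn_comap_nonunits, ← hRE]
    exact hspec'
  have haE0 : aE ≠ 0 := by
    intro h0
    apply ha0
    rw [haeq, h0, map_zero]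
    rfl
  obtain ⟨hunif, huniq⟩ := mrne_onezero_nf hϖ (htr E) hϖ𝔫 two h𝔭₁E h𝔭₂E sep₁ sep₂
    (ssInertiaE E N A) germ uE wE huEmax hwEmax huEV hwEV hsuE hswE κE hnodeE hR aE hspec haE0
  have hfO : SsInLoc (ttrnTE N E hυ) (ttrnDown N A E hυ 𝔫)
      (uE - algebraMap ↥(s18dVal A E) ↥(modularFunctionFieldFullC E N) aE) :=
    Subring.sub_mem (ssLocRing _ (ttrnDown N A E hυ 𝔫)) huEloc
      (ssl_int_le_locRing _ _ (s18tc_algebraMap_mem_int _ aE))
  rw [haeq, ← hup]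
  refine ⟨?_, fun R' hBR' hRc' hne => ?_⟩
  · rw [hordR, hr1, ssl_ord_of_isUnif RE hunif]
    norm_num
  · obtain ⟨RE', r', hr', hRE', hordR'⟩ := ssd_restrict E N R'
    have hR'cE : SsCentredAt (ttrnTE N E hυ) (ttrnDown N A E hυ 𝔫) RE' :=
      mrnd_centredAt hυ E 𝔫 R' hBR' hRc' RE' hRE'
    have hR'c' : SsCentred (ttrnTE N E hυ) (ttrnDown N A E hυ 𝔫) RE'.toValuationSubring :=
      ⟨hR'cE.1, fun p hp => hR'cE.2 hp⟩
    have hneE : RE'.toValuationSubring ≠ RE.toValuationSubring := by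
      intro heq
      apply hne
      apply hpin E hE₆E R'
      rw [← hRE', ← hRE, heq]
    have h0 : RE'.ord (uE - algebraMap ↥(s18dVal A E) ↥(modularFunctionFieldFullC E N) aE) = 0 := by
      apply ssl_ord_of_val_one
      apply le_antisymm
        ((RE'.toValuationSubring.valuation_le_one_iff _).mpr (ssl_locRing_le _ _ hR'c' hfO))
      by_contra h
      push Not at h
      exact hneE (huniq _ (ssl_place_isPlace RE') hR'c' h)
    rw [hordR', h0, mul_zero]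

end Main

end Fermat.Agent.MR
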