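import Mathlib
import Fermat.Agent.MR.Node.Descend
import Fermat.Agent.TT.Red2.NodeInst

/-!
# PROGRAM MR (S44), block `mrn`, (ONE-ZERO) : THE ASCENT INSTANTIATED FOR THE CHART `j`
(prefix `mrnd`)

`mrnd_onezero_j` : `mrnd_onezero_bar` for `B = grdB (M q) A j`, `q ≥ 5`, with the three sub-leaves
and the germ / two-valuation inputs discharged exactly as in main's `ttrn_T_j`
(`TT/Red2/NodeInst.lean`).  The two valuation rings `V1`, `V2` stay abstract (`TtrnGauss` + (HV4)).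
-/

set_option autoImplicit false
set_option linter.unusedSectionVars false
set_option linter.unusedVariables false
set_option linter.style.haveILetI false
set_option synthInstance.maxHeartbeats 400000

noncomputable section

namespace Fermat.Agent.MR

open ModularCurve AlgebraicCurve IsLocalRing Polynomial IntermediateField Fermat.Agent.S18
  Fermat.Agent.S24 Fermat.Agent.G Fermat.Agent.SS Fermat.Agent.TT

local notation "Qb" => AlgebraicClosure ℚ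

variable (M : ℕ) [NeZero M] (q : ℕ) [Fact q.Prime] [NeZero q]

/-- **(ONE-ZERO) for the chart `j` at level `M q`, `q ≥ 5`**, abstract in `V1`, `V2`. -/
theorem mrnd_onezero_j (hqM : ¬ q ∣ M) (h5 : 5 ≤ q) (A : ValuationSubring Qb)
    (hA : A.LiesOverPrime q)
    (V1 V2 : ValuationSubring ↥(modularFunctionFieldBar (M * q)))
    (hV1 : TtrnGauss (M * q) A (grdi_mem_j (M * q)) V1)
    (hV2 : TtrnGauss (M * q) A (grdi_mem_j (M * q)) V2)
    (hu₁ : ∀ E : IntermediateField ℚ Qb,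
      ssdUp E (M * q) (ssvmmY E M q - ssvmdJ E (M * q) ^ q) ∈ V1.nonunits)
    (hu₂ : ∀ E : IntermediateField ℚ Qb,
      ssdUp E (M * q) (ssvmmY E M q ^ q - ssvmdJ E (M * q)) ∈ V2.nonunits)
    (𝔫 : Ideal ↥(grdB (M * q) A (grdQ (M * q) (grdi_mem_j (M * q))))) (h𝔫 : 𝔫.IsMaximal)
    (h𝔭₁ : ∀ x : ↥(grdB (M * q) A (grdQ (M * q) (grdi_mem_j (M * q)))),
      (x : ↥(modularFunctionFieldBar (M * q))) ∈ V1.nonunits → x ∈ 𝔫)
    (h𝔭₂ : ∀ x : ↥(grdB (M * q) A (grdQ (M * q) (grdi_mem_j (M * q)))),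
      (x : ↥(modularFunctionFieldBar (M * q))) ∈ V2.nonunits → x ∈ 𝔫)
    (u w : ↥(modularFunctionFieldBar (M * q))) (κ : Qb) (hκA : κ ∈ A)
    (hu : MrndInMax (M * q) A (grdi_mem_j (M * q)) 𝔫 u)
    (hw : MrndInMax (M * q) A (grdi_mem_j (M * q)) 𝔫 w)
    (huV : u ∈ V2.nonunits) (hwV : w ∈ V1.nonunits)
    (hnode : u * w = algebraMap Qb ↥(modularFunctionFieldBar (M * q)) κ)
    (hsu : ∀ c : ↥A, c ∈ maximalIdeal ↥A → ∀ a b x : ↥(modularFunctionFieldBar (M * q)),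
      MrndInLoc (M * q) A (grdi_mem_j (M * q)) 𝔫 a →
      MrndInMax (M * q) A (grdi_mem_j (M * q)) 𝔫 b →
      MrndInMax (M * q) A (grdi_mem_j (M * q)) 𝔫 x →
      u ≠ a * algebraMap Qb ↥(modularFunctionFieldBar (M * q)) (c : Qb) + b * x)
    (hsw : ∀ c : ↥A, c ∈ maximalIdeal ↥A → ∀ a b x : ↥(modularFunctionFieldBar (M * q)),
      MrndInLoc (M * q) A (grdi_mem_j (M * q)) 𝔫 a →
      MrndInMax (M * q) A (grdi_mem_j (M * q)) 𝔫 b →
      MrndInMax (M * q) A (grdi_mem_j (M * q)) 𝔫 x →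
      w ≠ a * algebraMap Qb ↥(modularFunctionFieldBar (M * q)) (c : Qb) + b * x)
    (R : Place Qb ↥(modularFunctionFieldBar (M * q)))
    (hBR : ∀ x ∈ grdB (M * q) A (grdQ (M * q) (grdi_mem_j (M * q))), x ∈ R.toValuationSubring)
    (hRc : ∀ x : ↥(grdB (M * q) A (grdQ (M * q) (grdi_mem_j (M * q)))),
      (x : ↥(modularFunctionFieldBar (M * q))) ∈ R.toValuationSubring.nonunits → x ∈ 𝔫)
    (a : Qb) (ha : GrdVal R u a) (ha0 : a ≠ 0) :
    R.ord (u - algebraMap Qb ↥(modularFunctionFieldBar (M * q)) a) = 1 ∧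
    ∀ R' : Place Qb ↥(modularFunctionFieldBar (M * q)),
      (∀ x ∈ grdB (M * q) A (grdQ (M * q) (grdi_mem_j (M * q))), x ∈ R'.toValuationSubring) →
      (∀ x : ↥(grdB (M * q) A (grdQ (M * q) (grdi_mem_j (M * q)))),
        (x : ↥(modularFunctionFieldBar (M * q))) ∈ R'.toValuationSubring.nonunits → x ∈ 𝔫) →
      R' ≠ R → R'.ord (u - algebraMap Qb ↥(modularFunctionFieldBar (M * q)) a) = 0 := by
  have hmem := grdi_mem_j (M * q)
  refine mrnd_onezero_bar hmem hA V1 V2 hV1 hV2 (ttrn_RAT (M * q) A hmem) (ttrn_TWO (M * q) A hmem)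
    (fun E => ?_) (fun E => ?_) ?_
    (fun E => ssvmmY E M q - ssvmdJ E (M * q) ^ q) (fun E => ssvmmY E M q ^ q - ssvmdJ E (M * q))
    hu₁ hu₂ ?_ 𝔫 h𝔫 h𝔭₁ h𝔭₂ u w κ hκA hu hw huV hwV hnode hsu hsw R hBR hRc a ha ha0
  · rw [ttrn_TE_j]
    exact ssd_transcendental_j E (M * q)
  · rw [ttrn_TE_j]
    exact ssd_finiteDimensional_j E (M * q)
  · obtain ⟨E₁, hfd₁, hE₁⟩ := ss_germJ M q hqM h5 A hA
    refine ⟨E₁, hfd₁, ?_⟩
    intro E _ _ _ _ hE
    rw [ttrn_TE_j]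
    exact (hE₁ E hE).1
  · intro E _ _ _ _ ϖ hϖ
    obtain ⟨Ξ, G, h, h2⟩ := ssgms_two_j A E M hA hqM ϖ hϖ
    rw [ttrn_TE_j]
    exact ⟨h.V₁, h.V₂, h2⟩

end Fermat.Agent.MR
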