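import Mathlib
import Fermat.Agent.MR.Node.Cmp
import Fermat.Agent.MR.Node.DescendJ
import Fermat.Agent.TT.Red2.NodeGauss
import Fermat.Agent.TT.Red2.NodeHV4

/-!
# PROGRAM MR (S44), block `mrn` : **(ONE-ZERO) AT THE NODES, CLOSED** (`p ≥ 5`, chart `j`)

`mrn_oneZero_j : MrnOneZeroSpec M A hpM hA hat` for every atlas `hat : GrdAtlas M A j σ'`, `5 ≤ p`.

The dictionary (prefix `mrno`) between the node `i : ttrkS` and the closed point
`𝔫_i = {b ∈ B | (red₁ b)(ν₁ i) = 0}` of the `α`-chart ring `B = grdB (M p) A (α j)`: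

* `mrnoN`, `mrno_isMaximal`, `mrno_p₁`, `mrno_p₂` : `𝔫_i` is a closed point lying on both components;
* `mrno_cen` : a place centred at the node `i` (`ttruCenS`) is centred at `𝔫_i`;
* `mrno_inMax` : an element of `O_s` vanishing at the node lies in `𝔫_i B_{𝔫_i}`;
* `mrno_inOs_of_inLoc`, `mrno_inMax_val` : the converse;
* `mrno_simple₁`, `mrno_simple₂` : a function of `O_s` whose reduction has a SIMPLE zero at the branch
  is not in `𝔪_A B_𝔫 + (𝔫 B_𝔫)²`;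

and the assembly on `mrnd_onezero_j` (ascent) and `mrnc_oneZero_of_a1` (the remaining clauses).
-/

set_option autoImplicit false
set_option linter.unusedSectionVars false
set_option linter.unusedVariables false
set_option linter.style.haveILetI false
set_option synthInstance.maxHeartbeats 400000

noncomputable section

namespace Fermat.Agent.MR

open Polynomial ModularCurve AlgebraicCurve IsLocalRing IntermediateField
  Fermat.Agent.G Fermat.Agent.S18 Fermat.Agent.S24 Fermat.Agent.FF Fermat.Agent.TT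
  Fermat.Agent.SS

local notation "Qb" => AlgebraicClosure ℚ

variable (M : ℕ) [NeZero M] {p : ℕ} [Fact p.Prime] [NeZero p]
variable (A : ValuationSubring Qb) (hpM : ¬ p ∣ M) (hA : A.LiesOverPrime p)
variable {τ τ' : LaurentSeries ℤ} (hat : GrdAtlas M A τ τ')

/-! ### the closed point under a node -/

/-- the closed point `𝔫_i` of the `α`-chart ring under the node `i`. -/
def mrnoN (i : ttrkS M p A hpM hA hat) :
    Ideal ↥(grdB (M * p) A (heckeAlphaBar Qb M p (grdQ M hat.c.mem))) :=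
  ttruIdeal (A := A) (ttrglO2 M A hpM hA) _ (ttru_le_inst M A hpM hA hat.c)
    (ttrglRed₁ M A hpM hA) (ttrkSν₁ M p A hpM hA hat i)
    (ttru_reg_of_pair (A := A) _ _ (ttru_le_inst M A hpM hA hat.c) (ttrglRed₁ M A hpM hA)
      (ttrglRed₂ M A hpM hA) _ (ttrkSν₂ M p A hpM hA hat i) (ttru_hpair_S M A hpM hA hat i))

variable {M A hpM hA hat}

theorem mem_mrnoN (i : ttrkS M p A hpM hA hat)
    (b : ↥(grdB (M * p) A (heckeAlphaBar Qb M p (grdQ M hat.c.mem)))) :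
    b ∈ mrnoN M A hpM hA hat i ↔
      GrdVal (ttrkSν₁ M p A hpM hA hat i)
        (ttrglRed₁ M A hpM hA ⟨b, ttru_le_inst M A hpM hA hat.c b.2⟩) 0 := Iff.rfl

/-- the elements of the chart ring lie in `O_s`. -/
theorem mrno_B_inOs (i : ttrkS M p A hpM hA hat) {b : ↥(modularFunctionFieldBar (M * p))}
    (hb : b ∈ grdB (M * p) A (heckeAlphaBar Qb M p (grdQ M hat.c.mem))) :
    MrnInOs M A hpM hA hat i b :=
  ⟨ttru_le_inst M A hpM hA hat.c hb, fun v hv => by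
    obtain ⟨⟨a, ha⟩, -⟩ := hv
    exact ttrli_breg (M * p) A _ b hb v (grdg_val_mem v ha)⟩

/-- the common value at the node of an element of `O_s`. -/
theorem mrno_val (i : ttrkS M p A hpM hA hat) {x : ↥(modularFunctionFieldBar (M * p))}
    (hx : MrnInOs M A hpM hA hat i x) :
    ∃ c : ResidueField A,
      GrdVal (ttrkSν₁ M p A hpM hA hat i) (ttrglRed₁ M A hpM hA ⟨x, hx.1⟩) c ∧
      GrdVal (ttrkSν₂ M p A hpM hA hat i) (ttrglRed₂ M A hpM hA ⟨x, hx.1⟩) c := by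
  obtain ⟨c, h1, h2, -⟩ := mrn_glue M A hpM hA hat i x hx.1 hx.2
  exact ⟨c, h1, h2⟩

/-- vanishing at the first branch ⟹ vanishing at the second one. -/
theorem mrno_val₂_zero (i : ttrkS M p A hpM hA hat) {x : ↥(modularFunctionFieldBar (M * p))}
    (hx : MrnInOs M A hpM hA hat i x)
    (h0 : GrdVal (ttrkSν₁ M p A hpM hA hat i) (ttrglRed₁ M A hpM hA ⟨x, hx.1⟩) 0) :
    GrdVal (ttrkSν₂ M p A hpM hA hat i) (ttrglRed₂ M A hpM hA ⟨x, hx.1⟩) 0 := by
  obtain ⟨c, h1, h2⟩ := mrno_val i hx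
  rwa [grdg_val_unique _ h1 h0] at h2

/-- vanishing at the second branch ⟹ vanishing at the first one. -/
theorem mrno_val₁_zero (i : ttrkS M p A hpM hA hat) {x : ↥(modularFunctionFieldBar (M * p))}
    (hx : MrnInOs M A hpM hA hat i x)
    (h0 : GrdVal (ttrkSν₂ M p A hpM hA hat i) (ttrglRed₂ M A hpM hA ⟨x, hx.1⟩) 0) :
    GrdVal (ttrkSν₁ M p A hpM hA hat i) (ttrglRed₁ M A hpM hA ⟨x, hx.1⟩) 0 := by
  obtain ⟨c, h1, h2⟩ := mrno_val i hx
  rwa [grdg_val_unique _ h2 h0] at h1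

/-- `𝔫_i` is a closed point. -/
theorem mrno_isMaximal (i : ttrkS M p A hpM hA hat) : (mrnoN M A hpM hA hat i).IsMaximal := by
  rw [Ideal.isMaximal_iff]
  refine ⟨?_, ?_⟩
  · rw [mem_mrnoN]
    have e : (⟨((1 : ↥(grdB (M * p) A (heckeAlphaBar Qb M p (grdQ M hat.c.mem)))) :
        ↥(modularFunctionFieldBar (M * p))), ttru_le_inst M A hpM hA hat.c (1 : ↥(grdB (M * p) A
          (heckeAlphaBar Qb M p (grdQ M hat.c.mem)))).2⟩ : ↥(ttrglO2 M A hpM hA)) = 1 := rfl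
    rw [e, map_one]
    intro h
    exact one_ne_zero (grdg_val_unique _ (ttru_val_one _) h)
  · intro J x hJ hx hxJ
    obtain ⟨c, hc, -⟩ := ttru_hpair_S M A hpM hA hat i x
    have hc0 : c ≠ 0 := by
      intro h
      apply hx
      rw [mem_mrnoN]
      rw [h] at hc
      exact hc
    obtain ⟨a, rfl⟩ := residue_surjective c
    have hau : IsUnit a := by
      by_contra h
      exact hc0 ((residue_eq_zero_iff _).2 ((mem_maximalIdeal _).2 h))
    obtain ⟨a', ha'⟩ := hau.exists_right_inv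
    set ca' : ↥(grdB (M * p) A (heckeAlphaBar Qb M p (grdQ M hat.c.mem))) :=
      ⟨algebraMap Qb ↥(modularFunctionFieldBar (M * p)) (a' : Qb), ttrli_const (M * p) A _ a'⟩
      with hca'
    have hy : x * ca' - 1 ∈ mrnoN M A hpM hA hat i := by
      rw [mem_mrnoN]
      have e : (⟨((x * ca' - 1 : ↥(grdB (M * p) A (heckeAlphaBar Qb M p (grdQ M hat.c.mem)))) :
          ↥(modularFunctionFieldBar (M * p))), ttru_le_inst M A hpM hA hat.c (x * ca' - 1).2⟩ :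
          ↥(ttrglO2 M A hpM hA)) =
          ⟨x, ttru_le_inst M A hpM hA hat.c x.2⟩ *
            ⟨algebraMap Qb ↥(modularFunctionFieldBar (M * p)) (a' : Qb),
              ttru_le_inst M A hpM hA hat.c ca'.2⟩ - 1 := rfl
      rw [e, map_sub, map_mul, map_one, ttru_redc₁_inst M A hpM hA a']
      have h1 := grdg_val_mul _ hc (grdg_val_algebraMap (ttrkSν₁ M p A hpM hA hat i) (residue A a'))
      have h2 := ttri_val_sub _ h1 (ttru_val_one (ttrkSν₁ M p A hpM hA hat i))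
      rwa [← map_mul, ha', map_one, sub_self] at h2
    have e1 : (1 : ↥(grdB (M * p) A (heckeAlphaBar Qb M p (grdQ M hat.c.mem)))) =
        x * ca' - (x * ca' - 1) := by ring
    rw [e1]
    exact J.sub_mem (J.mul_mem_right _ hxJ) (hJ hy)

/-- `𝔫_i` lies on the first component. -/
theorem mrno_p₁ (i : ttrkS M p A hpM hA hat)
    (x : ↥(grdB (M * p) A (heckeAlphaBar Qb M p (grdQ M hat.c.mem))))
    (hx : (x : ↥(modularFunctionFieldBar (M * p))) ∈ (ttrV1 M A hpM hA).nonunits) :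
    x ∈ mrnoN M A hpM hA hat i := by
  rw [mem_mrnoN, mrnc_red₁_eq_zero (ttru_le_inst M A hpM hA hat.c x.2) hx]
  exact (grdg_val_zero_iff _ 0).2 (zero_mem _)

/-- `𝔫_i` lies on the second component. -/
theorem mrno_p₂ (i : ttrkS M p A hpM hA hat)
    (x : ↥(grdB (M * p) A (heckeAlphaBar Qb M p (grdQ M hat.c.mem))))
    (hx : (x : ↥(modularFunctionFieldBar (M * p))) ∈ (ttraV2 M A hpM hA).nonunits) :
    x ∈ mrnoN M A hpM hA hat i := by
  rw [mem_mrnoN]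
  apply mrno_val₁_zero i (mrno_B_inOs i x.2)
  rw [mrnc_red₂_eq_zero (ttru_le_inst M A hpM hA hat.c x.2) hx]
  exact (grdg_val_zero_iff _ 0).2 (zero_mem _)

/-- a place centred at the node `i` is centred at `𝔫_i`. -/
theorem mrno_cen (i : ttrkS M p A hpM hA hat)
    (R : Place Qb ↥(modularFunctionFieldBar (M * p))) (hR : ttruCenS M A hpM hA hat i R) :
    (∀ x ∈ grdB (M * p) A (heckeAlphaBar Qb M p (grdQ M hat.c.mem)), x ∈ R.toValuationSubring) ∧
    ∀ x : ↥(grdB (M * p) A (heckeAlphaBar Qb M p (grdQ M hat.c.mem))),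
      (x : ↥(modularFunctionFieldBar (M * p))) ∈ R.toValuationSubring.nonunits →
        x ∈ mrnoN M A hpM hA hat i := by
  refine ⟨fun x hx => (mrno_B_inOs i hx).2 R hR, fun x hx => ?_⟩
  have hxs := mrno_B_inOs i x.2
  obtain ⟨c, hc₁, -, hval⟩ := mrn_glue M A hpM hA hat i x hxs.1 hxs.2
  obtain ⟨a, hav, har⟩ := hval R hR
  have h0 : (a : Qb) = 0 := grdg_val_unique R hav ((grdg_val_zero_iff R _).2 hx)
  have ha0 : a = 0 := Subtype.ext h0
  rw [ha0, map_zero] at har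
  rw [mem_mrnoN, har]
  exact hc₁

/-! ### fractions -/

/-- an element of `O_s` vanishing at the node lies in `𝔫_i B_{𝔫_i}`. -/
theorem mrno_inMax (i : ttrkS M p A hpM hA hat) {x : ↥(modularFunctionFieldBar (M * p))}
    (hx : MrnInOs M A hpM hA hat i x)
    (h0 : GrdVal (ttrkSν₁ M p A hpM hA hat i) (ttrglRed₁ M A hpM hA ⟨x, hx.1⟩) 0) :
    ∃ s : ↥(grdB (M * p) A (heckeAlphaBar Qb M p (grdQ M hat.c.mem))),
      s ∉ mrnoN M A hpM hA hat i ∧
      ∃ q : ↥(grdB (M * p) A (heckeAlphaBar Qb M p (grdQ M hat.c.mem))),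
        q ∈ mrnoN M A hpM hA hat i ∧
        (s : ↥(modularFunctionFieldBar (M * p))) * x = (q : ↥(modularFunctionFieldBar (M * p))) := by
  obtain ⟨s, hs, hsx⟩ := mrng_loc_S M A hpM hA hat i x hx.1 hx.2
  refine ⟨s, hs, ⟨_, hsx⟩, ?_, rfl⟩
  rw [mem_mrnoN]
  obtain ⟨c, hc, -⟩ := ttru_hpair_S M A hpM hA hat i s
  have h1 := grdg_val_mul _ hc h0
  rw [mul_zero] at h1
  have e := mrnc_red₁_mul (ttru_le_inst M A hpM hA hat.c s.2) hx.1
    (ttru_le_inst M A hpM hA hat.c hsx)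
  rw [e]
  exact h1

/-- `B_{𝔫_i} ⊆ O_s`. -/
theorem mrno_inOs_of_inLoc (i : ttrkS M p A hpM hA hat) {a : ↥(modularFunctionFieldBar (M * p))}
    (ha : ∃ s : ↥(grdB (M * p) A (heckeAlphaBar Qb M p (grdQ M hat.c.mem))),
      s ∉ mrnoN M A hpM hA hat i ∧ (s : ↥(modularFunctionFieldBar (M * p))) * a ∈
        grdB (M * p) A (heckeAlphaBar Qb M p (grdQ M hat.c.mem))) :
    MrnInOs M A hpM hA hat i a := by
  obtain ⟨s, hs, hsa⟩ := ha
  have hss := mrno_B_inOs i s.2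
  have hsinv : MrnInOs M A hpM hA hat i (s : ↥(modularFunctionFieldBar (M * p)))⁻¹ :=
    mrn_unit M A hpM hA hat i s hss hs
  have hs0 : (s : ↥(modularFunctionFieldBar (M * p))) ≠ 0 := by
    intro h0
    apply hs
    have : s = 0 := Subtype.ext h0
    rw [this]
    exact Ideal.zero_mem _
  have e : a = (s : ↥(modularFunctionFieldBar (M * p)))⁻¹ *
      ((s : ↥(modularFunctionFieldBar (M * p))) * a) := by
    rw [← mul_assoc, inv_mul_cancel₀ hs0, one_mul]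
  rw [e]
  exact hsinv.mul (mrno_B_inOs i hsa)

/-- an element of `𝔫_i B_{𝔫_i}` lies in `O_s` and vanishes at the node. -/
theorem mrno_inMax_val (i : ttrkS M p A hpM hA hat) {b : ↥(modularFunctionFieldBar (M * p))}
    (hb : ∃ s : ↥(grdB (M * p) A (heckeAlphaBar Qb M p (grdQ M hat.c.mem))),
      s ∉ mrnoN M A hpM hA hat i ∧
      ∃ q : ↥(grdB (M * p) A (heckeAlphaBar Qb M p (grdQ M hat.c.mem))),
        q ∈ mrnoN M A hpM hA hat i ∧
        (s : ↥(modularFunctionFieldBar (M * p))) * b = (q : ↥(modularFunctionFieldBar (M * p)))) :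
    ∃ hbs : MrnInOs M A hpM hA hat i b,
      GrdVal (ttrkSν₁ M p A hpM hA hat i) (ttrglRed₁ M A hpM hA ⟨b, hbs.1⟩) 0 := by
  obtain ⟨s, hs, q, hq, hsb⟩ := hb
  have hbs : MrnInOs M A hpM hA hat i b :=
    mrno_inOs_of_inLoc i ⟨s, hs, by rw [hsb]; exact q.2⟩
  refine ⟨hbs, ?_⟩
  have hss := mrno_B_inOs i s.2
  obtain ⟨cb, hcb, -⟩ := mrno_val i hbs
  obtain ⟨cs, hcs, -⟩ := mrno_val i hss
  have hcs0 : cs ≠ 0 := by
    intro h
    apply hs
    rw [mem_mrnoN]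
    rw [h] at hcs
    exact hcs
  have h1 := grdg_val_mul _ hcs hcb
  have hsbO : (s : ↥(modularFunctionFieldBar (M * p))) * b ∈ ttrglO2 M A hpM hA := by
    rw [hsb]; exact ttru_le_inst M A hpM hA hat.c q.2
  rw [← mrnc_red₁_mul hss.1 hbs.1 hsbO] at h1
  have e : (⟨(s : ↥(modularFunctionFieldBar (M * p))) * b, hsbO⟩ : ↥(ttrglO2 M A hpM hA)) =
      ⟨q, ttru_le_inst M A hpM hA hat.c q.2⟩ := Subtype.ext hsb
  rw [e] at h1
  have h2 : cs * cb = 0 := grdg_val_unique _ h1 ((mem_mrnoN i q).1 hq)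
  have hcb0 : cb = 0 := (mul_eq_zero.1 h2).resolve_left hcs0
  rwa [hcb0] at hcb

/-! ### simple zeros -/

/-- a function of `O_s` whose first reduction has a SIMPLE zero at the branch `ν₁ i` is not in
`𝔪_A B_𝔫 + (𝔫 B_𝔫)²`. -/
theorem mrno_simple₁ (i : ttrkS M p A hpM hA hat) {f : ↥(modularFunctionFieldBar (M * p))}
    (hf : MrnInOs M A hpM hA hat i f)
    (hord : (ttrkSν₁ M p A hpM hA hat i).ord (ttrglRed₁ M A hpM hA ⟨f, hf.1⟩) = 1) :
    ∀ c : ↥A, c ∈ maximalIdeal ↥A → ∀ a b x : ↥(modularFunctionFieldBar (M * p)),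
      (∃ s : ↥(grdB (M * p) A (heckeAlphaBar Qb M p (grdQ M hat.c.mem))),
        s ∉ mrnoN M A hpM hA hat i ∧ (s : ↥(modularFunctionFieldBar (M * p))) * a ∈
          grdB (M * p) A (heckeAlphaBar Qb M p (grdQ M hat.c.mem))) →
      (∃ s : ↥(grdB (M * p) A (heckeAlphaBar Qb M p (grdQ M hat.c.mem))),
        s ∉ mrnoN M A hpM hA hat i ∧
        ∃ q : ↥(grdB (M * p) A (heckeAlphaBar Qb M p (grdQ M hat.c.mem))),
          q ∈ mrnoN M A hpM hA hat i ∧
          (s : ↥(modularFunctionFieldBar (M * p))) * b = (q : ↥(modularFunctionFieldBar (M * p)))) →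
      (∃ s : ↥(grdB (M * p) A (heckeAlphaBar Qb M p (grdQ M hat.c.mem))),
        s ∉ mrnoN M A hpM hA hat i ∧
        ∃ q : ↥(grdB (M * p) A (heckeAlphaBar Qb M p (grdQ M hat.c.mem))),
          q ∈ mrnoN M A hpM hA hat i ∧
          (s : ↥(modularFunctionFieldBar (M * p))) * x = (q : ↥(modularFunctionFieldBar (M * p)))) →
      f ≠ a * algebraMap Qb ↥(modularFunctionFieldBar (M * p)) (c : Qb) + b * x := by
  intro c hc a b x ha hb hx he
  have has := mrno_inOs_of_inLoc i ha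
  obtain ⟨hbs, hb0⟩ := mrno_inMax_val i hb
  obtain ⟨hxs, hx0⟩ := mrno_inMax_val i hx
  have hcs : MrnInOs M A hpM hA hat i (algebraMap Qb ↥(modularFunctionFieldBar (M * p)) (c : Qb)) :=
    mrnInOs_const i c
  have h1 := has.mul hcs
  have h2 := hbs.mul hxs
  have hsum := h1.add h2
  have e : ttrglRed₁ M A hpM hA ⟨f, hf.1⟩ =
      ttrglRed₁ M A hpM hA ⟨b, hbs.1⟩ * ttrglRed₁ M A hpM hA ⟨x, hxs.1⟩ := by
    have e0 : (⟨f, hf.1⟩ : ↥(ttrglO2 M A hpM hA)) =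
        ⟨a * algebraMap Qb ↥(modularFunctionFieldBar (M * p)) (c : Qb), h1.1⟩ +
          ⟨b * x, h2.1⟩ := Subtype.ext he
    rw [e0, map_add, mrnc_red₁_mul has.1 hcs.1 h1.1, mrnc_red₁_mul hbs.1 hxs.1 h2.1,
      mrnc_red₁_eq_zero hcs.1 (mrnc_const_nu₁ M A hpM hA c hc), mul_zero, zero_add]
  rw [e] at hord
  rcases eq_or_ne (ttrglRed₁ M A hpM hA ⟨b, hbs.1⟩) 0 with hβ | hβ
  · rw [hβ, zero_mul, Place.ord_zero] at hord
    exact absurd hord (by norm_num)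
  rcases eq_or_ne (ttrglRed₁ M A hpM hA ⟨x, hxs.1⟩) 0 with hξ | hξ
  · rw [hξ, mul_zero, Place.ord_zero] at hord
    exact absurd hord (by norm_num)
  rw [Place.ord_mul _ hβ hξ] at hord
  have h3 := (grdg_val_zero_iff_ord _ hβ).1 hb0
  have h4 := (grdg_val_zero_iff_ord _ hξ).1 hx0
  omega

/-- the same on the second branch. -/
theorem mrno_simple₂ (i : ttrkS M p A hpM hA hat) {f : ↥(modularFunctionFieldBar (M * p))}
    (hf : MrnInOs M A hpM hA hat i f)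
    (hord : (ttrkSν₂ M p A hpM hA hat i).ord (ttrglRed₂ M A hpM hA ⟨f, hf.1⟩) = 1) :
    ∀ c : ↥A, c ∈ maximalIdeal ↥A → ∀ a b x : ↥(modularFunctionFieldBar (M * p)),
      (∃ s : ↥(grdB (M * p) A (heckeAlphaBar Qb M p (grdQ M hat.c.mem))),
        s ∉ mrnoN M A hpM hA hat i ∧ (s : ↥(modularFunctionFieldBar (M * p))) * a ∈
          grdB (M * p) A (heckeAlphaBar Qb M p (grdQ M hat.c.mem))) →
      (∃ s : ↥(grdB (M * p) A (heckeAlphaBar Qb M p (grdQ M hat.c.mem))),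
        s ∉ mrnoN M A hpM hA hat i ∧
        ∃ q : ↥(grdB (M * p) A (heckeAlphaBar Qb M p (grdQ M hat.c.mem))),
          q ∈ mrnoN M A hpM hA hat i ∧
          (s : ↥(modularFunctionFieldBar (M * p))) * b = (q : ↥(modularFunctionFieldBar (M * p)))) →
      (∃ s : ↥(grdB (M * p) A (heckeAlphaBar Qb M p (grdQ M hat.c.mem))),
        s ∉ mrnoN M A hpM hA hat i ∧
        ∃ q : ↥(grdB (M * p) A (heckeAlphaBar Qb M p (grdQ M hat.c.mem))),
          q ∈ mrnoN M A hpM hA hat i ∧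
          (s : ↥(modularFunctionFieldBar (M * p))) * x = (q : ↥(modularFunctionFieldBar (M * p)))) →
      f ≠ a * algebraMap Qb ↥(modularFunctionFieldBar (M * p)) (c : Qb) + b * x := by
  intro c hc a b x ha hb hx he
  have has := mrno_inOs_of_inLoc i ha
  obtain ⟨hbs, hb0'⟩ := mrno_inMax_val i hb
  obtain ⟨hxs, hx0'⟩ := mrno_inMax_val i hx
  have hb0 := mrno_val₂_zero i hbs hb0'
  have hx0 := mrno_val₂_zero i hxs hx0'
  have hcs : MrnInOs M A hpM hA hat i (algebraMap Qb ↥(modularFunctionFieldBar (M * p)) (c : Qb)) :=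
    mrnInOs_const i c
  have h1 := has.mul hcs
  have h2 := hbs.mul hxs
  have hsum := h1.add h2
  have e : ttrglRed₂ M A hpM hA ⟨f, hf.1⟩ =
      ttrglRed₂ M A hpM hA ⟨b, hbs.1⟩ * ttrglRed₂ M A hpM hA ⟨x, hxs.1⟩ := by
    have e0 : (⟨f, hf.1⟩ : ↥(ttrglO2 M A hpM hA)) =
        ⟨a * algebraMap Qb ↥(modularFunctionFieldBar (M * p)) (c : Qb), h1.1⟩ +
          ⟨b * x, h2.1⟩ := Subtype.ext he
    rw [e0, map_add, mrnc_red₂_mul has.1 hcs.1 h1.1, mrnc_red₂_mul hbs.1 hxs.1 h2.1,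
      mrnc_red₂_eq_zero hcs.1 (mrnc_const_nu₂ M A hpM hA c hc), mul_zero, zero_add]
  rw [e] at hord
  rcases eq_or_ne (ttrglRed₂ M A hpM hA ⟨b, hbs.1⟩) 0 with hβ | hβ
  · rw [hβ, zero_mul, Place.ord_zero] at hord
    exact absurd hord (by norm_num)
  rcases eq_or_ne (ttrglRed₂ M A hpM hA ⟨x, hxs.1⟩) 0 with hξ | hξ
  · rw [hξ, mul_zero, Place.ord_zero] at hord
    exact absurd hord (by norm_num)
  rw [Place.ord_mul _ hβ hξ] at hord
  have h3 := (grdg_val_zero_iff_ord _ hβ).1 hb0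
  have h4 := (grdg_val_zero_iff_ord _ hξ).1 hx0
  omega

/-! ### the assembly -/

variable (M A hpM hA)

set_option maxHeartbeats 1000000 in
/-- **(ONE-ZERO) AT THE NODES, CLOSED** (`p ≥ 5`, the `j`-atlas). -/
theorem mrn_oneZero_j (h5 : 5 ≤ p) {σ' : LaurentSeries ℤ} (hat : GrdAtlas M A (jqModC ℤ) σ') :
    MrnOneZeroSpec M A hpM hA hat := by
  intro i u w ε κ h R hR
  have hx := mrnc_a1_of_coord h
  obtain ⟨a, ham, ha0, ha⟩ := hx.val R hR
  -- the ascent, in the `α`-chart spelling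
  have e : grdQ (M * p) (grdi_mem_j (M * p)) = heckeAlphaBar Qb M p (grdQ M hat.c.mem) :=
    ttrt_grdQ_alpha M hat.c.mem (grdi_mem_j (M * p))
  have htr : Transcendental (ResidueField ↥A) (grdK M A hat.c.mem) := hat.c.sepK.transcendental
  have TB := mrnd_onezero_j M p hpM h5 A hA (ttrV1 M A hpM hA) (ttraV2 M A hpM hA)
    (ttrt_gauss_V1 M A hat.c.mem (grdi_mem_j (M * p)) hpM hA htr)
    (ttrt_gauss_ModV2 M A hat.c.mem (grdi_mem_j (M * p)) hpM hA htr)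
    (ttr_hv4₁ M A hpM hA) (ttr_hv4₂ M A hpM hA (ttraV2 M A hpM hA) (fun _ => Iff.rfl))
  simp only [MrndInMax, MrndInLoc] at TB
  rw [e] at TB
  -- the exact pair `u`, `w ε⁻¹`
  have hεinv : MrnInOs M A hpM hA hat i ε⁻¹ := mrn_unit M A hpM hA hat i ε h.hε h.hεu
  have hw' : MrnInOs M A hpM hA hat i (w * ε⁻¹) := h.hw.mul hεinv
  have hε0 : ε ≠ 0 := by
    rintro rfl
    apply h.hεu
    have e0 : (⟨0, h.hε.1⟩ : ↥(ttrglO2 M A hpM hA)) = 0 := rfl
    rw [e0, map_zero]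
    exact (grdg_val_zero_iff _ 0).2 (zero_mem _)
  have hκA : κ ∈ A := A.nonunits_le h.κ_mem
  have hu0 : GrdVal (ttrkSν₁ M p A hpM hA hat i) (ttrglRed₁ M A hpM hA ⟨u, h.hu.1⟩) 0 :=
    (grdg_val_zero_iff_ord _ hx.red₁_ne).2 (by rw [h.u_ord]; norm_num)
  have hw'r : ttrglRed₁ M A hpM hA ⟨w * ε⁻¹, hw'.1⟩ = 0 := by
    rw [mrnc_red₁_mul h.hw.1 hεinv.1 hw'.1, h.w_red₁, zero_mul]
  have hw0 : GrdVal (ttrkSν₁ M p A hpM hA hat i) (ttrglRed₁ M A hpM hA ⟨w * ε⁻¹, hw'.1⟩) 0 := by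
    rw [hw'r]
    exact (grdg_val_zero_iff _ 0).2 (zero_mem _)
  have huV : u ∈ (ttraV2 M A hpM hA).nonunits :=
    (ttra_ker₂ M A hpM hA (ttrvp_tb1' M A hpM hA) ⟨u, h.hu.1.2⟩).1 h.u_red₂
  have hwV : w * ε⁻¹ ∈ (ttrV1 M A hpM hA).nonunits :=
    (ttra_ker₁ M A hpM hA (ttrvp_tb1' M A hpM hA) ⟨w * ε⁻¹, hw'.1.1⟩).1 hw'r
  have hnode : u * (w * ε⁻¹) = algebraMap Qb ↥(modularFunctionFieldBar (M * p)) κ := by
    rw [← mul_assoc, h.mul, mul_assoc, mul_inv_cancel₀ hε0, mul_one]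
  -- `ord_{ν₂} red₂ (w ε⁻¹) = 1`
  have hw2 : (ttrkSν₂ M p A hpM hA hat i).ord (ttrglRed₂ M A hpM hA ⟨w * ε⁻¹, hw'.1⟩) = 1 := by
    have hwr : ttrglRed₂ M A hpM hA ⟨w, h.hw.1⟩ ≠ 0 := by
      intro h0
      have h2 := h.w_ord
      rw [h0, Place.ord_zero] at h2
      exact absurd h2 (by norm_num)
    obtain ⟨c', hc₁, hc₂⟩ := mrno_val i hεinv
    obtain ⟨ce, hce, -⟩ := mrno_val i h.hε
    have hc'0 : c' ≠ 0 := by
      rintro rfl
      have h1 := grdg_val_mul _ hce hc₁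
      have hone : MrnInOs M A hpM hA hat i (ε * ε⁻¹) := h.hε.mul hεinv
      rw [← mrnc_red₁_mul h.hε.1 hεinv.1 hone.1] at h1
      have e1 : (⟨ε * ε⁻¹, hone.1⟩ : ↥(ttrglO2 M A hpM hA)) = 1 :=
        Subtype.ext (mul_inv_cancel₀ hε0)
      rw [e1, map_one, mul_zero] at h1
      exact one_ne_zero (grdg_val_unique _ (ttru_val_one _) h1)
    have hεr : ttrglRed₂ M A hpM hA ⟨ε⁻¹, hεinv.1⟩ ≠ 0 := by
      intro h0
      rw [h0] at hc₂
      exact hc'0 (grdg_val_unique _ hc₂ ((grdg_val_zero_iff _ 0).2 (zero_mem _)))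
    have hord0 : (ttrkSν₂ M p A hpM hA hat i).ord (ttrglRed₂ M A hpM hA ⟨ε⁻¹, hεinv.1⟩) = 0 :=
      ttri_ord_eq_zero _ (grdg_val_mem _ hc₂) (fun h0 => hc'0 (grdg_val_unique _ hc₂ h0))
    rw [mrnc_red₂_mul h.hw.1 hεinv.1 hw'.1, Place.ord_mul _ hwr hεr, h.w_ord, hord0]
    norm_num
  obtain ⟨h1, h2⟩ := TB (mrnoN M A hpM hA hat i) (mrno_isMaximal i) (mrno_p₁ i) (mrno_p₂ i)
    u (w * ε⁻¹) κ hκA (mrno_inMax i h.hu hu0) (mrno_inMax i hw' hw0) huV hwV hnode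
    (mrno_simple₁ i h.hu h.u_ord) (mrno_simple₂ i hw' hw2) R (mrno_cen i R hR).1
    (mrno_cen i R hR).2 (a : Qb) ha ha0
  exact mrnc_oneZero_of_a1 h hx R hR a ha h1
    (fun v hv hne => h2 v (mrno_cen i v hv).1 (mrno_cen i v hv).2 hne)

end Fermat.Agent.MR
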