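import Mathlib
import Fermat.Agent.MR.Node.OneZero
import Fermat.Agent.SS.Dict.Rational
import Fermat.Agent.SS.NF.Defs

/-!
# PROGRAM MR (S44), block `mrn` : **NODE COORDINATES FROM AN EXACT PAIR OVER A NUMBER FIELD**
(prefix `mrnu`)

Level `M p`, the chart `j` (`t = grdQ (M p) (grdi_mem_j (M p))`, `B_j = grdB (M p) A t`).

* `mrnuN i` : the closed point `𝔫_i` of the `j`-chart ring `B_j` under the node `i`
  (`mrnoN i` transported along `t = α j`, `mrnu_chart_eq`); `mem_mrnuN` (by `Iff.rfl`),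
  `mrnu_isMaximal`, `mrnu_p₁`, `mrnu_p₂`, `mrnu_cen`.
* `mrnu_inOs_of_inLoc`, `mrnu_inMax_val` : `(B_j)_{𝔫_i} ⊆ O_s`, and `𝔫_i (B_j)_{𝔫_i}` vanishes at
  the node.
* `mrnu_inOs_up`, `mrnu_inMax_up` : the same for the ascent of a fraction of
  `P_E = s18tInt (A ∩ E) j_E` at `𝔫_E = ttrnDown … (mrnuN i)`.
* **`mrnu_coord`** : an EXACT pair `x y = ϖ^e c (1 + ϖ ρ)` over `E ⊆ ℚ̄^I`
  (`x, y ∈ 𝔫_E (P_E)_{𝔫_E}`, `x ∈ 𝔪_{W₁}`, `y ∈ 𝔪_{W₂}`, `ρ ∈ (P_E)_{𝔫_E}`, `c` a unit, the two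
  reductions of order one at the branches) gives `MrnCoord i (up y) (up x) (up (1 + ϖ ρ)) κ` with
  `κ = ϖ^e c` and `v(κ) = v(p)^e` when `v(ϖ) = v(p)`.
-/

set_option autoImplicit false
set_option linter.unusedSectionVars false
set_option linter.unusedVariables false
set_option linter.style.haveILetI false
set_option synthInstance.maxHeartbeats 400000

noncomputable section

namespace Fermat.Agent.MR

open Polynomial ModularCurve AlgebraicCurve IsLocalRing IntermediateField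
  Fermat.Agent.G Fermat.Agent.S18 Fermat.Agent.S24 Fermat.Agent.FF Fermat.Agent.TT
  Fermat.Agent.SS

local notation "Qb" => AlgebraicClosure ℚ

variable (M : ℕ) [NeZero M] {p : ℕ} [Fact p.Prime] [NeZero p]
variable (A : ValuationSubring Qb) (hpM : ¬ p ∣ M) (hA : A.LiesOverPrime p)
variable {σ' : LaurentSeries ℤ} (hat : GrdAtlas M A (jqModC ℤ) σ')

/-! ### the closed point under a node, in the `j`-chart spelling -/

/-- the `j`-chart coordinate at level `M p` is `α j`. -/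
theorem mrnu_chart_eq :
    grdQ (M * p) (grdi_mem_j (M * p)) = heckeAlphaBar Qb M p (grdQ M hat.c.mem) :=
  ttrt_grdQ_alpha M hat.c.mem (grdi_mem_j (M * p))

theorem mrnu_chart_le :
    grdB (M * p) A (grdQ (M * p) (grdi_mem_j (M * p))) ≤
      grdB (M * p) A (heckeAlphaBar Qb M p (grdQ M hat.c.mem)) :=
  le_of_eq (congrArg (grdB (M * p) A) (mrnu_chart_eq M A hat))

theorem mrnu_chart_ge :
    grdB (M * p) A (heckeAlphaBar Qb M p (grdQ M hat.c.mem)) ≤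
      grdB (M * p) A (grdQ (M * p) (grdi_mem_j (M * p))) :=
  le_of_eq (congrArg (grdB (M * p) A) (mrnu_chart_eq M A hat).symm)

/-- the closed point `𝔫_i` of the `j`-chart ring under the node `i`. -/
def mrnuN (i : ttrkS M p A hpM hA hat) :
    Ideal ↥(grdB (M * p) A (grdQ (M * p) (grdi_mem_j (M * p)))) :=
  (mrnoN M A hpM hA hat i).comap (Subring.inclusion (mrnu_chart_le M A hat))

variable {M A hpM hA hat}

theorem mem_mrnuN (i : ttrkS M p A hpM hA hat)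
    (b : ↥(grdB (M * p) A (grdQ (M * p) (grdi_mem_j (M * p))))) :
    b ∈ mrnuN M A hpM hA hat i ↔
      GrdVal (ttrkSν₁ M p A hpM hA hat i)
        (ttrglRed₁ M A hpM hA
          ⟨b, ttru_le_inst M A hpM hA hat.c (mrnu_chart_le M A hat b.2)⟩) 0 := Iff.rfl

theorem mem_mrnuN_iff (i : ttrkS M p A hpM hA hat)
    (b : ↥(grdB (M * p) A (grdQ (M * p) (grdi_mem_j (M * p))))) :
    b ∈ mrnuN M A hpM hA hat i ↔
      Subring.inclusion (mrnu_chart_le M A hat) b ∈ mrnoN M A hpM hA hat i := Iff.rfl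

/-- `𝔫_i` is a closed point. -/
theorem mrnu_isMaximal (i : ttrkS M p A hpM hA hat) : (mrnuN M A hpM hA hat i).IsMaximal := by
  haveI := mrno_isMaximal i
  refine Ideal.comap_isMaximal_of_surjective _ ?_
  intro b
  exact ⟨⟨b, mrnu_chart_ge M A hat b.2⟩, Subtype.ext rfl⟩

/-- `𝔫_i` lies on the first component. -/
theorem mrnu_p₁ (i : ttrkS M p A hpM hA hat)
    (x : ↥(grdB (M * p) A (grdQ (M * p) (grdi_mem_j (M * p)))))
    (hx : (x : ↥(modularFunctionFieldBar (M * p))) ∈ (ttrV1 M A hpM hA).nonunits) :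
    x ∈ mrnuN M A hpM hA hat i :=
  mrno_p₁ i (Subring.inclusion (mrnu_chart_le M A hat) x) hx

/-- `𝔫_i` lies on the second component. -/
theorem mrnu_p₂ (i : ttrkS M p A hpM hA hat)
    (x : ↥(grdB (M * p) A (grdQ (M * p) (grdi_mem_j (M * p)))))
    (hx : (x : ↥(modularFunctionFieldBar (M * p))) ∈ (ttraV2 M A hpM hA).nonunits) :
    x ∈ mrnuN M A hpM hA hat i :=
  mrno_p₂ i (Subring.inclusion (mrnu_chart_le M A hat) x) hx

/-- a place centred at the node `i` is centred at `𝔫_i`. -/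
theorem mrnu_cen (i : ttrkS M p A hpM hA hat)
    (R : Place Qb ↥(modularFunctionFieldBar (M * p))) (hR : ttruCenS M A hpM hA hat i R) :
    (∀ x ∈ grdB (M * p) A (grdQ (M * p) (grdi_mem_j (M * p))), x ∈ R.toValuationSubring) ∧
    ∀ x : ↥(grdB (M * p) A (grdQ (M * p) (grdi_mem_j (M * p)))),
      (x : ↥(modularFunctionFieldBar (M * p))) ∈ R.toValuationSubring.nonunits →
        x ∈ mrnuN M A hpM hA hat i :=
  ⟨fun x hx => (mrno_cen i R hR).1 x (mrnu_chart_le M A hat hx),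
    fun x hx => (mrno_cen i R hR).2 (Subring.inclusion (mrnu_chart_le M A hat) x) hx⟩

/-! ### fractions -/

/-- `(B_j)_{𝔫_i} ⊆ O_s`. -/
theorem mrnu_inOs_of_inLoc (i : ttrkS M p A hpM hA hat)
    {a : ↥(modularFunctionFieldBar (M * p))}
    (ha : MrndInLoc (M * p) A (grdi_mem_j (M * p)) (mrnuN M A hpM hA hat i) a) :
    MrnInOs M A hpM hA hat i a := by
  obtain ⟨s, hs, hsa⟩ := ha
  exact mrno_inOs_of_inLoc i ⟨Subring.inclusion (mrnu_chart_le M A hat) s, hs,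
    mrnu_chart_le M A hat hsa⟩

/-- an element of `𝔫_i (B_j)_{𝔫_i}` lies in `O_s` and vanishes at the node. -/
theorem mrnu_inMax_val (i : ttrkS M p A hpM hA hat)
    {b : ↥(modularFunctionFieldBar (M * p))}
    (hb : MrndInMax (M * p) A (grdi_mem_j (M * p)) (mrnuN M A hpM hA hat i) b) :
    ∃ hbs : MrnInOs M A hpM hA hat i b,
      GrdVal (ttrkSν₁ M p A hpM hA hat i) (ttrglRed₁ M A hpM hA ⟨b, hbs.1⟩) 0 := by
  obtain ⟨s, hs, q, hq, hsb⟩ := hb
  exact mrno_inMax_val i ⟨Subring.inclusion (mrnu_chart_le M A hat) s, hs,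
    Subring.inclusion (mrnu_chart_le M A hat) q, hq, hsb⟩

/-- ascent of a fraction of `P_E` at `𝔫_E` : it lies in `O_s`. -/
theorem mrnu_inOs_up (i : ttrkS M p A hpM hA hat) (E : IntermediateField ℚ Qb)
    {a : ↥(modularFunctionFieldFullC E (M * p))}
    (ha : SsnfInLoc (ttrnTE (M * p) E (grdi_mem_j (M * p)))
      (ttrnDown (M * p) A E (grdi_mem_j (M * p)) (mrnuN M A hpM hA hat i)) a) :
    MrnInOs M A hpM hA hat i (ssdUp E (M * p) a) :=
  mrnu_inOs_of_inLoc i (mrnd_inLoc_up (grdi_mem_j (M * p)) E _ ha)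

/-- ascent of an element of `𝔫_E (P_E)_{𝔫_E}` : it lies in `O_s` and vanishes at the node. -/
theorem mrnu_inMax_up (i : ttrkS M p A hpM hA hat) (E : IntermediateField ℚ Qb)
    {a : ↥(modularFunctionFieldFullC E (M * p))}
    (ha : SsnfInMax (ttrnTE (M * p) E (grdi_mem_j (M * p)))
      (ttrnDown (M * p) A E (grdi_mem_j (M * p)) (mrnuN M A hpM hA hat i)) a) :
    ∃ hbs : MrnInOs M A hpM hA hat i (ssdUp E (M * p) a),
      GrdVal (ttrkSν₁ M p A hpM hA hat i)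
        (ttrglRed₁ M A hpM hA ⟨ssdUp E (M * p) a, hbs.1⟩) 0 :=
  mrnu_inMax_val i (mrnd_inMax_up (grdi_mem_j (M * p)) E _ ha)

/-! ### the coordinates -/

/-- the ascent of a constant of `A ∩ E`. -/
theorem mrnu_up_const (E : IntermediateField ℚ Qb) (c : ↥(s18dVal A E)) :
    ssdUp E (M * p) (algebraMap ↥(s18dVal A E) ↥(modularFunctionFieldFullC E (M * p)) c) =
      algebraMap Qb ↥(modularFunctionFieldBar (M * p)) ((s18dIncl A E c : ↥A) : Qb) :=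
  grdstUp_algebraMap (M * p) A E c

/-- a uniformiser of `A ∩ E` lies in `𝔪_A`. -/
theorem mrnu_unif_mem (E : IntermediateField ℚ Qb) [IsDiscreteValuationRing ↥(s18dVal A E)]
    {ϖ : ↥(s18dVal A E)} (hϖ : Irreducible ϖ) : s18dIncl A E ϖ ∈ maximalIdeal ↥A := by
  rw [mem_maximalIdeal, mem_nonunits_iff]
  intro hu
  haveI := ggn_isLocalHom A E
  exact hϖ.not_isUnit (isUnit_of_map_unit (s18dIncl A E) ϖ hu)

set_option maxHeartbeats 1000000 in
/-- **NODE COORDINATES FROM AN EXACT PAIR OVER `E`** (general invariance hypotheses). -/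
theorem mrnu_coord_gen (i : ttrkS M p A hpM hA hat) (E : IntermediateField ℚ Qb)
    [IsDiscreteValuationRing ↥(s18dVal A E)]
    (ϖ : ↥(s18dVal A E)) (hϖ : Irreducible ϖ)
    (x y ρ : ↥(modularFunctionFieldFullC E (M * p))) (e : ℕ) (c : ↥(s18dVal A E))
    (hx : SsnfInMax (ttrnTE (M * p) E (grdi_mem_j (M * p)))
      (ttrnDown (M * p) A E (grdi_mem_j (M * p)) (mrnuN M A hpM hA hat i)) x)
    (hy : SsnfInMax (ttrnTE (M * p) E (grdi_mem_j (M * p)))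
      (ttrnDown (M * p) A E (grdi_mem_j (M * p)) (mrnuN M A hpM hA hat i)) y)
    (hρ : SsnfInLoc (ttrnTE (M * p) E (grdi_mem_j (M * p)))
      (ttrnDown (M * p) A E (grdi_mem_j (M * p)) (mrnuN M A hpM hA hat i)) ρ)
    (hx₁ : x ∈ ((ttrV1 M A hpM hA).comap (ssdUp E (M * p))).nonunits)
    (hy₂ : y ∈ ((ttraV2 M A hpM hA).comap (ssdUp E (M * p))).nonunits)
    (he : 1 ≤ e) (hc : IsUnit c)
    (hxy : x * y = algebraMap ↥(s18dVal A E) ↥(modularFunctionFieldFullC E (M * p)) (ϖ ^ e * c) *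
      (1 + algebraMap ↥(s18dVal A E) ↥(modularFunctionFieldFullC E (M * p)) ϖ * ρ))
    (hordy : ∀ h, (ttrkSν₁ M p A hpM hA hat i).ord
      (ttrglRed₁ M A hpM hA ⟨ssdUp E (M * p) y, h⟩) = 1)
    (hordx : ∀ h, (ttrkSν₂ M p A hpM hA hat i).ord
      (ttrglRed₂ M A hpM hA ⟨ssdUp E (M * p) x, h⟩) = 1)
    (hinvy : ∀ σ : ↥(ffI A), ffigRho (M * p) A σ • ssdUp E (M * p) y = ssdUp E (M * p) y)
    (hinvx : ∀ σ : ↥(ffI A), ffigRho (M * p) A σ • ssdUp E (M * p) x = ssdUp E (M * p) x)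
    (hinvκ : ∀ σ : ↥(ffI A), (σ : Qb ≃ₐ[ℚ] Qb) ((s18dIncl A E (ϖ ^ e * c) : ↥A) : Qb) =
      ((s18dIncl A E (ϖ ^ e * c) : ↥A) : Qb)) :
    MrnCoord M A hpM hA hat i (ssdUp E (M * p) y) (ssdUp E (M * p) x)
      (ssdUp E (M * p)
        (1 + algebraMap ↥(s18dVal A E) ↥(modularFunctionFieldFullC E (M * p)) ϖ * ρ))
      ((s18dIncl A E (ϖ ^ e * c) : ↥A) : Qb) := by
  obtain ⟨hxs, hx0⟩ := mrnu_inMax_up i E hx
  obtain ⟨hys, hy0⟩ := mrnu_inMax_up i E hy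
  have hρs := mrnu_inOs_up i E hρ
  have hϖm := mrnu_unif_mem (A := A) E hϖ
  have hϖs : MrnInOs M A hpM hA hat i
      (algebraMap Qb ↥(modularFunctionFieldBar (M * p)) ((s18dIncl A E ϖ : ↥A) : Qb)) :=
    mrnInOs_const i _
  have hprod := hϖs.mul hρs
  have eε : ssdUp E (M * p)
      (1 + algebraMap ↥(s18dVal A E) ↥(modularFunctionFieldFullC E (M * p)) ϖ * ρ) =
      1 + algebraMap Qb ↥(modularFunctionFieldBar (M * p)) ((s18dIncl A E ϖ : ↥A) : Qb) *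
        ssdUp E (M * p) ρ := by
    rw [map_add, map_one, map_mul, mrnu_up_const]
  have hεs : MrnInOs M A hpM hA hat i (ssdUp E (M * p)
      (1 + algebraMap ↥(s18dVal A E) ↥(modularFunctionFieldFullC E (M * p)) ϖ * ρ)) := by
    rw [eε]
    exact (mrnInOs_one i).add hprod
  -- `red₁ ε = 1`
  have hεr : ttrglRed₁ M A hpM hA ⟨_, hεs.1⟩ = 1 := by
    have e0 : (⟨ssdUp E (M * p)
        (1 + algebraMap ↥(s18dVal A E) ↥(modularFunctionFieldFullC E (M * p)) ϖ * ρ), hεs.1⟩ :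
        ↥(ttrglO2 M A hpM hA)) = 1 + ⟨_, hprod.1⟩ := Subtype.ext eε
    rw [e0, map_add, map_one, mrnc_red₁_mul hϖs.1 hρs.1 hprod.1,
      mrnc_red₁_eq_zero hϖs.1 (mrnc_const_nu₁ M A hpM hA _ hϖm), zero_mul, add_zero]
  -- `κ`
  have hκm : s18dIncl A E (ϖ ^ e * c) ∈ maximalIdeal ↥A := by
    rw [map_mul, map_pow]
    apply Ideal.mul_mem_right
    obtain ⟨k, rfl⟩ := Nat.exists_eq_add_of_le he
    rw [pow_add, pow_one]
    exact Ideal.mul_mem_right _ _ hϖm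
  refine
    { hu := hys
      hw := hxs
      hε := hεs
      hεu := ?_
      κ_mem := ?_
      κ_ne := ?_
      mul := ?_
      u_red₂ := ?_
      w_red₁ := ?_
      u_ord := hordy _
      w_ord := hordx _
      u_inv := hinvy
      w_inv := hinvx
      κ_inv := hinvκ }
  · rw [hεr]
    intro h
    exact one_ne_zero (grdg_val_unique _ (ttru_val_one _) h)
  · rw [ValuationSubring.mem_nonunits_iff_exists_mem_maximalIdeal]
    exact ⟨(s18dIncl A E (ϖ ^ e * c)).2, hκm⟩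
  · intro h0
    have h1 : ((ϖ ^ e * c : ↥(s18dVal A E)) : E) = 0 := by
      have : algebraMap E Qb ((ϖ ^ e * c : ↥(s18dVal A E)) : E) = 0 := h0
      exact (map_eq_zero _).1 this
    have h2 : ϖ ^ e * c = 0 := Subtype.ext h1
    rcases mul_eq_zero.1 h2 with h3 | h3
    · exact hϖ.ne_zero (pow_eq_zero_iff (by omega) |>.1 h3)
    · exact hc.ne_zero h3
  · rw [← map_mul, mul_comm y x, hxy, map_mul, mrnu_up_const]
  · apply mrnc_red₂_eq_zero
    rwa [ttrn_comap_nonunits] at hy₂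
  · apply mrnc_red₁_eq_zero
    rwa [ttrn_comap_nonunits] at hx₁

/-- the valuation of `κ = ϖ^e c`. -/
theorem mrnu_val_kappa (E : IntermediateField ℚ Qb) (ϖ c : ↥(s18dVal A E)) (e : ℕ)
    (hc : IsUnit c)
    (hϖp : A.valuation ((s18dIncl A E ϖ : ↥A) : Qb) = A.valuation ((p : ℕ) : Qb)) :
    A.valuation ((s18dIncl A E (ϖ ^ e * c) : ↥A) : Qb) = A.valuation ((p : ℕ) : Qb) ^ e := by
  have hcu : IsUnit (s18dIncl A E c) := hc.map (s18dIncl A E)
  have h1 : A.valuation ((s18dIncl A E c : ↥A) : Qb) = 1 :=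
    (ValuationSubring.valuation_eq_one_iff A _).1 hcu
  rw [map_mul, map_pow]
  push_cast
  rw [map_mul, map_pow, h1, mul_one, hϖp]

set_option maxHeartbeats 1000000 in
/-- **NODE COORDINATES FROM AN EXACT PAIR OVER `E ⊆ ℚ̄^I`**, with the thickness. -/
theorem mrnu_coord (i : ttrkS M p A hpM hA hat) (E : IntermediateField ℚ Qb)
    [IsDiscreteValuationRing ↥(s18dVal A E)]
    (hIE : ∀ σ : ↥(ffI A), ∀ z : E, (σ : Qb ≃ₐ[ℚ] Qb) (z : Qb) = z)
    (ϖ : ↥(s18dVal A E)) (hϖ : Irreducible ϖ)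
    (hϖp : A.valuation ((s18dIncl A E ϖ : ↥A) : Qb) = A.valuation ((p : ℕ) : Qb))
    (x y ρ : ↥(modularFunctionFieldFullC E (M * p))) (e : ℕ) (c : ↥(s18dVal A E))
    (hx : SsnfInMax (ttrnTE (M * p) E (grdi_mem_j (M * p)))
      (ttrnDown (M * p) A E (grdi_mem_j (M * p)) (mrnuN M A hpM hA hat i)) x)
    (hy : SsnfInMax (ttrnTE (M * p) E (grdi_mem_j (M * p)))
      (ttrnDown (M * p) A E (grdi_mem_j (M * p)) (mrnuN M A hpM hA hat i)) y)
    (hρ : SsnfInLoc (ttrnTE (M * p) E (grdi_mem_j (M * p)))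
      (ttrnDown (M * p) A E (grdi_mem_j (M * p)) (mrnuN M A hpM hA hat i)) ρ)
    (hx₁ : x ∈ ((ttrV1 M A hpM hA).comap (ssdUp E (M * p))).nonunits)
    (hy₂ : y ∈ ((ttraV2 M A hpM hA).comap (ssdUp E (M * p))).nonunits)
    (he : 1 ≤ e) (hc : IsUnit c)
    (hxy : x * y = algebraMap ↥(s18dVal A E) ↥(modularFunctionFieldFullC E (M * p)) (ϖ ^ e * c) *
      (1 + algebraMap ↥(s18dVal A E) ↥(modularFunctionFieldFullC E (M * p)) ϖ * ρ))
    (hordy : ∀ h, (ttrkSν₁ M p A hpM hA hat i).ord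
      (ttrglRed₁ M A hpM hA ⟨ssdUp E (M * p) y, h⟩) = 1)
    (hordx : ∀ h, (ttrkSν₂ M p A hpM hA hat i).ord
      (ttrglRed₂ M A hpM hA ⟨ssdUp E (M * p) x, h⟩) = 1) :
    MrnCoord M A hpM hA hat i (ssdUp E (M * p) y) (ssdUp E (M * p) x)
      (ssdUp E (M * p)
        (1 + algebraMap ↥(s18dVal A E) ↥(modularFunctionFieldFullC E (M * p)) ϖ * ρ))
      ((s18dIncl A E (ϖ ^ e * c) : ↥A) : Qb) ∧
    A.valuation ((s18dIncl A E (ϖ ^ e * c) : ↥A) : Qb) = A.valuation ((p : ℕ) : Qb) ^ e :=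
  ⟨mrnu_coord_gen i E ϖ hϖ x y ρ e c hx hy hρ hx₁ hy₂ he hc hxy hordy hordx
      (fun σ => ssdr_smul_up (M * p) E (σ : Qb ≃ₐ[ℚ] Qb) (hIE σ) y)
      (fun σ => ssdr_smul_up (M * p) E (σ : Qb ≃ₐ[ℚ] Qb) (hIE σ) x)
      (fun σ => hIE σ ((ϖ ^ e * c : ↥(s18dVal A E)) : E)),
    mrnu_val_kappa E ϖ c e hc hϖp⟩

/-- **(COORD) from an exact pair at every node.** -/
theorem mrnu_coordSpec
    (h : ∀ i : ttrkS M p A hpM hA hat, ∃ (E : IntermediateField ℚ Qb)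
      (_ : IsDiscreteValuationRing ↥(s18dVal A E)) (ϖ : ↥(s18dVal A E))
      (x y ρ : ↥(modularFunctionFieldFullC E (M * p))) (e : ℕ) (c : ↥(s18dVal A E)),
      (∀ σ : ↥(ffI A), ∀ z : E, (σ : Qb ≃ₐ[ℚ] Qb) (z : Qb) = z) ∧ Irreducible ϖ ∧
      SsnfInMax (ttrnTE (M * p) E (grdi_mem_j (M * p)))
        (ttrnDown (M * p) A E (grdi_mem_j (M * p)) (mrnuN M A hpM hA hat i)) x ∧
      SsnfInMax (ttrnTE (M * p) E (grdi_mem_j (M * p)))
        (ttrnDown (M * p) A E (grdi_mem_j (M * p)) (mrnuN M A hpM hA hat i)) y ∧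
      SsnfInLoc (ttrnTE (M * p) E (grdi_mem_j (M * p)))
        (ttrnDown (M * p) A E (grdi_mem_j (M * p)) (mrnuN M A hpM hA hat i)) ρ ∧
      x ∈ ((ttrV1 M A hpM hA).comap (ssdUp E (M * p))).nonunits ∧
      y ∈ ((ttraV2 M A hpM hA).comap (ssdUp E (M * p))).nonunits ∧
      1 ≤ e ∧ IsUnit c ∧
      x * y = algebraMap ↥(s18dVal A E) ↥(modularFunctionFieldFullC E (M * p)) (ϖ ^ e * c) *
        (1 + algebraMap ↥(s18dVal A E) ↥(modularFunctionFieldFullC E (M * p)) ϖ * ρ) ∧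
      (∀ h, (ttrkSν₁ M p A hpM hA hat i).ord
        (ttrglRed₁ M A hpM hA ⟨ssdUp E (M * p) y, h⟩) = 1) ∧
      (∀ h, (ttrkSν₂ M p A hpM hA hat i).ord
        (ttrglRed₂ M A hpM hA ⟨ssdUp E (M * p) x, h⟩) = 1)) :
    MrnCoordSpec M A hpM hA hat := by
  intro i
  obtain ⟨E, hdvr, ϖ, x, y, ρ, e, c, hIE, hϖ, hx, hy, hρ, hx₁, hy₂, he, hc, hxy, hoy, hox⟩ := h i
  haveI := hdvr
  exact ⟨_, _, _, _, mrnu_coord_gen i E ϖ hϖ x y ρ e c hx hy hρ hx₁ hy₂ he hc hxy hoy hox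
    (fun σ => ssdr_smul_up (M * p) E (σ : Qb ≃ₐ[ℚ] Qb) (hIE σ) y)
    (fun σ => ssdr_smul_up (M * p) E (σ : Qb ≃ₐ[ℚ] Qb) (hIE σ) x)
    (fun σ => hIE σ ((ϖ ^ e * c : ↥(s18dVal A E)) : E))⟩

end Fermat.Agent.MR
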