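import Mathlib
import Fermat.Agent.MR.Node.CoordUp
import Fermat.Agent.MR.Node.CrossSpec
import Fermat.Agent.SS.Geo.FixedLevel
import Fermat.Agent.SQ.Descend.Main
import Fermat.Agent.TT.Red2.NodeInst

/-!
# PROGRAM MR (S44), block `mrn` : THE DICTIONARY AT THE INERTIA FIELD (prefix `mrnz`)

Owner: helper28 (MR-PM R74(4)(d), R75(2)).  Namespace `Fermat.Agent.MR`.

Level `M p`, the `j`-atlas, `E ⊆ ℚ̄` any intermediate field, `t_E = ssdJ E (M p)`,
`P_E = s18tInt (𝔸 ∩ E) t_E`, `up = ssdUp E (M p)`.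

* `mrnzUp E : P_E →+* B_j` (`B_j = grdB (M p) 𝔸 j`), `mrnzPrime i E` := the comap of helper19's closed
  point `mrnuN i` of `B_j` (= his `ttrnDown … (mrnuN i)`, re-typed over `ssdJ E (M p)`);
* `mrnz_nodePrime`, `mrnz_dictLoc`, `mrnz_onBoth` : helper3's `MrnxNodePrime`, `MrnxDictLoc`,
  `MrnxOnBoth` at ANY `E`;
* `mrnz_hIE` : the inertia field is fixed pointwise by inertia;
* `mrnz_rational` : `SsResRational t_{E₀} (mrnzPrime i E₀)` at `E₀ = ssgfE0 𝔸 E'` for all big finite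
  normal `E'` (`ttrn_PL`, `ttrr_rational'` at `E'`, `ssgf_hres`);
* **`mrnz_dictSpec : MrnxDictSpec M 𝔸 hpM h𝔸 hat`** (helper3's literal, `MR/Node/CrossSpec.lean`).
-/

set_option autoImplicit false
set_option linter.unusedSectionVars false
set_option linter.unusedVariables false
set_option linter.style.haveILetI false
set_option synthInstance.maxHeartbeats 400000

noncomputable section

namespace Fermat.Agent.MR

open Polynomial ModularCurve AlgebraicCurve IsLocalRing IntermediateField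
  Fermat.Agent.G Fermat.Agent.S18 Fermat.Agent.S24 Fermat.Agent.FF Fermat.Agent.TT
  Fermat.Agent.SS Fermat.Agent.SQ

local notation "Qb" => AlgebraicClosure ℚ

variable (M : ℕ) [NeZero M] {p : ℕ} [Fact p.Prime] [NeZero p]
variable (A : ValuationSubring Qb) (hpM : ¬ p ∣ M) (hA : A.LiesOverPrime p)
variable {σ' : LaurentSeries ℤ} (hat : GrdAtlas M A (jqModC ℤ) σ')

/-! ### the map `P_E → B_j` and the node prime -/

/-- membership in `P_E`, in the two spellings of the chart coordinate. -/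
theorem mrnz_mem_int_iff (E : IntermediateField ℚ Qb)
    (z : ↥(modularFunctionFieldFullC E (M * p))) :
    z ∈ s18tInt ↥(s18dVal A E) (ssdJ E (M * p)) ↔
      z ∈ s18tInt ↥(s18dVal A E) (ttrnTE (M * p) E (grdi_mem_j (M * p))) := by
  rw [ttrn_TE_j]

/-- `P_E → B_j`. -/
def mrnzUp (E : IntermediateField ℚ Qb) :
    ↥(s18tInt ↥(s18dVal A E) (ssdJ E (M * p))) →+*
      ↥(grdB (M * p) A (grdQ (M * p) (grdi_mem_j (M * p)))) where
  toFun z := ⟨ssdUp E (M * p) z, by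
    have hz : (z : ↥(modularFunctionFieldFullC E (M * p))) ∈
        s18tInt ↥(s18dVal A E) (ttrnTE (M * p) E (grdi_mem_j (M * p))) :=
      (mrnz_mem_int_iff (p := p) M A E z).1 z.2
    exact grdst_ascend_int (M * p) A (grdi_mem_j (M * p)) E z hz⟩
  map_one' := Subtype.ext (map_one _)
  map_mul' x y := Subtype.ext (map_mul _ _ _)
  map_zero' := Subtype.ext (map_zero _)
  map_add' x y := Subtype.ext (map_add _ _ _)

@[simp]
theorem coe_mrnzUp (E : IntermediateField ℚ Qb)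
    (z : ↥(s18tInt ↥(s18dVal A E) (ssdJ E (M * p)))) :
    ((mrnzUp M A E z : ↥(grdB (M * p) A (grdQ (M * p) (grdi_mem_j (M * p))))) :
      ↥(modularFunctionFieldBar (M * p))) =
      ssdUp E (M * p) (z : ↥(modularFunctionFieldFullC E (M * p))) := rfl

/-- the prime of `P_E` under the node `i`. -/
def mrnzPrime (i : ttrkS M p A hpM hA hat) (E : IntermediateField ℚ Qb) :
    Ideal ↥(s18tInt ↥(s18dVal A E) (ssdJ E (M * p))) :=
  (mrnuN M A hpM hA hat i).comap (mrnzUp M A E)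

variable {M A hpM hA hat}

theorem mem_mrnzPrime (i : ttrkS M p A hpM hA hat) (E : IntermediateField ℚ Qb)
    (z : ↥(s18tInt ↥(s18dVal A E) (ssdJ E (M * p)))) :
    z ∈ mrnzPrime M A hpM hA hat i E ↔ mrnzUp M A E z ∈ mrnuN M A hpM hA hat i := Iff.rfl

instance mrnz_isPrime (i : ttrkS M p A hpM hA hat) (E : IntermediateField ℚ Qb) :
    (mrnzPrime M A hpM hA hat i E).IsPrime := by
  haveI : (mrnuN M A hpM hA hat i).IsPrime := (mrnu_isMaximal i).isPrime
  exact Ideal.comap_isPrime _ _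

/-- constants of `𝔪_𝔸` lie in the closed point. -/
theorem mrnz_const_mem (i : ttrkS M p A hpM hA hat) (a : ↥A) (ha : a ∈ maximalIdeal ↥A) :
    grdzι (M * p) A (grdQ (M * p) (grdi_mem_j (M * p))) a ∈ mrnuN M A hpM hA hat i := by
  have h : ((grdzι (M * p) A (grdQ (M * p) (grdi_mem_j (M * p))) a :
      ↥(grdB (M * p) A (grdQ (M * p) (grdi_mem_j (M * p))))) :
      ↥(modularFunctionFieldBar (M * p))) ∈ (ttrV1 M A hpM hA).nonunits := by
    rw [grdzι_coe]
    exact mrnc_const_nu₁ M A hpM hA a ha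
  exact mrnu_p₁ i (grdzι (M * p) A (grdQ (M * p) (grdi_mem_j (M * p))) a) h

/-! ### helper3's `MrnxNodePrime`, `MrnxDictLoc`, `MrnxOnBoth` at any `E` -/

/-- **`mrnzPrime i E` is the prime of `P_E` under the node `i`.** -/
theorem mrnz_nodePrime (i : ttrkS M p A hpM hA hat) (E : IntermediateField ℚ Qb) :
    MrnxNodePrime M A hpM hA hat E i (mrnzPrime M A hpM hA hat i E) := by
  intro z
  rw [mem_mrnzPrime, mem_mrnuN]
  exact ⟨fun h => ⟨_, h⟩, fun ⟨_, h⟩ => h⟩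

/-- ascent of a fraction of `P_E` at the node prime. -/
theorem mrnz_inLoc_up (i : ttrkS M p A hpM hA hat) (E : IntermediateField ℚ Qb)
    {x : ↥(modularFunctionFieldFullC E (M * p))}
    (hx : SsnfInLoc (ssdJ E (M * p)) (mrnzPrime M A hpM hA hat i E) x) :
    MrndInLoc (M * p) A (grdi_mem_j (M * p)) (mrnuN M A hpM hA hat i) (ssdUp E (M * p) x) := by
  obtain ⟨s, hs, hsx⟩ := hx
  refine ⟨mrnzUp M A E s, hs, ?_⟩
  rw [coe_mrnzUp, ← map_mul]
  exact (mrnzUp M A E ⟨_, hsx⟩).2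

/-- ascent of an element of `𝔫_E (P_E)_{𝔫_E}`. -/
theorem mrnz_inMax_up (i : ttrkS M p A hpM hA hat) (E : IntermediateField ℚ Qb)
    {x : ↥(modularFunctionFieldFullC E (M * p))}
    (hx : SsnfInMax (ssdJ E (M * p)) (mrnzPrime M A hpM hA hat i E) x) :
    MrndInMax (M * p) A (grdi_mem_j (M * p)) (mrnuN M A hpM hA hat i) (ssdUp E (M * p) x) := by
  obtain ⟨s, hs, q, hq, hsx⟩ := hx
  refine ⟨mrnzUp M A E s, hs, mrnzUp M A E q, hq, ?_⟩
  rw [coe_mrnzUp, coe_mrnzUp, ← map_mul, hsx]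

/-- **(D3)** at any `E`. -/
theorem mrnz_dictLoc (i : ttrkS M p A hpM hA hat) (E : IntermediateField ℚ Qb) :
    MrnxDictLoc M A hpM hA hat E i (mrnzPrime M A hpM hA hat i E) := by
  refine ⟨fun x hx => mrnu_inOs_of_inLoc i (mrnz_inLoc_up i E hx), fun x hx h => ?_⟩
  obtain ⟨hbs, h0⟩ := mrnu_inMax_val i (mrnz_inMax_up i E hx)
  exact h0

/-- **the node prime lies on both components and contains `p`.** -/
theorem mrnz_onBoth (i : ttrkS M p A hpM hA hat) (E : IntermediateField ℚ Qb)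
    [IsDiscreteValuationRing ↥(s18dVal A E)] [CharZero ↥(s18dVal A E)] :
    MrnxOnBoth M A hpM hA E (mrnzPrime M A hpM hA hat i E) := by
  refine ⟨?_, fun z hz => ?_, fun z hz => ?_⟩
  · rw [mem_mrnzPrime]
    have hpm : s18dIncl A E ((p : ℕ) : ↥(s18dVal A E)) ∈ maximalIdeal ↥A := by
      rw [map_natCast]
      refine (ValuationSubring.coe_mem_nonunits_iff).1 ?_
      have h : (p : Qb) ∈ A.nonunits := hA
      exact_mod_cast h
    have e : mrnzUp M A E (sskPi ((p : ℕ) : ↥(s18dVal A E)) (ssdJ E (M * p))) =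
        grdzι (M * p) A (grdQ (M * p) (grdi_mem_j (M * p)))
          (s18dIncl A E ((p : ℕ) : ↥(s18dVal A E))) := by
      apply Subtype.ext
      rw [coe_mrnzUp, grdzι_coe]
      exact grdstUp_algebraMap (M * p) A E _
    rw [e]
    exact mrnz_const_mem i _ hpm
  · rw [mem_mrnzPrime]
    refine mrnu_p₁ i _ ?_
    rw [coe_mrnzUp]
    exact (ttrn_comap_nonunits _ _ _).1 hz
  · rw [mem_mrnzPrime]
    refine mrnu_p₂ i _ ?_
    rw [coe_mrnzUp]
    exact (ttrn_comap_nonunits _ _ _).1 hz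

/-- the inertia field is fixed pointwise by inertia. -/
theorem mrnz_hIE (E' : IntermediateField ℚ Qb) (σ : ↥(ffI A)) (z : ↥(ssgfE0 A E')) :
    (σ : Qb ≃ₐ[ℚ] Qb) (z : Qb) = z :=
  ((mem_ssgfE0 A E').mp z.2).2 σ σ.2

/-! ### rationality at the inertia field -/

section Rational

variable (M A hpM hA hat)

set_option maxHeartbeats 1000000 in
/-- **RATIONALITY AT THE INERTIA FIELD** : for all big finite normal `E'`, the node prime of
`P_{E₀}`, `E₀ = ssgfE0 𝔸 E'`, has residue field the residue field of `𝔸 ∩ E₀`. -/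
theorem mrnz_rational (i : ttrkS M p A hpM hA hat) :
    ∃ (E₁ : IntermediateField ℚ Qb) (_ : FiniteDimensional ℚ E₁),
      ∀ (E' : IntermediateField ℚ Qb) [FiniteDimensional ℚ E'] [Normal ℚ E']
        [IsDiscreteValuationRing ↥(s18dVal A (ssgfE0 A E'))]
        [CharZero ↥(s18dVal A (ssgfE0 A E'))], E₁ ≤ E' →
        SsResRational (ssdJ (ssgfE0 A E') (M * p))
          (mrnzPrime M A hpM hA hat i (ssgfE0 A E')) := by
  have hmem := grdi_mem_j (M * p)
  have h𝔫max : (mrnuN M A hpM hA hat i).IsMaximal := mrnu_isMaximal i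
  haveI h𝔫p : (mrnuN M A hpM hA hat i).IsPrime := h𝔫max.isPrime
  have hm : ∀ a : ↥A, a ∈ maximalIdeal ↥A →
      grdzι (M * p) A (grdQ (M * p) (grdi_mem_j (M * p))) a ∈ mrnuN M A hpM hA hat i :=
    fun a ha => mrnz_const_mem i a ha
  -- a place centred at the closed point
  obtain ⟨R, hBR, hRc⟩ := ttrn_PL (M * p) A (grdi_mem_j (M * p))
    (grdi_sepQ_j (M * p) (grdi_mem_j (M * p))).transcendental
    (mrnuN M A hpM hA hat i) h𝔫max hm
  obtain ⟨E₁, hfd₁, hE₁⟩ := ttrn_RAT (M * p) A (grdi_mem_j (M * p)) R hBR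
    (mrnuN M A hpM hA hat i) h𝔫p hRc hm
  refine ⟨E₁, hfd₁, ?_⟩
  intro E' _ _ _ _ hE
  haveI : IsDiscreteValuationRing ↥(s18dVal A E') := s18d_isDVR A E' hA
  haveI : CharZero ↥(s18dVal A E') := ggn_charZero A E'
  have hrat := hE₁ E' hE
  obtain ⟨ϖ, hϖ⟩ := IsDiscreteValuationRing.exists_irreducible ↥(s18dVal A E')
  obtain ⟨ϖ₀, hϖ₀⟩ := IsDiscreteValuationRing.exists_irreducible ↥(s18dVal A (ssgfE0 A E'))
  have hlev := ssgf_level_j A E' (M * p) hϖ hϖ₀.not_isUnit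
  intro x₀
  -- the image of `x₀` over `E'`
  have hy : ssgfIota A E' (M * p) (x₀ : ↥(modularFunctionFieldFullC (ssgfE0 A E') (M * p))) ∈
      s18tInt ↥(s18dVal A E') (ssdJ E' (M * p)) := ssga_map_int hlev x₀.2
  have hy' : ssgfIota A E' (M * p) (x₀ : ↥(modularFunctionFieldFullC (ssgfE0 A E') (M * p))) ∈
      s18tInt ↥(s18dVal A E') (ttrnTE (M * p) E' (grdi_mem_j (M * p))) :=
    (mrnz_mem_int_iff (p := p) M A E' _).1 hy
  obtain ⟨a', q, hq, hyq⟩ := hrat ⟨_, hy'⟩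
  obtain ⟨a₀, b, hab⟩ := ssgf_hres A E' (Fact.out : p.Prime) hA hϖ a'
  have hsub : (x₀ : ↥(modularFunctionFieldFullC (ssgfE0 A E') (M * p))) -
      algebraMap ↥(s18dVal A (ssgfE0 A E')) ↥(modularFunctionFieldFullC (ssgfE0 A E') (M * p)) a₀ ∈
      s18tInt ↥(s18dVal A (ssgfE0 A E')) (ssdJ (ssgfE0 A E') (M * p)) :=
    Subring.sub_mem _ x₀.2 (s18tc_algebraMap_mem_int _ a₀)
  refine ⟨a₀, ⟨_, hsub⟩, ?_, by rw [add_sub_cancel]⟩
  rw [mem_mrnzPrime]
  -- the constant `ϖ b ∈ 𝔪_A`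
  have hϖm : s18dIncl A E' (ϖ * b) ∈ maximalIdeal ↥A := by
    rw [map_mul]
    exact Ideal.mul_mem_right _ _ (mrnu_unif_mem (A := A) E' hϖ)
  have h1 : ttrnUp (M * p) A E' (grdi_mem_j (M * p)) q ∈ mrnuN M A hpM hA hat i :=
    (mem_ttrnDown (M * p) A E' (grdi_mem_j (M * p)) _ q).1 hq
  have h2 := hm _ hϖm
  have hyq' : ssgfIota A E' (M * p) (x₀ : ↥(modularFunctionFieldFullC (ssgfE0 A E') (M * p))) =
      algebraMap ↥(s18dVal A E') ↥(modularFunctionFieldFullC E' (M * p)) a' +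
        (q : ↥(modularFunctionFieldFullC E' (M * p))) := hyq
  have e : mrnzUp M A (ssgfE0 A E') ⟨_, hsub⟩ =
      ttrnUp (M * p) A E' (grdi_mem_j (M * p)) q +
        grdzι (M * p) A (grdQ (M * p) (grdi_mem_j (M * p))) (s18dIncl A E' (ϖ * b)) := by
    apply Subtype.ext
    rw [coe_mrnzUp]
    show ssdUp (ssgfE0 A E') (M * p) _ =
      ssdUp E' (M * p) (q : ↥(modularFunctionFieldFullC E' (M * p))) +
        algebraMap Qb ↥(modularFunctionFieldBar (M * p)) ((s18dIncl A E' (ϖ * b) : ↥A) : Qb)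
    rw [← mrnu_up_const (M := M) (p := p) (A := A) E' (ϖ * b), ← map_add, ← sqd_up_iota A E',
      map_sub, ssgfIota_compat, hyq', hab]
    congr 1
    rw [map_add]
    ring
  rw [e]
  exact Ideal.add_mem _ h1 h2

/-- **THE DICTIONARY AT THE INERTIA FIELD** : helper3's `MrnxDictSpec`. -/
theorem mrnz_dictSpec : MrnxDictSpec M A hpM hA hat := by
  intro i
  obtain ⟨E₁, hfd₁, hE₁⟩ := mrnz_rational M A hpM hA hat i
  refine ⟨E₁, hfd₁, ?_⟩
  intro E' _ _ _ _ hE
  exact ⟨mrnzPrime M A hpM hA hat i (ssgfE0 A E'), mrnz_isPrime i _, mrnz_nodePrime i _,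
    hE₁ E' hE, mrnz_dictLoc i _⟩

end Rational

end Fermat.Agent.MR
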