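import Mathlib
import Fermat.Agent.MR.Node.Spec
import Fermat.Agent.TT.Red2.ChartOntoAtlas

/-!
# PROGRAM MR (S44), block `mrn` : **FROM NODEWISE THICKNESSES TO A THICKNESS FUNCTION**
(prefix `mrntf`)

The first branches `ν₁ i` of the canonical nodes of the `j`-atlas (`p ≥ 5`) are pairwise distinct
(`mrntf_nu₁_injective`, from the landed `ttrkS_ν₁_injective` + `ttrc_T_hR_j`), so a family of
natural numbers indexed by the nodes is a function of the place `ν₁ i` (`mrntf_exists_fun`).

`mrntf_isThick` : if at every node `i` there are node coordinates with `v(κ) = v(p)^e` and `C e`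
(`C` ANY clause on the exponent, e.g. `2 ∣ M → 3 ∣ M → e = 1`), then there is a function `E` on the
places of `F_k(M)` such that at every node there are node coordinates with
`v(κ) = v(p)^(E (ν₁ i))` (the unfolded `MrmIsThick M A hpM hA hat E` of `MR/M/Leaf.lean`) and
`C (E (ν₁ i))` for every node `i`.
-/

set_option autoImplicit false
set_option linter.unusedSectionVars false
set_option linter.unusedVariables false
set_option linter.style.haveILetI false

noncomputable section

namespace Fermat.Agent.MR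

open Polynomial ModularCurve AlgebraicCurve IsLocalRing IntermediateField
  Fermat.Agent.G Fermat.Agent.S18 Fermat.Agent.S24 Fermat.Agent.FF Fermat.Agent.TT

open scoped Classical

local notation "Qb" => AlgebraicClosure ℚ

variable (M : ℕ) [NeZero M] {p : ℕ} [Fact p.Prime] [NeZero p]
variable (A : ValuationSubring Qb) (hpM : ¬ p ∣ M) (hA : A.LiesOverPrime p)
variable {σ' : LaurentSeries ℤ} (hat : GrdAtlas M A (jqModC ℤ) σ')

/-- the first branches of the canonical nodes are pairwise distinct. -/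
theorem mrntf_nu₁_injective (h5 : 5 ≤ p) :
    Function.Injective (ttrkSν₁ M p A hpM hA hat) :=
  ttrkS_ν₁_injective M p A hpM hA hat (ttrc_T_hR_j M p A hpM hA h5 hat).2.1

/-- the second branches of the canonical nodes are pairwise distinct. -/
theorem mrntf_nu₂_injective (h5 : 5 ≤ p) :
    Function.Injective (ttrkSν₂ M p A hpM hA hat) :=
  ttrkS_ν₂_injective M p A hpM hA hat (ttrc_T_hR_j M p A hpM hA h5 hat).1

/-- a family of natural numbers indexed by the nodes is a function of the first branch. -/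
theorem mrntf_exists_fun (h5 : 5 ≤ p) (P : ttrkS M p A hpM hA hat → ℕ → Prop)
    (h : ∀ i, ∃ e, P i e) :
    ∃ E : Place (ResidueField A) ↥(modularFunctionFieldFullC (ResidueField A) M) → ℕ,
      ∀ i, P i (E (ttrkSν₁ M p A hpM hA hat i)) := by
  have hinj := mrntf_nu₁_injective M A hpM hA hat h5
  refine ⟨fun Q => if hQ : ∃ i, ttrkSν₁ M p A hpM hA hat i = Q then (h hQ.choose).choose else 0,
    fun i => ?_⟩
  have hQ : ∃ i', ttrkSν₁ M p A hpM hA hat i' = ttrkSν₁ M p A hpM hA hat i := ⟨i, rfl⟩
  have hi : hQ.choose = i := hinj hQ.choose_spec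
  simp only [dif_pos hQ]
  have := (h hQ.choose).choose_spec
  rw [hi] at this ⊢
  exact this

/-- **nodewise exact coordinates ⟹ a thickness function**, with an arbitrary clause `C` on the
exponent carried along. -/
theorem mrntf_isThick (h5 : 5 ≤ p) (C : ℕ → Prop)
    (h : ∀ i : ttrkS M p A hpM hA hat,
      ∃ (e : ℕ) (u w ε : ↥(modularFunctionFieldBar (M * p))) (κ : Qb),
        MrnCoord M A hpM hA hat i u w ε κ ∧ A.valuation κ = A.valuation (p : Qb) ^ e ∧ C e) :
    ∃ E : Place (ResidueField A) ↥(modularFunctionFieldFullC (ResidueField A) M) → ℕ,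
      (∀ i : ttrkS M p A hpM hA hat,
        ∃ (u w ε : ↥(modularFunctionFieldBar (M * p))) (κ : Qb),
          MrnCoord M A hpM hA hat i u w ε κ ∧
          A.valuation κ = A.valuation (p : Qb) ^ E (ttrkSν₁ M p A hpM hA hat i)) ∧
      ∀ i : ttrkS M p A hpM hA hat, C (E (ttrkSν₁ M p A hpM hA hat i)) := by
  obtain ⟨E, hE⟩ := mrntf_exists_fun M A hpM hA hat h5
    (fun i e => ∃ (u w ε : ↥(modularFunctionFieldBar (M * p))) (κ : Qb),
      MrnCoord M A hpM hA hat i u w ε κ ∧ A.valuation κ = A.valuation (p : Qb) ^ e ∧ C e) h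
  refine ⟨E, fun i => ?_, fun i => ?_⟩
  · obtain ⟨u, w, ε, κ, hC, hκ, -⟩ := hE i
    exact ⟨u, w, ε, κ, hC, hκ⟩
  · obtain ⟨u, w, ε, κ, -, -, hc⟩ := hE i
    exact hc

/-- the same without a clause. -/
theorem mrntf_isThick' (h5 : 5 ≤ p)
    (h : ∀ i : ttrkS M p A hpM hA hat,
      ∃ (e : ℕ) (u w ε : ↥(modularFunctionFieldBar (M * p))) (κ : Qb),
        MrnCoord M A hpM hA hat i u w ε κ ∧ A.valuation κ = A.valuation (p : Qb) ^ e) :
    ∃ E : Place (ResidueField A) ↥(modularFunctionFieldFullC (ResidueField A) M) → ℕ,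
      ∀ i : ttrkS M p A hpM hA hat,
        ∃ (u w ε : ↥(modularFunctionFieldBar (M * p))) (κ : Qb),
          MrnCoord M A hpM hA hat i u w ε κ ∧
          A.valuation κ = A.valuation (p : Qb) ^ E (ttrkSν₁ M p A hpM hA hat i) := by
  obtain ⟨E, hE, -⟩ := mrntf_isThick M A hpM hA hat h5 (fun _ => True) (fun i => by
    obtain ⟨e, u, w, ε, κ, hC, hκ⟩ := h i
    exact ⟨e, u, w, ε, κ, hC, hκ, trivial⟩)
  exact ⟨E, hE⟩

end Fermat.Agent.MR
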