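import Mathlib
import Fermat.Agent.MR.Node.Cross
import Fermat.Agent.MR.Node.DictE0
import Fermat.Agent.MR.Node.ConstExtInst
import Fermat.Agent.MR.Node.ThickFun

/-!
# PROGRAM MR (S44), block `mrn` : **4a MODULO THE `E`-LEVEL GERMS, CLOSED FORM** (prefix `mrntc`)

Plug of helper3's `mrnx_thick` with helper28's `mrnz_dictSpec` (the dictionary), helper27's
`mrnci_ordSpec` ((D4), constant field extensions are unramified) and `mrntf_isThick` (choice of a
thickness FUNCTION, by the injectivity of the first branch map) :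

* `mrntc_thick : MrnxGermSpec M A hpM hA → MrnxThick M A hpM hA hat` (every level `M`, the
  `j`-atlas);
* `mrntc_coordSpec : MrnxGermSpec … → MrnCoordSpec M A hpM hA hat`;
* `mrntc_isThick (h5 : 5 ≤ p) : MrnxGermSpec … → ∃ E, (unfolded MrmIsThick M A hpM hA hat E) ∧
  (2 ∣ M → 3 ∣ M → ∀ i, E (ν₁ i) = 1)`;
* `mrntc_thickOne (h5) : MrnxGermSpec … → 2 ∣ M → 3 ∣ M → ∀ i, ∃ u w ε κ e, MrnCoord … ∧
  v(κ) = v(p)^e ∧ ¬ p ∣ e` (the input (THICK-ONE) of the tower bound).
-/

set_option autoImplicit false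
set_option linter.unusedSectionVars false
set_option linter.unusedVariables false
set_option linter.style.haveILetI false

noncomputable section

namespace Fermat.Agent.MR

open Polynomial ModularCurve AlgebraicCurve IsLocalRing IntermediateField
  Fermat.Agent.G Fermat.Agent.S18 Fermat.Agent.S24 Fermat.Agent.FF Fermat.Agent.TT
  Fermat.Agent.SS

local notation "Qb" => AlgebraicClosure ℚ

variable (M : ℕ) [NeZero M] {p : ℕ} [Fact p.Prime] [NeZero p]
variable (A : ValuationSubring Qb) (hpM : ¬ p ∣ M) (hA : A.LiesOverPrime p)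
variable {σ' : LaurentSeries ℤ} (hat : GrdAtlas M A (jqModC ℤ) σ')

/-- **exact coordinates of integral thickness at every node, from the `E`-level germs.** -/
theorem mrntc_thick (hG : MrnxGermSpec M A hpM hA) : MrnxThick M A hpM hA hat :=
  mrnx_thick M A hpM hA hat (mrnz_dictSpec M A hpM hA hat) hG (mrnci_ordSpec M A hpM hA hat)

/-- **(COORD) from the `E`-level germs.** -/
theorem mrntc_coordSpec (hG : MrnxGermSpec M A hpM hA) : MrnCoordSpec M A hpM hA hat := by
  intro i
  obtain ⟨e, u, w, ε, κ, hC, -, -⟩ := mrntc_thick M A hpM hA hat hG i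
  exact ⟨u, w, ε, κ, hC⟩

/-- **a thickness function from the `E`-level germs**, equal to `1` at the nodes when
`2 ∣ M`, `3 ∣ M`. -/
theorem mrntc_isThick (h5 : 5 ≤ p) (hG : MrnxGermSpec M A hpM hA) :
    ∃ E : Place (ResidueField A) ↥(modularFunctionFieldFullC (ResidueField A) M) → ℕ,
      (∀ i : ttrkS M p A hpM hA hat,
        ∃ (u w ε : ↥(modularFunctionFieldBar (M * p))) (κ : Qb),
          MrnCoord M A hpM hA hat i u w ε κ ∧
          A.valuation κ = A.valuation (p : Qb) ^ E (ttrkSν₁ M p A hpM hA hat i)) ∧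
      (2 ∣ M → 3 ∣ M → ∀ i : ttrkS M p A hpM hA hat, E (ttrkSν₁ M p A hpM hA hat i) = 1) := by
  obtain ⟨E, hE, hc⟩ := mrntf_isThick M A hpM hA hat h5 (fun e => 2 ∣ M → 3 ∣ M → e = 1)
    (mrntc_thick M A hpM hA hat hG)
  exact ⟨E, hE, fun h2 h3 i => hc i h2 h3⟩

/-- **(THICK-ONE)** : at a level with `2 ∣ M`, `3 ∣ M` every node has exact coordinates of
thickness prime to `p` (indeed `1`). -/
theorem mrntc_thickOne (hG : MrnxGermSpec M A hpM hA) (h2 : 2 ∣ M) (h3 : 3 ∣ M)
    (i : ttrkS M p A hpM hA hat) :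
    ∃ (u w ε : ↥(modularFunctionFieldBar (M * p))) (κ : Qb) (e : ℕ),
      MrnCoord M A hpM hA hat i u w ε κ ∧ A.valuation κ = A.valuation (p : Qb) ^ e ∧
      ¬ p ∣ e := by
  obtain ⟨e, u, w, ε, κ, hC, hκ, he⟩ := mrntc_thick M A hpM hA hat hG i
  refine ⟨u, w, ε, κ, e, hC, hκ, ?_⟩
  rw [he h2 h3]
  exact (Fact.out : p.Prime).one_lt.ne' ∘ Nat.dvd_one.1

end Fermat.Agent.MR
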