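import Mathlib
import Fermat.Agent.TT.Red2.IntoNodeS
import Fermat.Agent.TT.Red2.IntoInst
import Fermat.Agent.TT.Red2.CountJC
import Fermat.Agent.TT.Red2.ChartAll
import Fermat.Agent.TT.Red2.ChartSmallMix

/-!
# PROGRAM MR (S44), block `mrn` : (SEP) SEPARATING FUNCTIONS AT THE NON-NODES (prefix `mrnsp`)

Owner: helper6 (MR-PM R68(3) (G1)).  Namespace `Fermat.Agent.MR`.  Imports MAIN only.

At every closed point `Q` of the first component which is NOT the first branch of a node there is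
ONE `e ∈ O2 = V₁ ⊓ V₂`, regular on the residue disc `ttrglCen₁ hat Q`, with `red₂ e = 0` and
`(red₁ e)(Q) ≠ 0`; symmetrically on the second component.

* `MrnSep₁Spec`, `MrnSep₂Spec` : the literals (`MrnSep₁Spec` = helper29's `MrsdSep₁` verbatim);
* `mrnsp_abs_ideal`, `mrnsp_abs_sep`, `mrnsp_abs_cusp` : the abstract chart algebra;
* `mrnsp_sep₁`, `mrnsp_sep₂` : any atlas, from `hR₁ hR₂ hcusp` (the literals of
  `ttrk_genus_le_S`) and, for the second component, `hbe : β τ ∈ B(α τ)`;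
* `mrnsp_sep₁_j`, `mrnsp_sep₂_j` : CLOSED for an atlas `(j, τ')`, `p ≥ 5`.
-/

set_option autoImplicit false
set_option linter.unusedSectionVars false
set_option linter.unusedVariables false
set_option linter.style.haveILetI false

noncomputable section

namespace Fermat.Agent.MR

open Polynomial ModularCurve AlgebraicCurve IsLocalRing IntermediateField
  Fermat.Agent.G Fermat.Agent.S18 Fermat.Agent.S24 Fermat.Agent.FF Fermat.Agent.TT

local notation "Qb" => AlgebraicClosure ℚ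

/-! ## 1. Abstract chart algebra -/

section Abs

variable {k F₁ F₂ B : Type*} [Field k] [IsAlgClosed k] [Field F₁] [Field F₂] [Algebra k F₁]
  [Algebra k F₂] [CommRing B] {t₁ : F₁} {t₂ : F₂}

/-- the closed point of the chart `B` below a place `Q` of ONE branch at which `r B` is regular. -/
theorem mrnsp_abs_ideal (r₁ : B →+* F₁)
    (hconst : ∀ c : k, ∃ b, r₁ b = algebraMap k F₁ c)
    (Q : Place k F₁) (hval : ∀ x : B, ∃ c : k, GrdVal Q (r₁ x) c) :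
    ∃ 𝔫 : Ideal B, 𝔫.IsMaximal ∧ RingHom.ker r₁ ≤ 𝔫 ∧ ∀ x, x ∈ 𝔫 ↔ GrdVal Q (r₁ x) 0 := by
  let 𝔫 : Ideal B :=
    { carrier := {x | GrdVal Q (r₁ x) 0}
      add_mem' := by
        intro a b ha hb
        show GrdVal Q (r₁ (a + b)) 0
        have := grdg_val_add Q ha hb
        rwa [← map_add, add_zero] at this
      zero_mem' := by
        show GrdVal Q (r₁ 0) 0
        rw [map_zero]
        have := grdg_val_algebraMap Q (0 : k)
        rwa [map_zero] at this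
      smul_mem' := by
        intro c a ha
        show GrdVal Q (r₁ (c • a)) 0
        obtain ⟨d, hd⟩ := hval c
        have := grdg_val_mul Q hd ha
        rwa [smul_eq_mul, map_mul, ← mul_zero d] }
  have hmem : ∀ x, x ∈ 𝔫 ↔ GrdVal Q (r₁ x) 0 := fun x => Iff.rfl
  refine ⟨𝔫, ?_, ?_, hmem⟩
  · rw [Ideal.isMaximal_iff]
    constructor
    · intro h1
      have h2 : GrdVal Q (r₁ 1) 0 := h1
      rw [map_one] at h2
      have h3 : GrdVal Q (1 : F₁) 1 := by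
        have := grdg_val_algebraMap Q (1 : k)
        rwa [map_one] at this
      exact zero_ne_one (grdg_val_unique Q h2 h3)
    · intro J x hJ hx hxJ
      obtain ⟨c, hc⟩ := hval x
      have hc0 : c ≠ 0 := by
        rintro rfl
        exact hx hc
      obtain ⟨b, hb⟩ := hconst c⁻¹
      have h1 : x * b - 1 ∈ 𝔫 := by
        show GrdVal Q (r₁ (x * b - 1)) 0
        rw [map_sub, map_mul, map_one, hb]
        have h2 := grdg_val_mul Q hc (grdg_val_algebraMap Q c⁻¹)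
        have h3 : GrdVal Q (1 : F₁) 1 := by
          have := grdg_val_algebraMap Q (1 : k)
          rwa [map_one] at this
        have h4 := ttrm_val_sub Q h2 h3
        rwa [mul_inv_cancel₀ hc0, sub_self] at h4
      have h2 : (1 : B) = x * b - (x * b - 1) := by ring
      rw [h2]
      exact J.sub_mem (J.mul_mem_right b hxJ) (hJ h1)
  · intro x hx
    show GrdVal Q (r₁ x) 0
    rw [RingHom.mem_ker.1 hx]
    have := grdg_val_algebraMap Q (0 : k)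
    rwa [map_zero] at this

/-- **(SEP), abstract, regular chart** : a place `Q` of the first branch of the chart which is not
the first member of a crossing pair is separated from the second branch by an element of `B`. -/
theorem mrnsp_abs_sep (ht₁ : IsSepGen k t₁) (ht₂ : IsSepGen k t₂)
    (r₁ : B →+* F₁) (r₂ : B →+* F₂)
    (hR₁ : ∀ y, y ∈ intRing k t₁ ↔ ∃ b, r₁ b = y) (hR₂ : ∀ y, y ∈ intRing k t₂ ↔ ∃ b, r₂ b = y)
    (hconst : ∀ c : k, ∃ b, r₁ b = algebraMap k F₁ c ∧ r₂ b = algebraMap k F₂ c)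
    (Q : Place k F₁) (hQ : t₁ ∈ Q.toValuationSubring)
    (hno : ∀ Q₂ : Place k F₂, ¬ TtrmPair r₁ r₂ t₁ t₂ Q Q₂) :
    ∃ e : B, r₂ e = 0 ∧ ¬ GrdVal Q (r₁ e) 0 := by
  by_contra hcon
  push Not at hcon
  have hval : ∀ x : B, ∃ c : k, GrdVal Q (r₁ x) c := fun x =>
    ttal_int_val ht₁ Q hQ ⟨r₁ x, (hR₁ _).2 ⟨x, rfl⟩⟩
  obtain ⟨𝔫, h𝔫, hk₁, hmem⟩ := mrnsp_abs_ideal r₁
    (fun c => (hconst c).imp fun b hb => hb.1) Q hval
  have hk₂ : RingHom.ker r₂ ≤ 𝔫 := fun x hx => (hmem x).2 (hcon x (RingHom.mem_ker.1 hx))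
  obtain ⟨Q₁, Q₂, hpair, hmem'⟩ := ttrm_exists_pair ht₁ ht₂ r₁ r₂ hR₁ hR₂ hconst 𝔫 h𝔫 hk₁ hk₂
  have hQQ : Q₁ = Q := by
    by_contra hne
    obtain ⟨y, hy0, hy1⟩ := grdg_separate ht₁ Q₁ Q hpair.1 hQ hne
    obtain ⟨b, hb⟩ := (hR₁ (y : F₁)).1 y.2
    have hb𝔫 : b ∈ 𝔫 := by
      rw [hmem', hb]
      exact hy0
    have h0 : GrdVal Q (r₁ b) 0 := (hmem b).1 hb𝔫
    rw [hb] at h0
    exact zero_ne_one (grdg_val_unique Q h0 hy1)
  rw [hQQ] at hpair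
  exact hno Q₂ hpair

/-- **(SEP), abstract, cusp chart** : if no closed point of the chart `B'` lying on both branches
contains `u'`, a place `Q` of the first branch with `(r₁ u')(Q) = 0` is separated from the second
branch by an element of `B'`. -/
theorem mrnsp_abs_cusp (r₁ : B →+* F₁) (r₂ : B →+* F₂)
    (hconst : ∀ c : k, ∃ b, r₁ b = algebraMap k F₁ c)
    (u' : B)
    (hcusp : ∀ 𝔫 : Ideal B, 𝔫.IsMaximal → RingHom.ker r₁ ≤ 𝔫 → RingHom.ker r₂ ≤ 𝔫 → u' ∉ 𝔫)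
    (Q : Place k F₁) (hval : ∀ x : B, ∃ c : k, GrdVal Q (r₁ x) c)
    (hu' : GrdVal Q (r₁ u') 0) :
    ∃ e : B, r₂ e = 0 ∧ ¬ GrdVal Q (r₁ e) 0 := by
  by_contra hcon
  push Not at hcon
  obtain ⟨𝔫, h𝔫, hk₁, hmem⟩ := mrnsp_abs_ideal r₁ hconst Q hval
  have hk₂ : RingHom.ker r₂ ≤ 𝔫 := fun x hx => (hmem x).2 (hcon x (RingHom.mem_ker.1 hx))
  exact hcusp 𝔫 h𝔫 hk₁ hk₂ ((hmem u').2 hu')

end Abs

/-! ## 2. The literals -/

section Spec

variable (M : ℕ) [NeZero M] {p : ℕ} [Fact p.Prime] [NeZero p]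
variable (A : ValuationSubring Qb) (hpM : ¬ p ∣ M) (hA : A.LiesOverPrime p)
variable {τ τ' : LaurentSeries ℤ} (hat : GrdAtlas M A τ τ')

/-- **(SEP), first component** : at every closed point `Q` of the first component which is not the
first branch of a node there is `e ∈ O2`, regular on the residue disc of `Q`, vanishing on the
second component and not at `Q`. -/
def MrnSep₁Spec : Prop :=
  ∀ Q : Place (ResidueField A) ↥(modularFunctionFieldFullC (ResidueField A) M),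
    (∀ i, ttrkSν₁ M p A hpM hA hat i ≠ Q) →
    ∃ (e : ↥(modularFunctionFieldBar (M * p))) (he : e ∈ ttrglO2 M A hpM hA),
      (∀ v, ttrglCen₁ M A hpM hA hat Q v → e ∈ v.toValuationSubring) ∧
      ttrglRed₂ M A hpM hA ⟨e, he⟩ = 0 ∧
      ¬ GrdVal Q (ttrglRed₁ M A hpM hA ⟨e, he⟩) 0

/-- **(SEP), second component.** -/
def MrnSep₂Spec : Prop :=
  ∀ Q : Place (ResidueField A) ↥(modularFunctionFieldFullC (ResidueField A) M),
    (∀ i, ttrkSν₂ M p A hpM hA hat i ≠ Q) →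
    ∃ (e : ↥(modularFunctionFieldBar (M * p))) (he : e ∈ ttrglO2 M A hpM hA),
      (∀ v, ttrglCen₂ M A hpM hA hat Q v → e ∈ v.toValuationSubring) ∧
      ttrglRed₁ M A hpM hA ⟨e, he⟩ = 0 ∧
      ¬ GrdVal Q (ttrglRed₂ M A hpM hA ⟨e, he⟩) 0

end Spec

/-! ## 3. The charts -/

section Chart

variable (M : ℕ) [NeZero M] {p : ℕ} [Fact p.Prime] [NeZero p]
variable (A : ValuationSubring Qb) (hpM : ¬ p ∣ M) (hA : A.LiesOverPrime p)
variable {τ τ' : LaurentSeries ℤ} (hat : GrdAtlas M A τ τ')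

/-- the chart `τ`, first component. -/
theorem mrnsp_chart₁
    (hR₁ : ∀ y, y ∈ intRing (ResidueField A) (grdK M A hat.c.mem) ↔
      ∃ b, ttrkR₁ (ttrkT M p A hpM hA hat) b = y)
    (hR₂ : ∀ y, y ∈ intRing (ResidueField A) (grdK M A hat.c.mem) ↔
      ∃ b, ttrkR₂ (ttrkT M p A hpM hA hat) b = y)
    (Q : Place (ResidueField A) ↥(modularFunctionFieldFullC (ResidueField A) M))
    (hQ : grdK M A hat.c.mem ∈ Q.toValuationSubring)
    (hno : ∀ i, ttrkSν₁ M p A hpM hA hat i ≠ Q) :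
    ∃ (e : ↥(modularFunctionFieldBar (M * p)))
      (he : e ∈ grdB (M * p) A (heckeAlphaBar Qb M p (grdQ M hat.c.mem))),
      ttrglRed₂ M A hpM hA ⟨e, ttrgl_le₁ M A hpM hA hat.c he⟩ = 0 ∧
      ¬ GrdVal Q (ttrglRed₁ M A hpM hA ⟨e, ttrgl_le₁ M A hpM hA hat.c he⟩) 0 := by
  haveI : IsAlgClosed (ResidueField A) := grd_isAlgClosed_residue A
  obtain ⟨e, he₂, he₁⟩ := mrnsp_abs_sep hat.c.sepK hat.c.sepK
    (ttrkR₁ (ttrkT M p A hpM hA hat)) (ttrkR₂ (ttrkT M p A hpM hA hat)) hR₁ hR₂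
    (ttrk_plug_const (ttrkT M p A hpM hA hat)) Q hQ
    (fun Q₂ h => hno ⟨(Q, Q₂), h⟩ rfl)
  exact ⟨(e : ↥(modularFunctionFieldBar (M * p))), e.2, he₂, he₁⟩

/-- the chart `τ`, second component. -/
theorem mrnsp_chart₂
    (hR₁ : ∀ y, y ∈ intRing (ResidueField A) (grdK M A hat.c.mem) ↔
      ∃ b, ttrkR₁ (ttrkT M p A hpM hA hat) b = y)
    (hR₂ : ∀ y, y ∈ intRing (ResidueField A) (grdK M A hat.c.mem) ↔
      ∃ b, ttrkR₂ (ttrkT M p A hpM hA hat) b = y)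
    (Q : Place (ResidueField A) ↥(modularFunctionFieldFullC (ResidueField A) M))
    (hQ : grdK M A hat.c.mem ∈ Q.toValuationSubring)
    (hno : ∀ i, ttrkSν₂ M p A hpM hA hat i ≠ Q) :
    ∃ (e : ↥(modularFunctionFieldBar (M * p)))
      (he : e ∈ grdB (M * p) A (heckeAlphaBar Qb M p (grdQ M hat.c.mem))),
      ttrglRed₁ M A hpM hA ⟨e, ttrgl_le₁ M A hpM hA hat.c he⟩ = 0 ∧
      ¬ GrdVal Q (ttrglRed₂ M A hpM hA ⟨e, ttrgl_le₁ M A hpM hA hat.c he⟩) 0 := by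
  haveI : IsAlgClosed (ResidueField A) := grd_isAlgClosed_residue A
  obtain ⟨e, he₁, he₂⟩ := mrnsp_abs_sep hat.c.sepK hat.c.sepK
    (ttrkR₂ (ttrkT M p A hpM hA hat)) (ttrkR₁ (ttrkT M p A hpM hA hat)) hR₂ hR₁
    (fun c => (ttrk_plug_const (ttrkT M p A hpM hA hat) c).imp fun b hb => ⟨hb.2, hb.1⟩) Q hQ
    (fun Q₁ h => hno ⟨(Q₁, Q), ⟨h.2.1, h.1, fun x => (h.2.2 x).imp fun c hc => ⟨hc.2, hc.1⟩⟩⟩ rfl)
  exact ⟨(e : ↥(modularFunctionFieldBar (M * p))), e.2, he₁, he₂⟩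

/-- the cusp chart `τ'`, first component : no hypothesis on `Q` besides `τ̄'(Q) = 0`. -/
theorem mrnsp_cusp₁
    (hcusp : ∀ 𝔫 : Ideal ↥(ttrkT M p A hpM hA hat).B', 𝔫.IsMaximal →
      RingHom.ker (ttrkR₁' (ttrkT M p A hpM hA hat)) ≤ 𝔫 →
      RingHom.ker (ttrkR₂' (ttrkT M p A hpM hA hat)) ≤ 𝔫 →
      (⟨(ttrkT M p A hpM hA hat).u', (ttrkT M p A hpM hA hat).hu'⟩ :
        ↥(ttrkT M p A hpM hA hat).B') ∉ 𝔫)
    (Q : Place (ResidueField A) ↥(modularFunctionFieldFullC (ResidueField A) M))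
    (hQ : grdK M A hat.c.mem ∉ Q.toValuationSubring) :
    ∃ (e : ↥(modularFunctionFieldBar (M * p)))
      (he : e ∈ grdB (M * p) A (heckeAlphaBar Qb M p (grdQ M hat.c'.mem))),
      ttrglRed₂ M A hpM hA ⟨e, ttrgl_le₁ M A hpM hA hat.c' he⟩ = 0 ∧
      ¬ GrdVal Q (ttrglRed₁ M A hpM hA ⟨e, ttrgl_le₁ M A hpM hA hat.c' he⟩) 0 := by
  haveI : IsAlgClosed (ResidueField A) := grd_isAlgClosed_residue A
  have hQ' : grdK M A hat.c'.mem ∈ Q.toValuationSubring := ttrgl_chartK' M A hat Q hQ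
  have h0 : GrdVal Q (grdK M A hat.c'.mem) 0 := by
    rcases grd_chart_coverK M A hat Q with h | h
    · exact absurd h hQ
    · exact h
  have hu := (ttrk_plug_u' (ttrkT M p A hpM hA hat) (ttrkT_ub' M p A hpM hA hat)).1
  obtain ⟨e, he₂, he₁⟩ := mrnsp_abs_cusp
    (ttrkR₁' (ttrkT M p A hpM hA hat)) (ttrkR₂' (ttrkT M p A hpM hA hat))
    (fun c => (ttrk_plug_const' (ttrkT M p A hpM hA hat) c).imp fun b hb => hb.1)
    ⟨(ttrkT M p A hpM hA hat).u', (ttrkT M p A hpM hA hat).hu'⟩ hcusp Q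
    (fun x => ttrgl_valQ₁ M A hpM hA hat.c' Q hQ' ⟨(x : ↥(modularFunctionFieldBar (M * p))), x.2⟩)
    (by rw [hu]; exact h0)
  exact ⟨(e : ↥(modularFunctionFieldBar (M * p))), e.2, he₂, he₁⟩

end Chart

/-! ## 4. (SEP) on any atlas -/

section Sep

variable (M : ℕ) [NeZero M] {p : ℕ} [Fact p.Prime] [NeZero p]
variable (A : ValuationSubring Qb) (hpM : ¬ p ∣ M) (hA : A.LiesOverPrime p)
variable {τ τ' : LaurentSeries ℤ} (hat : GrdAtlas M A τ τ')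

/-- **(SEP), first component, any atlas.** -/
theorem mrnsp_sep₁
    (hR₁ : ∀ y, y ∈ intRing (ResidueField A) (grdK M A hat.c.mem) ↔
      ∃ b, ttrkR₁ (ttrkT M p A hpM hA hat) b = y)
    (hR₂ : ∀ y, y ∈ intRing (ResidueField A) (grdK M A hat.c.mem) ↔
      ∃ b, ttrkR₂ (ttrkT M p A hpM hA hat) b = y)
    (hcusp : ∀ 𝔫 : Ideal ↥(ttrkT M p A hpM hA hat).B', 𝔫.IsMaximal →
      RingHom.ker (ttrkR₁' (ttrkT M p A hpM hA hat)) ≤ 𝔫 →
      RingHom.ker (ttrkR₂' (ttrkT M p A hpM hA hat)) ≤ 𝔫 →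
      (⟨(ttrkT M p A hpM hA hat).u', (ttrkT M p A hpM hA hat).hu'⟩ :
        ↥(ttrkT M p A hpM hA hat).B') ∉ 𝔫) :
    MrnSep₁Spec M A hpM hA hat := by
  intro Q hno
  by_cases hQ : grdK M A hat.c.mem ∈ Q.toValuationSubring
  · obtain ⟨e, he, he₂, he₁⟩ := mrnsp_chart₁ M A hpM hA hat hR₁ hR₂ Q hQ hno
    refine ⟨e, ttrgl_le₁ M A hpM hA hat.c he, fun v hv => ?_, he₂, he₁⟩
    rw [ttrgl_cen₁_pos M A hpM hA hat Q hQ] at hv
    exact (ttrgl_pkC₁ M A hpM hA hat.c Q hQ).mem hv ⟨e, he⟩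
  · obtain ⟨e, he, he₂, he₁⟩ := mrnsp_cusp₁ M A hpM hA hat hcusp Q hQ
    refine ⟨e, ttrgl_le₁ M A hpM hA hat.c' he, fun v hv => ?_, he₂, he₁⟩
    rw [ttrgl_cen₁_neg M A hpM hA hat Q hQ] at hv
    exact (ttrgl_pkC₁ M A hpM hA hat.c' Q (ttrgl_chartK' M A hat Q hQ)).mem hv ⟨e, he⟩

include hpM in
/-- `B(α υ) ≤ B(β υ)` from `hbe : β υ ∈ B(α υ)` (the `w`-twin). -/
theorem mrnsp_al_le_be {υ : LaurentSeries ℤ} (hυ : GrdSerMem M υ)
    (hbe : heckeBetaBar Qb M p (grdQ M hυ) ∈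
      grdB (M * p) A (heckeAlphaBar Qb M p (grdQ M hυ))) :
    grdB (M * p) A (heckeAlphaBar Qb M p (grdQ M hυ)) ≤
      grdB (M * p) A (heckeBetaBar Qb M p (grdQ M hυ)) := by
  have h := ttr_isInt_w M A hpM hbe
  rw [ttrW_alpha, ttrW_beta] at h
  exact ttrc_grdB_trans (M * p) A h

/-- **(SEP), second component, any atlas with `β τ ∈ B(α τ)`.** -/
theorem mrnsp_sep₂
    (hR₁ : ∀ y, y ∈ intRing (ResidueField A) (grdK M A hat.c.mem) ↔
      ∃ b, ttrkR₁ (ttrkT M p A hpM hA hat) b = y)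
    (hR₂ : ∀ y, y ∈ intRing (ResidueField A) (grdK M A hat.c.mem) ↔
      ∃ b, ttrkR₂ (ttrkT M p A hpM hA hat) b = y)
    (hcusp : ∀ 𝔫 : Ideal ↥(ttrkT M p A hpM hA hat).B', 𝔫.IsMaximal →
      RingHom.ker (ttrkR₁' (ttrkT M p A hpM hA hat)) ≤ 𝔫 →
      RingHom.ker (ttrkR₂' (ttrkT M p A hpM hA hat)) ≤ 𝔫 →
      (⟨(ttrkT M p A hpM hA hat).u', (ttrkT M p A hpM hA hat).hu'⟩ :
        ↥(ttrkT M p A hpM hA hat).B') ∉ 𝔫)
    (hbe : heckeBetaBar Qb M p (grdQ M hat.c.mem) ∈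
      grdB (M * p) A (heckeAlphaBar Qb M p (grdQ M hat.c.mem))) :
    MrnSep₂Spec M A hpM hA hat := by
  intro Q hno
  by_cases hQ : grdK M A hat.c.mem ∈ Q.toValuationSubring
  · obtain ⟨e, he, he₁, he₂⟩ := mrnsp_chart₂ M A hpM hA hat hR₁ hR₂ Q hQ hno
    have he' : e ∈ grdB (M * p) A (heckeBetaBar Qb M p (grdQ M hat.c.mem)) :=
      mrnsp_al_le_be M A hpM hat.c.mem hbe he
    refine ⟨e, ttrgl_le₁ M A hpM hA hat.c he, fun v hv => ?_, he₁, he₂⟩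
    rw [ttrgl_cen₂_pos M A hpM hA hat Q hQ] at hv
    exact (ttrgl_pkC₂ M A hpM hA hat.c Q hQ).mem hv ⟨e, he'⟩
  · obtain ⟨e₁, he₁, h₂, h₁⟩ := mrnsp_cusp₁ M A hpM hA hat hcusp Q hQ
    have he' : ttrW M hpM e₁ ∈ grdB (M * p) A (heckeBetaBar Qb M p (grdQ M hat.c'.mem)) := by
      have h := ttr_isInt_w M A hpM he₁
      rwa [ttrW_alpha] at h
    have heO : ttrW M hpM e₁ ∈ ttrglO2 M A hpM hA := ttrgl_le₂ M A hpM hA hat.c' he'
    refine ⟨ttrW M hpM e₁, heO, fun v hv => ?_, h₂, ?_⟩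
    · rw [ttrgl_cen₂_neg M A hpM hA hat Q hQ] at hv
      exact (ttrgl_pkC₂ M A hpM hA hat.c' Q (ttrgl_chartK' M A hat Q hQ)).mem hv
        ⟨ttrW M hpM e₁, he'⟩
    · have e : ttrglRed₂ M A hpM hA ⟨ttrW M hpM e₁, heO⟩ =
          ttrglRed₁ M A hpM hA ⟨e₁, ttrgl_le₁ M A hpM hA hat.c' he₁⟩ := by
        show ttraRed1 M A hpM hA ⟨ttrW M hpM (ttrW M hpM e₁), heO.2⟩ =
          ttraRed1 M A hpM hA ⟨e₁, (ttrgl_le₁ M A hpM hA hat.c' he₁).1⟩
        congr 1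
        exact Subtype.ext (ttrW_invol M hpM e₁)
      rw [e]
      exact h₁

end Sep

/-! ## 5. CLOSED at an atlas `(j, τ')`, `p ≥ 5` -/

section J

variable (M : ℕ) [NeZero M] {p : ℕ} [Fact p.Prime] [NeZero p]
variable (A : ValuationSubring Qb) (hpM : ¬ p ∣ M) (hA : A.LiesOverPrime p)
variable {τ' : LaurentSeries ℤ}

/-- **(SEP), first component, CLOSED at the atlas `(j, τ')`, `p ≥ 5`.** -/
theorem mrnsp_sep₁_j (h5 : 5 ≤ p) (hat : GrdAtlas M A (jqModC ℤ) τ') :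
    MrnSep₁Spec M A hpM hA hat :=
  mrnsp_sep₁ M A hpM hA hat (ttrc_T_hR_j M p A hpM hA h5 hat).1
    (ttrc_T_hR_j M p A hpM hA h5 hat).2.1 (ttrkJ_hcusp M p A hpM hA hat)

/-- **(SEP), second component, CLOSED at the atlas `(j, τ')`, `p ≥ 5`.** -/
theorem mrnsp_sep₂_j (h5 : 5 ≤ p) (hat : GrdAtlas M A (jqModC ℤ) τ') :
    MrnSep₂Spec M A hpM hA hat :=
  mrnsp_sep₂ M A hpM hA hat (ttrc_T_hR_j M p A hpM hA h5 hat).1
    (ttrc_T_hR_j M p A hpM hA h5 hat).2.1 (ttrkJ_hcusp M p A hpM hA hat)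
    (ttr_chart_Y_mem M A hpM hA)

end J

end Fermat.Agent.MR
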