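import Mathlib
import Fermat.Agent.MR.Node.OneZero
import Fermat.Agent.MR.Slope.PlugNode

/-!
# PROGRAM MR (S44), block `mrn` : **`MrsNode` AT EVERY NODE OF EVERY LEVEL** (prefix `mrnup`)

Generic in the level `M` (prime to `p ≥ 5`), the chart `j` (`hat : GrdAtlas M A j σ'`).

* `mrnup_unitSpec` : `MrnUnitSpec` (= `mrn_unit`, `MR/Node/Glue.lean`).
* `mrnup_node_of_coord` : node coordinates `MrnCoord i u w ε κ` give helper29's
  `MrsNode A V₁ V₂ red₁ red₂ (ν₁ i) (ν₂ i) (ttruCenS i) u (w ε⁻¹) κ`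
  (`mrs_node_of_mrn` fed with the closed `mrn_oneZero_j`).
* `mrnup_node` : for a thickness function `E` (unfolded `MrmIsThick`: at every node there are node
  coordinates with `v(κ) = v(p) ^ E (ν₁ i)`), at every node `i` there are `u w κ` with `MrsNode` and
  `v(κ) = v(p) ^ E (ν₁ i)`; `mrnup_node'` keeps the coordinates visible.
* `mrnup_free` : a function of `F_ℚ̄(M p)` has no zero and no pole at a place `R` centred at the node
  as soon as it has a nonzero value there; in particular `u` (`mrnup_u_free`).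
-/

set_option autoImplicit false
set_option linter.unusedSectionVars false
set_option linter.unusedVariables false
set_option linter.style.haveILetI false
set_option synthInstance.maxHeartbeats 400000

noncomputable section

namespace Fermat.Agent.MR

open Polynomial ModularCurve AlgebraicCurve IsLocalRing IntermediateField
  Fermat.Agent.G Fermat.Agent.S18 Fermat.Agent.S24 Fermat.Agent.FF Fermat.Agent.TT
  Fermat.Agent.SS

local notation "Qb" => AlgebraicClosure ℚ

variable (M : ℕ) [NeZero M] {p : ℕ} [Fact p.Prime] [NeZero p]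
variable (A : ValuationSubring Qb) (hpM : ¬ p ∣ M) (hA : A.LiesOverPrime p)

/-- **units of `O_s`** (every atlas). -/
theorem mrnup_unitSpec {τ τ' : LaurentSeries ℤ} (hat : GrdAtlas M A τ τ') :
    MrnUnitSpec M A hpM hA hat :=
  fun i x hx hne => mrn_unit M A hpM hA hat i x hx hne

variable {σ' : LaurentSeries ℤ} (hat : GrdAtlas M A (jqModC ℤ) σ')

/-- **`MrsNode` from node coordinates** (`p ≥ 5`, the `j`-atlas, every level). -/
theorem mrnup_node_of_coord (h5 : 5 ≤ p) (i : ttrkS M p A hpM hA hat)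
    (u w ε : ↥(modularFunctionFieldBar (M * p))) (κ : Qb)
    (hC : MrnCoord M A hpM hA hat i u w ε κ) :
    MrsNode A (ttrV1 M A hpM hA) (ttraV2 M A hpM hA) (ttraRed1 M A hpM hA)
      (ttraRed2 M A hpM hA) (ttrkSν₁ M p A hpM hA hat i) (ttrkSν₂ M p A hpM hA hat i)
      (ttruCenS M A hpM hA hat i) u (w * ε⁻¹) κ :=
  mrs_node_of_mrn M A hpM hA hat (mrn_oneZero_j M A hpM hA h5 hat) i u w ε κ hC

/-- **`MrsNode` at every node for a thickness function**, coordinates visible. -/
theorem mrnup_node' (h5 : 5 ≤ p)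
    (E : Place (ResidueField A) ↥(modularFunctionFieldFullC (ResidueField A) M) → ℕ)
    (hE : ∀ i : ttrkS M p A hpM hA hat,
      ∃ (u w ε : ↥(modularFunctionFieldBar (M * p))) (κ : Qb),
        MrnCoord M A hpM hA hat i u w ε κ ∧
        A.valuation κ = A.valuation (p : Qb) ^ E (ttrkSν₁ M p A hpM hA hat i))
    (i : ttrkS M p A hpM hA hat) :
    ∃ (u w ε : ↥(modularFunctionFieldBar (M * p))) (κ : Qb),
      MrnCoord M A hpM hA hat i u w ε κ ∧
      MrsNode A (ttrV1 M A hpM hA) (ttraV2 M A hpM hA) (ttraRed1 M A hpM hA)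
        (ttraRed2 M A hpM hA) (ttrkSν₁ M p A hpM hA hat i) (ttrkSν₂ M p A hpM hA hat i)
        (ttruCenS M A hpM hA hat i) u (w * ε⁻¹) κ ∧
      A.valuation κ = A.valuation (p : Qb) ^ E (ttrkSν₁ M p A hpM hA hat i) := by
  obtain ⟨u, w, ε, κ, hC, hκ⟩ := hE i
  exact ⟨u, w, ε, κ, hC, mrnup_node_of_coord M A hpM hA hat h5 i u w ε κ hC, hκ⟩

/-- **`MrsNode` at every node for a thickness function.** -/
theorem mrnup_node (h5 : 5 ≤ p)
    (E : Place (ResidueField A) ↥(modularFunctionFieldFullC (ResidueField A) M) → ℕ)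
    (hE : ∀ i : ttrkS M p A hpM hA hat,
      ∃ (u w ε : ↥(modularFunctionFieldBar (M * p))) (κ : Qb),
        MrnCoord M A hpM hA hat i u w ε κ ∧
        A.valuation κ = A.valuation (p : Qb) ^ E (ttrkSν₁ M p A hpM hA hat i))
    (i : ttrkS M p A hpM hA hat) :
    ∃ (u w : ↥(modularFunctionFieldBar (M * p))) (κ : Qb),
      MrsNode A (ttrV1 M A hpM hA) (ttraV2 M A hpM hA) (ttraRed1 M A hpM hA)
        (ttraRed2 M A hpM hA) (ttrkSν₁ M p A hpM hA hat i) (ttrkSν₂ M p A hpM hA hat i)
        (ttruCenS M A hpM hA hat i) u w κ ∧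
      A.valuation κ = A.valuation (p : Qb) ^ E (ttrkSν₁ M p A hpM hA hat i) := by
  obtain ⟨u, w, ε, κ, -, hN, hκ⟩ := mrnup_node' M A hpM hA hat h5 E hE i
  exact ⟨u, w * ε⁻¹, κ, hN, hκ⟩

variable {M A hpM hA hat}

/-- a function with a nonzero value at a place has neither a zero nor a pole there. -/
theorem mrnup_free {N : ℕ} [NeZero N] (R : Place Qb ↥(modularFunctionFieldBar N))
    {f : ↥(modularFunctionFieldBar N)} {c : Qb} (hc : c ≠ 0) (hval : GrdVal R f c) :
    R.ord f = 0 :=
  ttri_ord_eq_zero R (grdg_val_mem R hval) fun h0 => hc (grdg_val_unique R hval h0)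

/-- the first coordinate has neither a zero nor a pole on the annulus. -/
theorem mrnup_u_free (h5 : 5 ≤ p) {i : ttrkS M p A hpM hA hat}
    {u w ε : ↥(modularFunctionFieldBar (M * p))} {κ : Qb}
    (hC : MrnCoord M A hpM hA hat i u w ε κ)
    (R : Place Qb ↥(modularFunctionFieldBar (M * p))) (hR : ttruCenS M A hpM hA hat i R) :
    R.ord u = 0 := by
  obtain ⟨c, -, hc0, -, hval, -⟩ := mrn_oneZero_j M A hpM hA h5 hat i u w ε κ hC R hR
  exact mrnup_free R hc0 hval

end Fermat.Agent.MR
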